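import Mathlib

/-!
# Cartesian lattices (GATEWAY WP-GR6 / C0 (G0))

Let `A` be a valuation subring of a field `K` and `W` a `K`-vector space with a basis `e`.
The unit ball `ball A e = {w | all coordinates of w lie in A}` is an `A`-submodule of `W`, and for
every finite-dimensional `K`-subspace `V` of `W` the lattice `V ∩ ball` is a finitely generated
`A`-module (`fg_inf_ball`).  No completeness / discreteness assumption on `A`.

Function-field form (`fg_inf_of_orthonormal`): if `O` is a valuation subring of a field `F ⊇ K` and
`e : S → F` is a `K`-linearly independent family which is orthonormal for `O`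
(`∑ a_s e_s ∈ O ↔ ∀ s, a_s ∈ A`), then `V ∩ O` is a finitely generated `A`-module for every
finite-dimensional `V ≤ span_K e`; and `fg_inf_of_orthonormal_mul` allows a unit denominator `q`.
-/

set_option autoImplicit false
set_option linter.unusedSectionVars false

namespace Fermat.Agent.Gateway.C0

open Module

section Pure

variable {K : Type*} [Field K] (A : ValuationSubring K)
variable {W : Type*} [AddCommGroup W] [Module K W] {S : Type*} (e : Basis S K W)

/-- The unit ball of the basis `e`: vectors all of whose coordinates lie in `A`. -/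
def ball : Submodule A W where
  carrier := {w | ∀ s, e.repr w s ∈ A}
  zero_mem' := fun s => by simp
  add_mem' := by
    intro x y hx hy s
    rw [map_add, Finsupp.add_apply]
    exact add_mem (hx s) (hy s)
  smul_mem' := by
    intro a x hx s
    have : a • x = (a : K) • x := rfl
    rw [this, map_smul, Finsupp.smul_apply, smul_eq_mul]
    exact mul_mem a.2 (hx s)

theorem mem_ball {w : W} : w ∈ ball A e ↔ ∀ s, e.repr w s ∈ A := Iff.rfl

/-- A nonzero vector can be scaled to a vector of the ball one of whose coordinates is `1`. -/
theorem exists_normalised {u : W} (hu : u ≠ 0) :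
    ∃ (c : K) (s₀ : S), c ≠ 0 ∧ e.repr (c • u) s₀ = 1 ∧ c • u ∈ ball A e := by
  classical
  have hsupp : (e.repr u).support.Nonempty := by
    rw [Finsupp.support_nonempty_iff]
    intro h
    exact hu (e.repr.map_eq_zero_iff.mp h)
  obtain ⟨s₀, hs₀, hmax⟩ := Finset.exists_max_image _ (fun s => A.valuation (e.repr u s)) hsupp
  have hne : e.repr u s₀ ≠ 0 := Finsupp.mem_support_iff.mp hs₀
  refine ⟨(e.repr u s₀)⁻¹, s₀, inv_ne_zero hne, ?_, fun s => ?_⟩
  · rw [map_smul, Finsupp.smul_apply, smul_eq_mul, inv_mul_cancel₀ hne]
  · rw [map_smul, Finsupp.smul_apply, smul_eq_mul, ← A.valuation_le_one_iff, map_mul, map_inv₀]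
    by_cases hs : s ∈ (e.repr u).support
    · have h1 := hmax s hs
      have h0 : A.valuation (e.repr u s₀) ≠ 0 := (A.valuation.ne_zero_iff).mpr hne
      rw [inv_mul_le_iff₀ (zero_lt_iff.mpr h0), mul_one]
      exact h1
    · rw [Finsupp.notMem_support_iff.mp hs, map_zero, mul_zero]
      exact zero_le_one

/-- **Cartesian lemma.** The intersection of a finite-dimensional subspace with the unit ball of a
basis is a finitely generated module over the valuation ring. -/
theorem fg_inf_ball (V : Submodule K W) [FiniteDimensional K V] :
    (V.restrictScalars A ⊓ ball A e).FG := by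
  classical
  induction hn : finrank K V using Nat.strong_induction_on generalizing V with
  | _ n ih =>
    by_cases hV : V = ⊥
    · subst hV
      have : (⊥ : Submodule K W).restrictScalars A ⊓ ball A e = ⊥ := by
        rw [eq_bot_iff]
        intro x hx
        have := hx.1
        simpa using this
      rw [this]
      exact Submodule.fg_bot
    · obtain ⟨u, huV, hu0⟩ := Submodule.exists_mem_ne_zero_of_ne_bot hV
      obtain ⟨c, s₀, hc, hone, hball⟩ := exists_normalised A e hu0
      set u' : W := c • u with hu'
      have hu'V : u' ∈ V := V.smul_mem c huV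
      -- the hyperplane section
      set V₁ : Submodule K W := V ⊓ LinearMap.ker (e.coord s₀) with hV₁
      have hlt : V₁ < V := by
        refine lt_of_le_of_ne inf_le_left fun h => ?_
        have : u' ∈ V₁ := h ▸ hu'V
        have h0 : e.coord s₀ u' = 0 := this.2
        rw [Basis.coord_apply, hone] at h0
        exact one_ne_zero h0
      have : FiniteDimensional K V₁ := Submodule.finiteDimensional_of_le inf_le_left
      have hfg₁ := ih (finrank K V₁) (hn ▸ Submodule.finrank_lt_finrank_of_lt hlt) V₁ rfl
      have hsplit : V.restrictScalars A ⊓ ball A e =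
          Submodule.span A {u'} ⊔ (V₁.restrictScalars A ⊓ ball A e) := by
        apply le_antisymm
        · intro v hv
          have hvV : v ∈ V := hv.1
          have hvB : v ∈ ball A e := hv.2
          set a : A := ⟨e.repr v s₀, hvB s₀⟩ with ha
          have hdec : v = a • u' + (v - a • u') := by abel
          rw [hdec]
          refine Submodule.add_mem_sup (Submodule.smul_mem _ _ (Submodule.mem_span_singleton_self _))
            ⟨⟨?_, ?_⟩, ?_⟩
          · exact V.sub_mem hvV (V.smul_mem (a : K) hu'V)
          · show e.coord s₀ (v - a • u') = 0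
            have : a • u' = (a : K) • u' := rfl
            rw [this, map_sub, map_smul, Basis.coord_apply, Basis.coord_apply, hone, smul_eq_mul,
              mul_one, ha]
            exact sub_self _
          · exact (ball A e).sub_mem hvB ((ball A e).smul_mem a hball)
        · refine sup_le ?_ (inf_le_inf_right _ ?_)
          · rw [Submodule.span_singleton_le_iff_mem]
            exact ⟨hu'V, hball⟩
          · intro x hx
            exact (inf_le_left : V₁ ≤ V) hx
      rw [hsplit]
      exact (Submodule.fg_span_singleton u').sup hfg₁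

end Pure

section Field

variable {K : Type*} [Field K] (A : ValuationSubring K)
variable {F : Type*} [Field F] [Algebra K F] (O : ValuationSubring F)

/-- **Cartesian lemma, function-field form.**  `e` is a `K`-linearly independent family of `F`
which is orthonormal for `O` over `A`; then `V ∩ O` is a finitely generated `A`-module for every
finite-dimensional `K`-subspace `V` of the span of `e`. -/
theorem fg_inf_of_orthonormal {S : Type*} (e : S → F) (hli : LinearIndependent K e)
    (horth : ∀ a : S →₀ K, (a.sum fun s c => c • e s) ∈ O ↔ ∀ s, a s ∈ A)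
    (V : Submodule K F) [FiniteDimensional K V] (hV : V ≤ Submodule.span K (Set.range e))
    (L : Submodule A F) (hL : ∀ f, f ∈ L ↔ f ∈ V ∧ f ∈ O) : L.FG := by
  classical
  set W : Submodule K F := Submodule.span K (Set.range e) with hW
  set B : Basis S K W := Basis.span hli with hB
  set V' : Submodule K W := V.comap W.subtype with hV'
  have : FiniteDimensional K V' := by
    have : Function.Injective (W.subtype.domRestrict V' : V' →ₗ[K] F) := by
      intro x y hxy
      exact Subtype.ext (Subtype.ext hxy)
    have hf : ∀ x : V', (W.subtype.domRestrict V') x ∈ V := fun x => x.2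
    exact FiniteDimensional.of_injective
      ((W.subtype.domRestrict V').codRestrict V hf)
      (fun x y hxy => this (by simpa using congrArg Subtype.val hxy))
  have hfg := fg_inf_ball A B V'
  have hball : ∀ w : W, w ∈ ball A B ↔ (w : F) ∈ O := by
    intro w
    rw [mem_ball, ← horth (B.repr w)]
    have h1 : ((B.repr w).sum fun s c => c • e s) = (w : F) := by
      have h2 := B.linearCombination_repr w
      have h3 := congrArg (W.subtype) h2
      rw [Finsupp.linearCombination_apply, map_finsuppSum] at h3
      rw [Submodule.subtype_apply] at h3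
      rw [← h3]
      refine Finsupp.sum_congr fun s _ => ?_
      rw [map_smul, Submodule.subtype_apply, hB, Basis.span_apply]
    rw [h1]
  have hmap : L = (V'.restrictScalars A ⊓ ball A B).map (W.subtype.restrictScalars A) := by
    ext f
    rw [hL, Submodule.mem_map]
    constructor
    · rintro ⟨hfV, hfO⟩
      refine ⟨⟨f, hV hfV⟩, ⟨hfV, (hball _).mpr hfO⟩, rfl⟩
    · rintro ⟨w, ⟨hwV, hwB⟩, rfl⟩
      exact ⟨hwV, (hball w).mp hwB⟩
  rw [hmap]
  exact hfg.map _

/-- Version with a unit denominator: `q V ≤ span e` for a unit `q` of `O`. -/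
theorem fg_inf_of_orthonormal_mul {S : Type*} (e : S → F) (hli : LinearIndependent K e)
    (horth : ∀ a : S →₀ K, (a.sum fun s c => c • e s) ∈ O ↔ ∀ s, a s ∈ A)
    (V : Submodule K F) [FiniteDimensional K V] (q : F) (hq0 : q ≠ 0) (hq : q ∈ O)
    (hq' : q⁻¹ ∈ O) (hqV : ∀ f ∈ V, q * f ∈ Submodule.span K (Set.range e))
    (L : Submodule A F) (hL : ∀ f, f ∈ L ↔ f ∈ V ∧ f ∈ O) : L.FG := by
  classical
  set Vq : Submodule K F := V.map (LinearMap.mulLeft K q) with hVq
  set Lq : Submodule A F := L.map (LinearMap.mulLeft A q) with hLq
  have hVq_le : Vq ≤ Submodule.span K (Set.range e) := by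
    rintro _ ⟨f, hf, rfl⟩
    exact hqV f hf
  have hLq_iff : ∀ f, f ∈ Lq ↔ f ∈ Vq ∧ f ∈ O := by
    intro f
    constructor
    · rintro ⟨g, hg, rfl⟩
      obtain ⟨hgV, hgO⟩ := (hL g).mp hg
      exact ⟨⟨g, hgV, rfl⟩, mul_mem hq hgO⟩
    · rintro ⟨⟨g, hgV, rfl⟩, hfO⟩
      refine ⟨g, (hL g).mpr ⟨hgV, ?_⟩, rfl⟩
      have : g = q⁻¹ * (q * g) := by rw [← mul_assoc, inv_mul_cancel₀ hq0, one_mul]
      rw [this]
      exact mul_mem hq' hfO
  have hfg : Lq.FG := fg_inf_of_orthonormal A O e hli horth Vq hVq_le Lq hLq_iff
  have hback : L = Lq.map (LinearMap.mulLeft A q⁻¹) := by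
    rw [hLq, ← Submodule.map_comp]
    have : (LinearMap.mulLeft A q⁻¹).comp (LinearMap.mulLeft A q) = LinearMap.id := by
      ext x
      simp [← mul_assoc, inv_mul_cancel₀ hq0]
    rw [this, Submodule.map_id]
  rw [hback]
  exact hfg.map _

end Field

end Fermat.Agent.Gateway.C0
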