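import Fermat.Agent.Gateway.C0.Twist
import Fermat.Agent.Gateway.C0.Cartesian

/-!
# GATEWAY C0, layer 1.5: reduction of lattices and the dimension count

`RedSetup`: a valuation subring `A` of `K`, a valuation subring `O` of `F ⊇ K` over `A` with the
same value group (`scal`), residue maps `π : A → k`, `res : O → κ`.
`finrank_le_of_fg`: for a finite-dimensional `K`-subspace `V` of `F` with `V ∩ O` finitely generated
(cartesian), any `k`-subspace containing the reductions of `V ∩ O` has dimension `≥ dim V`.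
-/

set_option autoImplicit false
set_option linter.unusedSectionVars false

namespace Fermat.Agent.Gateway.C0

open IsLocalRing Module

/-- Residue data for a valuation subring `O` of `F` lying over `A ⊆ K`. -/
structure RedSetup {K : Type*} [Field K] (A : ValuationSubring K) {F : Type*} [Field F]
    [Algebra K F] (O : ValuationSubring F) (k κ : Type*) [Field k] [Field κ] [Algebra k κ] where
  π : A →+* k
  π_surj : Function.Surjective π
  res : O →+* κ
  res_ker : ∀ x : O, res x = 0 ↔ O.valuation (x : F) < 1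
  algebraMap_mem : ∀ a : A, algebraMap K F a ∈ O
  res_algebraMap : ∀ a : A, res ⟨algebraMap K F a, algebraMap_mem a⟩ = algebraMap k κ (π a)
  /-- `O` and `A` have the same value group -/
  scal : ∀ f : F, f ≠ 0 → ∃ c : K, c ≠ 0 ∧ O.valuation (c • f) = 1
  rank_one : ∀ x ∈ maximalIdeal A, ∀ c : A, c ≠ 0 → ∃ j : ℕ, c ∣ x ^ j
  exists_ne_zero : ∃ ϖ ∈ maximalIdeal A, ϖ ≠ 0

namespace RedSetup

variable {K : Type*} [Field K] {A : ValuationSubring K} {F : Type*} [Field F] [Algebra K F]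
  {O : ValuationSubring F} {k κ : Type*} [Field k] [Field κ] [Algebra k κ]
  (R : RedSetup A O k κ)
include R

theorem π_eq_zero_iff (a : A) : R.π a = 0 ↔ a ∈ maximalIdeal A := by
  have hmax : (RingHom.ker R.π).IsMaximal := RingHom.ker_isMaximal_of_surjective R.π R.π_surj
  have : RingHom.ker R.π = maximalIdeal A := eq_maximalIdeal hmax
  rw [← this, RingHom.mem_ker]

theorem smul_eq (a : A) (x : F) : a • x = algebraMap K F a * x := by
  rw [Algebra.smul_def]; rfl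

theorem algebraMap_A (a : A) : algebraMap A F a = algebraMap K F a := rfl

/-- The `Base` hypotheses of layer 1. -/
theorem base : Base A O where
  algebraMap_mem a := R.algebraMap_mem a
  algebraMap_lt a ha := by
    have h1 : R.res ⟨algebraMap K F a, R.algebraMap_mem a⟩ = 0 := by
      rw [R.res_algebraMap, (R.π_eq_zero_iff a).mpr ha, map_zero]
    exact (R.res_ker _).mp h1
  rank_one := R.rank_one
  unram x hx := by
    by_cases h0 : x = 0
    · exact ⟨0, (maximalIdeal A).zero_mem, 0, O.zero_mem, by simp [h0]⟩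
    · obtain ⟨c, hc, hcx⟩ := R.scal x h0
      -- `c⁻¹` lies in the maximal ideal of `A`
      have hvc : O.valuation (algebraMap K F c) * O.valuation x = 1 := by
        rw [← map_mul, ← Algebra.smul_def]; exact hcx
      have hc1 : 1 < O.valuation (algebraMap K F c) := by
        by_contra hle
        rw [not_lt] at hle
        have : O.valuation (algebraMap K F c) * O.valuation x < 1 :=
          lt_of_le_of_lt (mul_le_of_le_one_left' hle) hx
        exact absurd hvc (ne_of_lt this)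
      have hcA : c⁻¹ ∈ A := by
        rcases A.mem_or_inv_mem c with h | h
        · exfalso
          have := (O.valuation_le_one_iff _).mpr (R.algebraMap_mem ⟨c, h⟩)
          exact absurd hc1 (not_lt.mpr this)
        · exact h
      have hcm : (⟨c⁻¹, hcA⟩ : A) ∈ maximalIdeal A := by
        rw [mem_maximalIdeal, mem_nonunits_iff]
        intro hu
        obtain ⟨d, hd⟩ := hu.exists_right_inv
        have hd' : c⁻¹ * (d : K) = 1 := by
          have := congrArg (Subtype.val) hd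
          simpa using this
        have hdc : (d : K) = c := by
          field_simp at hd'
          exact hd'
        have := (O.valuation_le_one_iff _).mpr (R.algebraMap_mem d)
        rw [hdc] at this
        exact absurd hc1 (not_lt.mpr this)
      refine ⟨⟨c⁻¹, hcA⟩, hcm, c • x, (O.valuation_le_one_iff _).mp (le_of_eq hcx), ?_⟩
      rw [R.smul_eq, Algebra.smul_def, ← mul_assoc, ← map_mul]
      simp [inv_mul_cancel₀ hc]
  exists_ne_zero := R.exists_ne_zero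

theorem small_iff {x : F} (hx : x ∈ O) : Small O x ↔ R.res ⟨x, hx⟩ = 0 :=
  (R.res_ker ⟨x, hx⟩).symm

theorem cong_iff {x y : F} (hx : x ∈ O) (hy : y ∈ O) :
    Cong O x y ↔ R.res ⟨x, hx⟩ = R.res ⟨y, hy⟩ := by
  rw [Cong, R.small_iff (sub_mem hx hy)]
  have : (⟨x - y, sub_mem hx hy⟩ : O) = ⟨x, hx⟩ - ⟨y, hy⟩ := rfl
  rw [this, map_sub, sub_eq_zero]

theorem smul_mem_O (a : A) {x : F} (hx : x ∈ O) : a • x ∈ O := R.base.smul_mem_O a hx

theorem res_smul (a : A) {x : F} (hx : x ∈ O) :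
    R.res ⟨a • x, R.smul_mem_O a hx⟩ = R.π a • R.res ⟨x, hx⟩ := by
  have : (⟨a • x, R.smul_mem_O a hx⟩ : O) = ⟨algebraMap K F a, R.algebraMap_mem a⟩ * ⟨x, hx⟩ := by
    apply Subtype.ext
    exact R.smul_eq a x
  rw [this, map_mul, R.res_algebraMap, Algebra.smul_def]

theorem res_sum {ι : Type*} (s : Finset ι) (f : ι → F) (hf : ∀ i, f i ∈ O)
    (hs : ∑ i ∈ s, f i ∈ O) :
    R.res ⟨∑ i ∈ s, f i, hs⟩ = ∑ i ∈ s, R.res ⟨f i, hf i⟩ := by
  have : (⟨∑ i ∈ s, f i, hs⟩ : O) = ∑ i ∈ s, (⟨f i, hf i⟩ : O) := by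
    apply Subtype.ext
    rw [AddSubmonoidClass.coe_finsetSum]
  rw [this, map_sum]

/-- **Reduction does not lose dimension on cartesian lattices.**  If `Λ = V ∩ O` is finitely
generated, any `k`-subspace of `κ` containing the reductions of `Λ` has dimension `≥ dim_K V`. -/
theorem finrank_le_of_fg (V : Submodule K F) [FiniteDimensional K V] (Λ : Submodule A F)
    (hΛ : ∀ f, f ∈ Λ ↔ f ∈ V ∧ f ∈ O) (hfg : Λ.FG) (Rb : Submodule k κ)
    [FiniteDimensional k Rb]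
    (hred : ∀ (x : F) (hx : x ∈ Λ), R.res ⟨x, ((hΛ x).mp hx).2⟩ ∈ Rb) :
    finrank K V ≤ finrank k Rb := by
  classical
  have hΛO : ∀ x ∈ Λ, x ∈ O := fun x hx => ((hΛ x).mp hx).2
  have : Module.Finite A Λ := Module.Finite.iff_fg.mpr hfg
  have : Module.Flat A Λ :=
    Module.Flat.flat_iff_torsion_eq_bot_of_isBezout.mpr
      (Submodule.isTorsionFree_iff_torsion_eq_bot.mp inferInstance)
  have : Module.Free A Λ := Module.free_of_flat_of_isLocalRing
  set ι := Module.Free.ChooseBasisIndex A Λ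
  set b : Basis ι A Λ := Module.Free.chooseBasis A Λ with hb
  -- Step 1: the basis spans `V` over `K`
  have hspan : V ≤ Submodule.span K (Set.range fun i => ((b i : Λ) : F)) := by
    intro f hf
    by_cases hf0 : f = 0
    · rw [hf0]; exact Submodule.zero_mem _
    obtain ⟨c, hc, hcf⟩ := R.scal f hf0
    have hcfΛ : c • f ∈ Λ :=
      (hΛ _).mpr ⟨V.smul_mem c hf, (O.valuation_le_one_iff _).mp (le_of_eq hcf)⟩
    have hrepr := b.sum_repr ⟨c • f, hcfΛ⟩
    have hrepr' : c • f = ∑ i, (b.repr ⟨c • f, hcfΛ⟩ i) • ((b i : Λ) : F) := by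
      have := congrArg (Subtype.val) hrepr
      simp only at this
      refine this.symm.trans ?_
      rw [Submodule.coe_sum]
      rfl
    have : f = c⁻¹ • (c • f) := by rw [smul_smul, inv_mul_cancel₀ hc, one_smul]
    rw [this, hrepr']
    refine Submodule.smul_mem _ _ (Submodule.sum_mem _ fun i _ => ?_)
    have h2 : (b.repr ⟨c • f, hcfΛ⟩ i) • ((b i : Λ) : F)
        = ((b.repr ⟨c • f, hcfΛ⟩ i : A) : K) • ((b i : Λ) : F) := rfl
    rw [h2]
    exact Submodule.smul_mem _ _ (Submodule.subset_span ⟨i, rfl⟩)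
  have : Module.Finite K (Submodule.span K (Set.range fun i => ((b i : Λ) : F))) :=
    FiniteDimensional.span_of_finite K (Set.finite_range _)
  have h1 : finrank K V ≤ Fintype.card ι := by
    calc finrank K V ≤ finrank K (Submodule.span K (Set.range fun i => ((b i : Λ) : F))) :=
          Submodule.finrank_mono hspan
      _ ≤ Fintype.card ι := finrank_range_le_card _
  -- Step 2: the reductions are linearly independent
  have hbO : ∀ i, ((b i : Λ) : F) ∈ O := fun i => hΛO _ (b i).2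
  set rb : ι → Rb := fun i => ⟨R.res ⟨((b i : Λ) : F), hbO i⟩, hred _ (b i).2⟩ with hrb
  have hli : LinearIndependent k rb := by
    rw [Fintype.linearIndependent_iff]
    intro cbar hsum i₀
    choose c hcπ using fun i => R.π_surj (cbar i)
    set x : Λ := ∑ i, c i • b i with hx
    have hxO : (x : F) ∈ O := hΛO _ x.2
    have hxF : (x : F) = ∑ i, c i • ((b i : Λ) : F) := by
      rw [hx]; simp
    have hresx : R.res ⟨(x : F), hxO⟩ = 0 := by
      have hmem : ∀ i, c i • ((b i : Λ) : F) ∈ O := fun i => R.smul_mem_O (c i) (hbO i)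
      have hs : ∑ i, c i • ((b i : Λ) : F) ∈ O := hxF ▸ hxO
      have e1 : R.res ⟨(x : F), hxO⟩ = R.res ⟨∑ i, c i • ((b i : Λ) : F), hs⟩ := by
        congr 1; exact Subtype.ext hxF
      rw [e1, R.res_sum _ _ hmem hs]
      have e2 : ∀ i, R.res ⟨c i • ((b i : Λ) : F), hmem i⟩ = cbar i • ((rb i : Rb) : κ) := by
        intro i
        rw [R.res_smul (c i) (hbO i), hcπ i]
      simp_rw [e2]
      have := congrArg (Subtype.val) hsum
      simpa using this
    have hsmall : Small O (x : F) := (R.small_iff hxO).mpr hresx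
    obtain ⟨ϖ, hϖ, y, hy, hxy⟩ := R.base.unram _ hsmall
    by_cases hϖ0 : ϖ = 0
    · have hx0 : x = 0 := by
        apply Subtype.ext
        rw [hxy, hϖ0, zero_smul]; rfl
      have := (Fintype.linearIndependent_iff.mp b.linearIndependent) c (hx ▸ hx0) i₀
      rw [← hcπ i₀, this, map_zero]
    · have hyV : y ∈ V := by
        have : y = ((ϖ : K))⁻¹ • (x : F) := by
          rw [hxy]
          have h3 : ϖ • y = (ϖ : K) • y := rfl
          rw [h3, smul_smul, inv_mul_cancel₀ (by exact_mod_cast hϖ0), one_smul]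
        rw [this]
        exact V.smul_mem _ ((hΛ _).mp x.2).1
      have hyΛ : y ∈ Λ := (hΛ y).mpr ⟨hyV, hy⟩
      have hxy' : x = ϖ • (⟨y, hyΛ⟩ : Λ) := Subtype.ext hxy
      have hrepr : ∀ i, c i = ϖ * b.repr ⟨y, hyΛ⟩ i := by
        intro i
        have h4 : b.repr x i = c i := by
          rw [hx, map_sum]
          simp [Finsupp.single_apply]
        rw [← h4, hxy', map_smul, Finsupp.smul_apply, smul_eq_mul]
      rw [← hcπ i₀, hrepr i₀, map_mul, (R.π_eq_zero_iff ϖ).mpr hϖ, zero_mul]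
  have h2 : Fintype.card ι ≤ finrank k Rb := hli.fintype_card_le_finrank
  exact h1.trans h2

/-- The lattice `V ∩ O` of a `K`-subspace `V` of `F`. -/
def lat (V : Submodule K F) : Submodule A F where
  carrier := {x | x ∈ V ∧ x ∈ O}
  zero_mem' := ⟨V.zero_mem, O.zero_mem⟩
  add_mem' := fun hx hy => ⟨V.add_mem hx.1 hy.1, add_mem hx.2 hy.2⟩
  smul_mem' := fun a _ hx => ⟨V.smul_mem (a : K) hx.1, R.smul_mem_O a hx.2⟩

theorem mem_lat {V : Submodule K F} {x : F} : x ∈ R.lat V ↔ x ∈ V ∧ x ∈ O := Iff.rfl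

/-- The reduction of the lattice `V ∩ O`, a `k`-subspace of `κ`. -/
def redLat (V : Submodule K F) : Submodule k κ where
  carrier := {y | ∃ (x : F) (hx : x ∈ O), x ∈ V ∧ R.res ⟨x, hx⟩ = y}
  zero_mem' := ⟨0, O.zero_mem, V.zero_mem, map_zero _⟩
  add_mem' := by
    rintro _ _ ⟨x, hx, hxV, rfl⟩ ⟨y, hy, hyV, rfl⟩
    exact ⟨x + y, add_mem hx hy, V.add_mem hxV hyV, map_add R.res ⟨x, hx⟩ ⟨y, hy⟩⟩
  smul_mem' := by
    rintro c _ ⟨x, hx, hxV, rfl⟩
    obtain ⟨a, rfl⟩ := R.π_surj c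
    exact ⟨a • x, R.smul_mem_O a hx, V.smul_mem (a : K) hxV, R.res_smul a hx⟩

theorem mem_redLat {V : Submodule K F} {y : κ} :
    y ∈ R.redLat V ↔ ∃ (x : F) (hx : x ∈ O), x ∈ V ∧ R.res ⟨x, hx⟩ = y := Iff.rfl

/-- If the reductions of `V ∩ O` lie in a finite-dimensional `Rb` with `dim Rb ≤ dim V` and
`V ∩ O` is cartesian, then every element of `Rb` lifts to `V ∩ O`. -/
theorem redLat_eq_of_finrank_le (V : Submodule K F) [FiniteDimensional K V]
    (hfg : (R.lat V).FG) (Rb : Submodule k κ) [FiniteDimensional k Rb]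
    (hle : R.redLat V ≤ Rb) (hdim : finrank k Rb ≤ finrank K V) :
    R.redLat V = Rb ∧ finrank k Rb = finrank K V := by
  have : FiniteDimensional k (R.redLat V) := Submodule.finiteDimensional_of_le hle
  have h1 : finrank K V ≤ finrank k (R.redLat V) :=
    R.finrank_le_of_fg V (R.lat V) (fun f => Iff.rfl) hfg (R.redLat V)
      (fun x hx => ⟨x, hx.2, hx.1, rfl⟩)
  have h2 : finrank k (R.redLat V) ≤ finrank k Rb := Submodule.finrank_mono hle
  refine ⟨Submodule.eq_of_le_of_finrank_le hle (hdim.trans h1), le_antisymm hdim (h1.trans h2)⟩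

end RedSetup

/-- Abstract counting data: `LN a b = L(a C₀ + b C∞)`, `LM a b = L(D₀ + a C₀ + b C∞)` (char 0),
`Lbar a b = L_k(a C̄₀ + b C̄∞)` (char `ℓ`), with the specialisation `SC`, the char-`ℓ` upper bound
`UB`, the char-0 Riemann inequality `LB` and the cartesian property. -/
structure CountData {K : Type*} [Field K] {A : ValuationSubring K} {F : Type*} [Field F]
    [Algebra K F] {O : ValuationSubring F} {k κ : Type*} [Field k] [Field κ] [Algebra k κ]
    (R : RedSetup A O k κ) (m : ℕ) (u : F) where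
  LN : ℕ → ℕ → Submodule K F
  LM : ℕ → ℕ → Submodule K F
  Lbar : ℕ → ℕ → Submodule k κ
  dzero : ℤ
  dinf : ℤ
  g : ℤ
  m₀ : ℕ
  LN_mono : ∀ {a b a' b' : ℕ}, a ≤ a' → b ≤ b' → LN a b ≤ LN a' b'
  LM_mono : ∀ {a b a' b' : ℕ}, a ≤ a' → b ≤ b' → LM a b ≤ LM a' b'
  Lbar_mono : ∀ {a b a' b' : ℕ}, a ≤ a' → b ≤ b' → Lbar a b ≤ Lbar a' b'
  one_mem : (1 : F) ∈ LN 0 0
  LN_mul : ∀ {a b a' b' : ℕ} {x y : F}, x ∈ LN a b → y ∈ LN a' b' → x * y ∈ LN (a + a') (b + b')
  LN_mul_LM : ∀ {a b a' b' : ℕ} {x y : F}, x ∈ LN a b → y ∈ LM a' b' →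
    x * y ∈ LM (a + a') (b + b')
  prod_LM : ∀ {a b : ℕ} {x y : F} (i j : ℕ), i + j = m → x ∈ LM a b → y ∈ LM a b →
    u * (x ^ i * y ^ j) ∈ LN (m * a) (m * b)
  LM_inf : ∀ {a b a' b' : ℕ} {x : F}, x ∈ LM a b → x ∈ LM a' b' → x ∈ LM (min a a') (min b b')
  Lbar_inf : ∀ {a b a' b' : ℕ} {x : κ}, x ∈ Lbar a b → x ∈ Lbar a' b' →
    x ∈ Lbar (min a a') (min b b')
  Lbar_one : (1 : κ) ∈ Lbar 0 0
  Lbar_radical : ∀ (a b : ℕ) (x : κ), x ^ m ∈ Lbar (m * a) (m * b) → x ∈ Lbar a b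
  LM_finite : ∀ a b, FiniteDimensional K (LM a b)
  Lbar_finite : ∀ a b, FiniteDimensional k (Lbar a b)
  cartesian : ∀ a b, (R.lat (LM a b)).FG
  SC : ∀ (a b : ℕ) (x : F) (hx : x ∈ O), x ∈ LN a b → R.res ⟨x, hx⟩ ∈ Lbar a b
  UB : ∀ a b : ℕ, (m₀ ≤ a ∨ m₀ ≤ b) → (finrank k (Lbar a b) : ℤ) ≤ a * dzero + b * dinf + 1 - g
  LB : ∀ a b : ℕ, (a * dzero + b * dinf + 1 - g : ℤ) ≤ finrank K (LM a b)

namespace CountData

variable {K : Type*} [Field K] {A : ValuationSubring K} {F : Type*} [Field F] [Algebra K F]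
  {O : ValuationSubring F} {k κ : Type*} [Field k] [Field κ] [Algebra k κ]
  {R : RedSetup A O k κ} {m : ℕ} {u : F} (D : CountData R m u)

/-- `SC` for the twisted lattices, by the `m`-th power trick. -/
theorem SC_twist (huO : u ∈ O) (hu1 : R.res ⟨u, huO⟩ = 1) (a b : ℕ) (x : F) (hx : x ∈ O)
    (hxM : x ∈ D.LM a b) : R.res ⟨x, hx⟩ ∈ D.Lbar a b := by
  apply D.Lbar_radical
  have h1 : u * (x ^ m * x ^ 0) ∈ D.LN (m * a) (m * b) := D.prod_LM m 0 (by simp) hxM hxM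
  rw [pow_zero, mul_one] at h1
  have hO : u * x ^ m ∈ O := mul_mem huO (pow_mem hx m)
  have h2 := D.SC _ _ _ hO h1
  have : (⟨u * x ^ m, hO⟩ : O) = ⟨u, huO⟩ * ⟨x, hx⟩ ^ m := rfl
  rwa [this, map_mul, map_pow, hu1, one_mul] at h2

theorem redLat_le (huO : u ∈ O) (hu1 : R.res ⟨u, huO⟩ = 1) (a b : ℕ) :
    R.redLat (D.LM a b) ≤ D.Lbar a b := by
  rintro _ ⟨x, hx, hxM, rfl⟩
  exact D.SC_twist huO hu1 a b x hx hxM

/-- Every element of `Lbar a b` lifts to the twisted lattice, and the dimension formula holds,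
as soon as `a ≥ m₀` or `b ≥ m₀`. -/
theorem redLat_eq (huO : u ∈ O) (hu1 : R.res ⟨u, huO⟩ = 1) (a b : ℕ) (hab : D.m₀ ≤ a ∨ D.m₀ ≤ b) :
    R.redLat (D.LM a b) = D.Lbar a b ∧
      (finrank k (D.Lbar a b) : ℤ) = a * D.dzero + b * D.dinf + 1 - D.g := by
  have := D.LM_finite a b
  have := D.Lbar_finite a b
  have hdim : finrank k (D.Lbar a b) ≤ finrank K (D.LM a b) := by
    have := (D.UB a b hab).trans (D.LB a b)
    exact_mod_cast this
  obtain ⟨h1, h2⟩ := R.redLat_eq_of_finrank_le (D.LM a b) (D.cartesian a b) (D.Lbar a b)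
    (D.redLat_le huO hu1 a b) hdim
  refine ⟨h1, le_antisymm (D.UB a b hab) ?_⟩
  rw [h2]
  exact D.LB a b

theorem exists_lift (huO : u ∈ O) (hu1 : R.res ⟨u, huO⟩ = 1) {a b : ℕ}
    (hab : D.m₀ ≤ a ∨ D.m₀ ≤ b) {y : κ} (hy : y ∈ D.Lbar a b) :
    ∃ (x : F) (hx : x ∈ O), x ∈ D.LM a b ∧ R.res ⟨x, hx⟩ = y := by
  rw [← (D.redLat_eq huO hu1 a b hab).1] at hy
  exact hy

/-- the jump in the `∞`-direction on the special fibre -/
theorem Lbar_jump_right (huO : u ∈ O) (hu1 : R.res ⟨u, huO⟩ = 1) (a b : ℕ) (hb : D.m₀ ≤ b) :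
    D.Lbar a (b + 1) = D.Lbar a b ⊔ D.Lbar 0 (b + 1) := by
  have := D.Lbar_finite a b
  have := D.Lbar_finite 0 (b + 1)
  have := D.Lbar_finite a (b + 1)
  have := D.Lbar_finite 0 b
  have hb1 : D.m₀ ≤ b + 1 := hb.trans (Nat.le_succ b)
  have e1 := (D.redLat_eq huO hu1 a (b + 1) (Or.inr hb1)).2
  have e2 := (D.redLat_eq huO hu1 a b (Or.inr hb)).2
  have e3 := (D.redLat_eq huO hu1 0 (b + 1) (Or.inr hb1)).2
  have e4 := (D.redLat_eq huO hu1 0 b (Or.inr hb)).2
  have hinf : D.Lbar a b ⊓ D.Lbar 0 (b + 1) ≤ D.Lbar 0 b := by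
    intro x hx
    have := D.Lbar_inf hx.1 hx.2
    rwa [Nat.min_zero, min_eq_left (Nat.le_succ b)] at this
  have hinfdim : finrank k ↥(D.Lbar a b ⊓ D.Lbar 0 (b + 1)) ≤ finrank k (D.Lbar 0 b) :=
    Submodule.finrank_mono hinf
  have hsup_le : D.Lbar a b ⊔ D.Lbar 0 (b + 1) ≤ D.Lbar a (b + 1) :=
    sup_le (D.Lbar_mono le_rfl (Nat.le_succ b)) (D.Lbar_mono (Nat.zero_le a) le_rfl)
  have hformula := Submodule.finrank_sup_add_finrank_inf_eq (D.Lbar a b) (D.Lbar 0 (b + 1))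
  symm
  apply Submodule.eq_of_le_of_finrank_le hsup_le
  have : (finrank k (D.Lbar a (b + 1)) : ℤ) ≤ finrank k ↥(D.Lbar a b ⊔ D.Lbar 0 (b + 1)) := by
    have h5 : (finrank k ↥(D.Lbar a b ⊔ D.Lbar 0 (b + 1)) : ℤ)
        + finrank k ↥(D.Lbar a b ⊓ D.Lbar 0 (b + 1))
        = finrank k (D.Lbar a b) + finrank k (D.Lbar 0 (b + 1)) := by exact_mod_cast hformula
    have h6 : (finrank k ↥(D.Lbar a b ⊓ D.Lbar 0 (b + 1)) : ℤ) ≤ finrank k (D.Lbar 0 b) := by
      exact_mod_cast hinfdim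
    rw [e1]
    rw [e2, e3] at h5
    rw [e4] at h6
    push_cast at h5 h6 ⊢
    linarith
  exact_mod_cast this

theorem Lbar_jump_left (huO : u ∈ O) (hu1 : R.res ⟨u, huO⟩ = 1) (a b : ℕ) (ha : D.m₀ ≤ a) :
    D.Lbar (a + 1) b = D.Lbar a b ⊔ D.Lbar (a + 1) 0 := by
  have := D.Lbar_finite a b
  have := D.Lbar_finite (a + 1) 0
  have := D.Lbar_finite (a + 1) b
  have := D.Lbar_finite a 0
  have ha1 : D.m₀ ≤ a + 1 := ha.trans (Nat.le_succ a)
  have e1 := (D.redLat_eq huO hu1 (a + 1) b (Or.inl ha1)).2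
  have e2 := (D.redLat_eq huO hu1 a b (Or.inl ha)).2
  have e3 := (D.redLat_eq huO hu1 (a + 1) 0 (Or.inl ha1)).2
  have e4 := (D.redLat_eq huO hu1 a 0 (Or.inl ha)).2
  have hinf : D.Lbar a b ⊓ D.Lbar (a + 1) 0 ≤ D.Lbar a 0 := by
    intro x hx
    have := D.Lbar_inf hx.1 hx.2
    rwa [Nat.min_zero, min_eq_left (Nat.le_succ a)] at this
  have hinfdim : finrank k ↥(D.Lbar a b ⊓ D.Lbar (a + 1) 0) ≤ finrank k (D.Lbar a 0) :=
    Submodule.finrank_mono hinf
  have hsup_le : D.Lbar a b ⊔ D.Lbar (a + 1) 0 ≤ D.Lbar (a + 1) b :=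
    sup_le (D.Lbar_mono (Nat.le_succ a) le_rfl) (D.Lbar_mono le_rfl (Nat.zero_le b))
  have hformula := Submodule.finrank_sup_add_finrank_inf_eq (D.Lbar a b) (D.Lbar (a + 1) 0)
  symm
  apply Submodule.eq_of_le_of_finrank_le hsup_le
  have : (finrank k (D.Lbar (a + 1) b) : ℤ) ≤ finrank k ↥(D.Lbar a b ⊔ D.Lbar (a + 1) 0) := by
    have h5 : (finrank k ↥(D.Lbar a b ⊔ D.Lbar (a + 1) 0) : ℤ)
        + finrank k ↥(D.Lbar a b ⊓ D.Lbar (a + 1) 0)
        = finrank k (D.Lbar a b) + finrank k (D.Lbar (a + 1) 0) := by exact_mod_cast hformula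
    have h6 : (finrank k ↥(D.Lbar a b ⊓ D.Lbar (a + 1) 0) : ℤ) ≤ finrank k (D.Lbar a 0) := by
      exact_mod_cast hinfdim
    rw [e1]
    rw [e2, e3] at h5
    rw [e4] at h6
    push_cast at h5 h6 ⊢
    linarith
  exact_mod_cast this

/-- The twisted bifiltered lattice system of layer 1 attached to counting data. -/
def twistSystem (huO : u ∈ O) (hu1 : R.res ⟨u, huO⟩ = 1) : TwistSystem A O m u where
  N a b := R.lat (D.LN a b)
  M a b := R.lat (D.LM a b)
  n₁ := D.m₀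
  N_le _ _ _ hx := hx.2
  M_le _ _ _ hx := hx.2
  N_mono ha hb _ hx := ⟨D.LN_mono ha hb hx.1, hx.2⟩
  M_mono ha hb _ hx := ⟨D.LM_mono ha hb hx.1, hx.2⟩
  one_mem := ⟨D.one_mem, O.one_mem⟩
  N_mul hx hy := ⟨D.LN_mul hx.1 hy.1, mul_mem hx.2 hy.2⟩
  N_mul_M hx hy := ⟨D.LN_mul_LM hx.1 hy.1, mul_mem hx.2 hy.2⟩
  prod_M i j hij hx hy :=
    ⟨D.prod_LM i j hij hx.1 hy.1, mul_mem huO (mul_mem (pow_mem hx.2 i) (pow_mem hy.2 j))⟩
  M_inf hx hy := ⟨D.LM_inf hx.1 hy.1, hx.2⟩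
  N_sat := by
    intro a b c x hc hx hcx
    refine ⟨?_, hx⟩
    have h1 : x = ((c : K))⁻¹ • (c • x) := by
      have : c • x = (c : K) • x := rfl
      rw [this, smul_smul, inv_mul_cancel₀ (by exact_mod_cast hc), one_smul]
    rw [h1]
    exact (D.LN a b).smul_mem _ hcx.1
  M_sat := by
    intro a b c x hc hx hcx
    refine ⟨?_, hx⟩
    have h1 : x = ((c : K))⁻¹ • (c • x) := by
      have : c • x = (c : K) • x := rfl
      rw [this, smul_smul, inv_mul_cancel₀ (by exact_mod_cast hc), one_smul]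
    rw [h1]
    exact (D.LM a b).smul_mem _ hcx.1
  M_fg := D.cartesian
  exists_one := by
    obtain ⟨x, hx, hxM, hres⟩ := D.exists_lift huO hu1 (a := 0) (b := D.m₀) (Or.inr le_rfl)
      (D.Lbar_mono le_rfl (Nat.zero_le _) D.Lbar_one)
    refine ⟨x, ⟨hxM, hx⟩, ?_⟩
    rw [R.cong_iff hx O.one_mem, hres]
    exact (map_one R.res).symm
  exists_one' := by
    obtain ⟨x, hx, hxM, hres⟩ := D.exists_lift huO hu1 (a := D.m₀) (b := 0) (Or.inl le_rfl)
      (D.Lbar_mono (Nat.zero_le _) le_rfl D.Lbar_one)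
    refine ⟨x, ⟨hxM, hx⟩, ?_⟩
    rw [R.cong_iff hx O.one_mem, hres]
    exact (map_one R.res).symm
  jump_right := by
    intro a b hb x hx
    have hb1 : D.m₀ ≤ b + 1 := hb.trans (Nat.le_succ b)
    have hres : R.res ⟨x, hx.2⟩ ∈ D.Lbar a (b + 1) := D.SC_twist huO hu1 a (b + 1) x hx.2 hx.1
    rw [D.Lbar_jump_right huO hu1 a b hb, Submodule.mem_sup] at hres
    obtain ⟨ybar, hybar, zbar, hzbar, hsum⟩ := hres
    obtain ⟨y, hy, hyM, hyres⟩ := D.exists_lift huO hu1 (Or.inr hb) hybar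
    obtain ⟨z, hz, hzM, hzres⟩ := D.exists_lift huO hu1 (Or.inr hb1) hzbar
    refine ⟨y, ⟨hyM, hy⟩, z, ⟨hzM, hz⟩, ?_⟩
    rw [R.small_iff (sub_mem (sub_mem hx.2 hy) hz)]
    have : (⟨x - y - z, sub_mem (sub_mem hx.2 hy) hz⟩ : O) = ⟨x, hx.2⟩ - ⟨y, hy⟩ - ⟨z, hz⟩ := rfl
    rw [this, map_sub, map_sub, hyres, hzres, ← hsum]
    abel
  jump_left := by
    intro a b ha x hx
    have ha1 : D.m₀ ≤ a + 1 := ha.trans (Nat.le_succ a)
    have hres : R.res ⟨x, hx.2⟩ ∈ D.Lbar (a + 1) b := D.SC_twist huO hu1 (a + 1) b x hx.2 hx.1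
    rw [D.Lbar_jump_left huO hu1 a b ha, Submodule.mem_sup] at hres
    obtain ⟨ybar, hybar, zbar, hzbar, hsum⟩ := hres
    obtain ⟨y, hy, hyM, hyres⟩ := D.exists_lift huO hu1 (Or.inl ha) hybar
    obtain ⟨z, hz, hzM, hzres⟩ := D.exists_lift huO hu1 (Or.inl ha1) hzbar
    refine ⟨y, ⟨hyM, hy⟩, z, ⟨hzM, hz⟩, ?_⟩
    rw [R.small_iff (sub_mem (sub_mem hx.2 hy) hz)]
    have : (⟨x - y - z, sub_mem (sub_mem hx.2 hy) hz⟩ : O) = ⟨x, hx.2⟩ - ⟨y, hy⟩ - ⟨z, hz⟩ := rfl
    rw [this, map_sub, map_sub, hyres, hzres, ← hsum]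
    abel

/-- **C0, counting form.**  Given counting data for `(m, u)` with `ū = 1` and `m` invertible in
`A`, the twisted space `LM 0 0 = L(D₀)` contains an element `h ∈ O` with `h̄ = 1`; in particular
`h ≠ 0`. -/
theorem exists_global (hm : IsUnit ((m : ℕ) : A)) (huO : u ∈ O) (hu1 : R.res ⟨u, huO⟩ = 1) :
    ∃ (h : F) (hO : h ∈ O), h ∈ D.LM 0 0 ∧ R.res ⟨h, hO⟩ = 1 ∧ h ≠ 0 := by
  have hu : Cong O u 1 := by
    rw [R.cong_iff huO O.one_mem, hu1]; exact (map_one R.res).symm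
  obtain ⟨h, hh, hh1⟩ := (D.twistSystem huO hu1).exists_global R.base hm hu
  have hO : h ∈ O := hh.2
  have hres : R.res ⟨h, hO⟩ = 1 := by
    rw [(R.cong_iff hO O.one_mem).mp hh1]; exact map_one R.res
  refine ⟨h, hO, hh.1, hres, ?_⟩
  rintro rfl
  have : R.res ⟨0, hO⟩ = 0 := map_zero R.res
  rw [this] at hres
  exact zero_ne_one hres

end CountData

end Fermat.Agent.Gateway.C0
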