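import Fermat.Agent.Lib.RiemannRoch.AlgClosedCharZero
import Fermat.Agent.Lib.RiemannRoch.FunctionFieldDeg

/-!
# GATEWAY C0, layer 2a: the characteristic-zero (divisor) side

Prelude Riemann-Roch spaces `L(a C₀ + b C∞)` and the twisted spaces `L(D₀ + a C₀ + b C∞)`,
`m D₀ = div z`, for two effective divisors `C₀`, `C∞` with disjoint supports: monotonicity,
products, `z x^i y^j ∈ L(m a C₀ + m b C∞)`, intersections, finite-dimensionality and the Riemann
inequality (`K` algebraically closed of characteristic zero).  These are the `LN`/`LM` fields of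
`CountData`.
-/

set_option autoImplicit false
set_option linter.unusedSectionVars false

noncomputable section

namespace Fermat.Agent.Gateway.C0

open AlgebraicCurve WithZero Module IntermediateField

variable {K F : Type*} [Field K] [Field F] [Algebra K F]

theorem one_mem_rrs_zero : (1 : F) ∈ riemannRochSpace (0 : Divisor K F) := by
  intro v
  simp

theorem mul_mem_rrs {D D' : Divisor K F} {f g : F} (hf : f ∈ riemannRochSpace D)
    (hg : g ∈ riemannRochSpace D') : f * g ∈ riemannRochSpace (D + D') := by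
  intro v
  rw [map_mul, Finsupp.add_apply, exp_add]
  exact mul_le_mul' (hf v) (hg v)

theorem pow_mem_rrs {D : Divisor K F} {f : F} (hf : f ∈ riemannRochSpace D) (n : ℕ) :
    f ^ n ∈ riemannRochSpace (n • D) := by
  induction n with
  | zero => simpa using one_mem_rrs_zero (K := K) (F := F)
  | succ n ih =>
    rw [pow_succ, succ_nsmul]
    exact mul_mem_rrs ih hf

theorem adicValuation_eq_exp_neg_ord (v : Place K F) {z : F} (hz : z ≠ 0) :
    v.adicValuation z = exp (-(v.ord z)) := by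
  rw [Place.ord, neg_neg, exp_log (v.adicValuation_ne_zero hz)]

/-- Two effective divisors with disjoint supports. -/
structure TwoCharts (K F : Type*) [Field K] [Field F] [Algebra K F] where
  Czero : Divisor K F
  Cinf : Divisor K F
  Czero_nonneg : ∀ v, 0 ≤ Czero v
  Cinf_nonneg : ∀ v, 0 ≤ Cinf v
  disjoint : ∀ v, Czero v = 0 ∨ Cinf v = 0

namespace TwoCharts

variable (T : TwoCharts K F)

/-- `a C₀ + b C∞` -/
def dv (a b : ℕ) : Divisor K F := a • T.Czero + b • T.Cinf

theorem dv_apply (a b : ℕ) (v : Place K F) : T.dv a b v = a * T.Czero v + b * T.Cinf v := by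
  simp [dv, Finsupp.add_apply, Finsupp.smul_apply]

theorem dv_zero : T.dv 0 0 = 0 := by simp [dv]

theorem dv_add (a b a' b' : ℕ) : T.dv (a + a') (b + b') = T.dv a b + T.dv a' b' := by
  simp only [dv, add_nsmul]; abel

theorem nsmul_dv (m a b : ℕ) : m • T.dv a b = T.dv (m * a) (m * b) := by
  simp only [dv, nsmul_add, mul_nsmul']

theorem dv_mono {a b a' b' : ℕ} (ha : a ≤ a') (hb : b ≤ b') : T.dv a b ≤ T.dv a' b' := by
  intro v
  rw [dv_apply, dv_apply]
  have h1 : (a : ℤ) * T.Czero v ≤ a' * T.Czero v :=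
    mul_le_mul_of_nonneg_right (by exact_mod_cast ha) (T.Czero_nonneg v)
  have h2 : (b : ℤ) * T.Cinf v ≤ b' * T.Cinf v :=
    mul_le_mul_of_nonneg_right (by exact_mod_cast hb) (T.Cinf_nonneg v)
  linarith

/-- `L(a C₀ + b C∞)` -/
def LN (a b : ℕ) : Submodule K F := riemannRochSpace (T.dv a b)

/-- `L(D₀ + a C₀ + b C∞)` -/
def LM (D₀ : Divisor K F) (a b : ℕ) : Submodule K F := riemannRochSpace (D₀ + T.dv a b)

theorem LN_mono {a b a' b' : ℕ} (ha : a ≤ a') (hb : b ≤ b') : T.LN a b ≤ T.LN a' b' :=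
  Fermat.Agent.Lib.RiemannRoch.FunctionFieldDeg.riemannRochSpace_mono (T.dv_mono ha hb)

theorem LM_mono (D₀ : Divisor K F) {a b a' b' : ℕ} (ha : a ≤ a') (hb : b ≤ b') :
    T.LM D₀ a b ≤ T.LM D₀ a' b' :=
  Fermat.Agent.Lib.RiemannRoch.FunctionFieldDeg.riemannRochSpace_mono
    (add_le_add_right (T.dv_mono ha hb) D₀)

theorem one_mem_LN : (1 : F) ∈ T.LN 0 0 := by
  rw [LN, dv_zero]; exact one_mem_rrs_zero

theorem LN_mul {a b a' b' : ℕ} {x y : F} (hx : x ∈ T.LN a b) (hy : y ∈ T.LN a' b') :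
    x * y ∈ T.LN (a + a') (b + b') := by
  rw [LN, dv_add]; exact mul_mem_rrs hx hy

theorem LN_mul_LM (D₀ : Divisor K F) {a b a' b' : ℕ} {x y : F} (hx : x ∈ T.LN a b)
    (hy : y ∈ T.LM D₀ a' b') : x * y ∈ T.LM D₀ (a + a') (b + b') := by
  have := mul_mem_rrs hx hy
  rw [LM, dv_add]
  convert this using 2
  abel

/-- the key product property: `z x^i y^j ∈ L(m a C₀ + m b C∞)` for `x y ∈ L(D₀ + a C₀ + b C∞)`,
`i + j = m`, `m D₀ = div z`. -/
theorem prod_LM {D₀ : Divisor K F} {m : ℕ} {z : F} (hz : z ≠ 0)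
    (hD₀ : ∀ v : Place K F, (m : ℤ) * D₀ v = v.ord z) {a b : ℕ} {x y : F} (i j : ℕ)
    (hij : i + j = m) (hx : x ∈ T.LM D₀ a b) (hy : y ∈ T.LM D₀ a b) :
    z * (x ^ i * y ^ j) ∈ T.LN (m * a) (m * b) := by
  have h1 := mul_mem_rrs (pow_mem_rrs hx i) (pow_mem_rrs hy j)
  rw [← add_nsmul, hij] at h1
  intro v
  have h2 := h1 v
  rw [map_mul, adicValuation_eq_exp_neg_ord v hz, ← hD₀ v, ← nsmul_dv]
  calc exp (-((m : ℤ) * D₀ v)) * v.adicValuation (x ^ i * y ^ j)
      ≤ exp (-((m : ℤ) * D₀ v)) * exp ((m • (D₀ + T.dv a b)) v) := mul_le_mul' le_rfl h2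
    _ = exp ((m • T.dv a b) v) := by
        rw [← exp_add]
        congr 1
        simp only [Finsupp.smul_apply, Finsupp.add_apply, nsmul_eq_mul]
        ring

theorem LM_inf (D₀ : Divisor K F) {a b a' b' : ℕ} {x : F} (hx : x ∈ T.LM D₀ a b)
    (hx' : x ∈ T.LM D₀ a' b') : x ∈ T.LM D₀ (min a a') (min b b') := by
  intro v
  have h1 := hx v
  have h2 := hx' v
  rw [Finsupp.add_apply, dv_apply] at h1 h2 ⊢
  rcases T.disjoint v with h0 | h0
  · rw [h0, mul_zero, zero_add] at h1 h2 ⊢
    rcases le_total b b' with hb | hb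
    · rwa [min_eq_left hb]
    · rwa [min_eq_right hb]
  · rw [h0, mul_zero, add_zero] at h1 h2 ⊢
    rcases le_total a a' with ha | ha
    · rwa [min_eq_left ha]
    · rwa [min_eq_right ha]

end TwoCharts

/-- The two charts `t ≠ ∞`, `t ≠ 0` of a nonzero function `t`: `C₀ = (t)_0`, `C∞ = (t)_∞`. -/
def TwoCharts.ofDivisor (Dt : Divisor K F) : TwoCharts K F where
  Czero := Dt ⊔ 0
  Cinf := (-Dt) ⊔ 0
  Czero_nonneg v := by rw [Finsupp.sup_apply]; exact le_sup_right
  Cinf_nonneg v := by rw [Finsupp.sup_apply]; exact le_sup_right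
  disjoint v := by
    rw [Finsupp.sup_apply, Finsupp.sup_apply, Finsupp.neg_apply]
    simp only [Finsupp.coe_zero, Pi.zero_apply]
    rcases le_total (Dt v) 0 with h | h
    · left; exact sup_eq_right.mpr h
    · right; exact sup_eq_right.mpr (by linarith)

theorem TwoCharts.ofDivisor_Czero_apply (Dt : Divisor K F) (v : Place K F) :
    (TwoCharts.ofDivisor Dt).Czero v = max (Dt v) 0 := by
  simp [TwoCharts.ofDivisor, Finsupp.sup_apply]

theorem TwoCharts.ofDivisor_Cinf_apply (Dt : Divisor K F) (v : Place K F) :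
    (TwoCharts.ofDivisor Dt).Cinf v = max (-(Dt v)) 0 := by
  simp [TwoCharts.ofDivisor, Finsupp.sup_apply]

/-- `(t)_0 - (t)_∞ = div t`. -/
theorem TwoCharts.ofDivisor_sub (Dt : Divisor K F) :
    (TwoCharts.ofDivisor Dt).Czero - (TwoCharts.ofDivisor Dt).Cinf = Dt := by
  ext v
  rw [Finsupp.sub_apply, TwoCharts.ofDivisor_Czero_apply, TwoCharts.ofDivisor_Cinf_apply]
  rcases le_total (Dt v) 0 with h | h
  · rw [max_eq_right h, max_eq_left (by linarith)]; ring
  · rw [max_eq_left h, max_eq_right (by linarith)]; ring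

section cz

open Fermat.Agent.Lib.RiemannRoch

variable [IsAlgClosed K] [CharZero K] {x : F} (hx : Transcendental K x) [FiniteDimensional K⟮x⟯ F]
include hx

/-- `(1/m) div z` as a divisor of degree zero. -/
theorem exists_root_divisor {m : ℕ} (hm : 0 < m) {z : F} (hz : z ≠ 0)
    (hdiv : ∀ v : Place K F, (m : ℤ) ∣ v.ord z) :
    ∃ D₀ : Divisor K F, (∀ v, (m : ℤ) * D₀ v = v.ord z) ∧ Divisor.degree D₀ = 0 := by
  haveI := hasPrincipalDivisors_cz hx
  obtain ⟨Dz, hDz, hdeg⟩ := HasPrincipalDivisors.exists_divisor (K := K) z hz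
  refine ⟨Dz.mapRange (fun n => n / (m : ℤ)) (by simp), fun v => ?_, ?_⟩
  · rw [Finsupp.mapRange_apply, hDz v]
    exact Int.mul_ediv_cancel' (hdiv v)
  · have hsmul : m • Dz.mapRange (fun n => n / (m : ℤ)) (by simp) = Dz := by
      ext v
      rw [Finsupp.smul_apply, Finsupp.mapRange_apply, nsmul_eq_mul, hDz v]
      exact Int.mul_ediv_cancel' (hdiv v)
    have h2 := congrArg Divisor.degree hsmul
    rw [map_nsmul, hdeg, nsmul_eq_mul] at h2
    have hm0 : (m : ℤ) ≠ 0 := by exact_mod_cast hm.ne'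
    exact (mul_eq_zero.mp h2).resolve_left hm0

/-- A nonzero element of `L(D₀)` with `deg D₀ = 0` and `m D₀ = div z` exhibits `z` as a constant
times an `m`-th power. -/
theorem exists_const_mul_pow {m : ℕ} {z h : F} (hz : z ≠ 0) {D₀ : Divisor K F}
    (hD₀ : ∀ v : Place K F, (m : ℤ) * D₀ v = v.ord z) (hdeg : Divisor.degree D₀ = 0)
    (hh : h ∈ riemannRochSpace D₀) (hh0 : h ≠ 0) :
    ∃ c : K, z = algebraMap K F c * (h⁻¹) ^ m := by
  classical
  haveI := hasPrincipalDivisors_cz hx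
  haveI : ∀ v : Place K F, v.FiniteResidue := finiteResidue_cz hx
  haveI := nonempty_place_cz hx
  -- (1) `ord h = - D₀`
  have hge : ∀ v : Place K F, 0 ≤ (divOf (K := K) h + D₀) v := by
    intro v
    rw [Finsupp.add_apply, divOf_apply hh0]
    have := (mem_riemannRochSpace_iff.mp hh v).resolve_left hh0
    linarith
  have hdegE : Divisor.degree (divOf (K := K) h + D₀) = 0 := by
    rw [map_add, degree_divOf, hdeg, add_zero]
  have hE0 : ∀ v : Place K F, (divOf (K := K) h + D₀) v = 0 := by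
    intro v
    by_contra hne
    have hpos : 0 < (divOf (K := K) h + D₀) v := lt_of_le_of_ne (hge v) (Ne.symm hne)
    have hsum := degree_eq_sum (divOf (K := K) h + D₀)
    rw [hdegE, Finsupp.sum] at hsum
    have hmem : v ∈ (divOf (K := K) h + D₀).support := Finsupp.mem_support_iff.mpr hne
    have hterm : 0 < (divOf (K := K) h + D₀) v * (v.deg : ℤ) :=
      mul_pos hpos (by exact_mod_cast deg_pos v)
    have hnn : ∀ w ∈ (divOf (K := K) h + D₀).support,
        0 ≤ (divOf (K := K) h + D₀) w * (w.deg : ℤ) :=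
      fun w _ => mul_nonneg (hge w) (Int.natCast_nonneg _)
    have := Finset.single_le_sum hnn hmem
    linarith
  have hord : ∀ v : Place K F, v.ord h = - D₀ v := by
    intro v
    have := hE0 v
    rw [Finsupp.add_apply, divOf_apply hh0] at this
    linarith
  -- (2) `w = z h^m` has no zeros or poles
  set w : F := z * h ^ m with hw
  have hw0 : w ≠ 0 := mul_ne_zero hz (pow_ne_zero _ hh0)
  have hwL : w ∈ riemannRochSpace (0 : Divisor K F) := by
    rw [mem_riemannRochSpace_iff]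
    intro v
    right
    rw [hw, v.ord_mul hz (pow_ne_zero _ hh0), ← zpow_natCast, v.ord_zpow, hord v, ← hD₀ v]
    simp
  -- (3) `w` is a constant
  have hint : IsIntegral K w := (isAlgebraic_of_mem_zero hwL).isIntegral
  have hdeg1 : (minpoly K w).degree = 1 :=
    IsAlgClosed.degree_eq_one_of_irreducible K (minpoly.irreducible hint)
  obtain ⟨c, hc⟩ := minpoly.mem_range_of_degree_eq_one K w hdeg1
  refine ⟨c, ?_⟩
  rw [hc, hw, inv_pow, mul_assoc, mul_inv_cancel₀ (pow_ne_zero _ hh0), mul_one]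

namespace TwoCharts

variable (T : TwoCharts K F)

theorem LM_finite (D₀ : Divisor K F) (a b : ℕ) : Module.Finite K (T.LM D₀ a b) :=
  (riemann_cz hx _).1

theorem LN_finite (a b : ℕ) : Module.Finite K (T.LN a b) :=
  (riemann_cz hx _).1

/-- Riemann's inequality for the twisted spaces. -/
theorem LM_lb {D₀ : Divisor K F} (hD₀ : Divisor.degree D₀ = 0) (a b : ℕ) :
    ((a : ℤ) * Divisor.degree T.Czero + b * Divisor.degree T.Cinf + 1 - genusFF K F : ℤ) ≤
      finrank K (T.LM D₀ a b) := by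
  obtain ⟨-, -, h⟩ := riemann_cz hx (D₀ + T.dv a b)
  have hdeg : Divisor.degree (D₀ + T.dv a b)
      = (a : ℤ) * Divisor.degree T.Czero + b * Divisor.degree T.Cinf := by
    rw [map_add, hD₀, zero_add, dv, map_add, map_nsmul, map_nsmul, nsmul_eq_mul, nsmul_eq_mul]
  rw [hdeg] at h
  have h0 : (0 : ℤ) ≤ finrank K (H1 (D₀ + T.dv a b)) := Int.natCast_nonneg _
  rw [LM]
  linarith

end TwoCharts

end cz

end Fermat.Agent.Gateway.C0
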