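import Fermat.Agent.Gateway.C0.Main

/-!
# GATEWAY C0: by-products of the counting data (lifting, equality of genus and degree)

In the setting of `C0/Main.lean` (same hypotheses `hint1 hint2 hdeg hgenus hcart`), with the
untwisted counting data (`m = 1`, `z = 1`, `D₀ = 0`):

* `exists_lift_of_isIntegral`: every `φ̄ ∈ κ` integral over `k[x̄]` is the reduction of some
  `φ ∈ O` integral over `K[x]`;
* `genusFF_eq_and_finrank_eq`: `genusFF k κ = genusFF K F` and `[κ : k(x̄)] = [F : K(x)]`.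
-/

set_option autoImplicit false
set_option linter.unusedSectionVars false
set_option linter.style.haveILetI false

noncomputable section

namespace Fermat.Agent.Gateway.C0

open AlgebraicCurve WithZero Module IntermediateField

section bound

open Fermat.Agent.Gateway.GoodRed.PlacesIntegral Fermat.Agent.Lib.RiemannRoch

variable {K F : Type*} [Field K] [Field F] [Algebra K F]
  {x : F} (hx : Transcendental K x) [FiniteDimensional K⟮x⟯ F] [Algebra.IsSeparable K⟮x⟯ F]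

include hx in
/-- A function integral over `K[x]` becomes integral over `K[1/x]` after multiplication by a power
of `1/x`. -/
theorem exists_isIntegral_inv_pow_mul {f : F} (hf : IsIntegral (Algebra.adjoin K {x}) f) :
    ∃ b₀ : ℕ, ∀ b : ℕ, b₀ ≤ b → IsIntegral (Algebra.adjoin K {x⁻¹}) (x⁻¹ ^ b * f) := by
  classical
  have hx0 : x ≠ 0 := by
    rintro rfl
    exact hx isAlgebraic_zero
  have hxi : Transcendental K x⁻¹ := transcendental_inv' hx
  haveI : FiniteDimensional K⟮x⁻¹⟯ F := by rw [adjoin_simple_inv_eq]; infer_instance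
  haveI : Algebra.IsSeparable K⟮x⁻¹⟯ F := by rw [adjoin_simple_inv_eq]; infer_instance
  by_cases hf0 : f = 0
  · refine ⟨0, fun b _ => ?_⟩
    rw [hf0, mul_zero]
    exact isIntegral_zero
  have hfin : {v : Place K F | v.ord x < 0}.Finite := FunctionField.finite_poles K x hx0
  have hford := (isIntegral_iff_forall_ord_nonneg x hx f).mp hf
  refine ⟨∑ v ∈ hfin.toFinset, (-(v.ord f)).toNat, fun b hb => ?_⟩
  rw [isIntegral_iff_forall_ord_nonneg x⁻¹ hxi]
  intro v hv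
  rw [v.ord_inv] at hv
  rw [v.ord_mul (pow_ne_zero _ (inv_ne_zero hx0)) hf0, ← zpow_natCast, v.ord_zpow, v.ord_inv]
  rcases eq_or_lt_of_le (show v.ord x ≤ 0 by linarith) with h0 | hlt
  · rw [h0]
    have := hford v (by rw [h0])
    simpa using this
  · have hmem : v ∈ hfin.toFinset := by
      rw [Set.Finite.mem_toFinset]
      exact hlt
    have h1 : (-(v.ord f)).toNat ≤ ∑ w ∈ hfin.toFinset, (-(w.ord f)).toNat :=
      Finset.single_le_sum (f := fun w : Place K F => (-(w.ord f)).toNat)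
        (fun _ _ => Nat.zero_le _) hmem
    have h2 : -(v.ord f) ≤ ((-(v.ord f)).toNat : ℤ) := Int.self_le_toNat _
    have h3 : ((-(v.ord f)).toNat : ℤ) ≤ (b : ℤ) := by exact_mod_cast h1.trans hb
    have h4 : (0 : ℤ) ≤ (b : ℤ) := Int.natCast_nonneg b
    nlinarith

end bound

section main

variable {K : Type*} [Field K] [IsAlgClosed K] [CharZero K] {A : ValuationSubring K}
  {F : Type*} [Field F] [Algebra K F] {O : ValuationSubring F}
  {k κ : Type*} [Field k] [IsAlgClosed k] [Field κ] [Algebra k κ]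
  (R : RedSetup A O k κ)
  {x : F} (hx : Transcendental K x) [FiniteDimensional K⟮x⟯ F]
  (hxO : x ∈ O) {xb : κ} (hxb : R.res ⟨x, hxO⟩ = xb) (hxbt : Transcendental k xb)
  [FiniteDimensional k⟮xb⟯ κ] [Algebra.IsSeparable k⟮xb⟯ κ]

include hx hxbt hxb in
/-- The untwisted counting data (`m = 1`, `z = 1`, `D₀ = 0`). -/
theorem exists_countData_one
    (hint1 : ∀ (f : F) (hf : f ∈ O), IsIntegral (Algebra.adjoin K {x}) f →
      IsIntegral (Algebra.adjoin k {xb}) (R.res ⟨f, hf⟩))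
    (hint2 : ∀ (f : F) (hf : f ∈ O), IsIntegral (Algebra.adjoin K {x⁻¹}) f →
      IsIntegral (Algebra.adjoin k {xb⁻¹}) (R.res ⟨f, hf⟩))
    (hdeg : finrank k⟮xb⟯ κ ≤ finrank K⟮x⟯ F)
    (hgenus : genusFF K F ≤ genusFF k κ)
    (hcart : ∀ V : Submodule K F, FiniteDimensional K V → (R.lat V).FG) :
    ∃ D : CountData R 1 (1 : F),
      (∀ (a b : ℕ) (f : F), f ∈ D.LN a b ↔ IsIntegral (Algebra.adjoin K {x}) (x ^ a * f) ∧
        IsIntegral (Algebra.adjoin K {x⁻¹}) (x⁻¹ ^ b * f)) ∧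
      (∀ (a b : ℕ) (y : κ), y ∈ D.Lbar a b ↔ IsIntegral (Algebra.adjoin k {xb}) (xb ^ a * y) ∧
        IsIntegral (Algebra.adjoin k {xb⁻¹}) (xb⁻¹ ^ b * y)) ∧
      (∀ a b : ℕ, D.LM a b = D.LN a b) ∧
      D.m₀ = 2 * genusFF k κ ∧ D.g = genusFF K F ∧ D.dzero = finrank K⟮x⟯ F ∧
      D.dinf = finrank K⟮x⟯ F ∧
      (∀ a b : ℕ, 2 * genusFF k κ ≤ a + b → (finrank k (D.Lbar a b) : ℤ) =
        ((a : ℤ) + b) * finrank k⟮xb⟯ κ + 1 - genusFF k κ) := by
  have hD₀ : ∀ v : Place K F, ((1 : ℕ) : ℤ) * (0 : Divisor K F) v = v.ord (1 : F) := by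
    intro v
    rw [v.ord_one]
    simp
  obtain ⟨D, -, h2, h3, h4, h5⟩ := exists_countData_spec R hx hxO hxb hxbt hint1 hint2 hdeg
    hgenus hcart Nat.one_pos (one_ne_zero : (1 : F) ≠ 0) hD₀ (map_zero _)
  exact ⟨D, h2, h3, h4 rfl, h5⟩

include hx hxbt hxb in
/-- **Lifting.**  Every element of `κ` integral over `k[x̄]` is the reduction of an element of `O`
integral over `K[x]`. -/
theorem exists_lift_of_isIntegral
    (hint1 : ∀ (f : F) (hf : f ∈ O), IsIntegral (Algebra.adjoin K {x}) f →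
      IsIntegral (Algebra.adjoin k {xb}) (R.res ⟨f, hf⟩))
    (hint2 : ∀ (f : F) (hf : f ∈ O), IsIntegral (Algebra.adjoin K {x⁻¹}) f →
      IsIntegral (Algebra.adjoin k {xb⁻¹}) (R.res ⟨f, hf⟩))
    (hdeg : finrank k⟮xb⟯ κ ≤ finrank K⟮x⟯ F)
    (hgenus : genusFF K F ≤ genusFF k κ)
    (hcart : ∀ V : Submodule K F, FiniteDimensional K V → (R.lat V).FG)
    (φb : κ) (hφ : IsIntegral (Algebra.adjoin k {xb}) φb) :
    ∃ (φ : F) (h : φ ∈ O), IsIntegral (Algebra.adjoin K {x}) φ ∧ R.res ⟨φ, h⟩ = φb := by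
  obtain ⟨D, hLN, hLbar, hLM, hm₀, -⟩ := exists_countData_one R hx hxO hxb hxbt hint1 hint2 hdeg
    hgenus hcart
  obtain ⟨b₀, hb₀⟩ := exists_isIntegral_inv_pow_mul hxbt hφ
  set b := max b₀ D.m₀ with hb
  have hmem : φb ∈ D.Lbar 0 b := by
    rw [hLbar]
    refine ⟨by rwa [pow_zero, one_mul], hb₀ b (le_max_left _ _)⟩
  have h1 : R.res ⟨(1 : F), O.one_mem⟩ = 1 := map_one R.res
  obtain ⟨φ, hφO, hφM, hres⟩ := D.exists_lift O.one_mem h1 (Or.inr (le_max_right b₀ D.m₀)) hmem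
  rw [hLM, hLN] at hφM
  refine ⟨φ, hφO, ?_, hres⟩
  have := hφM.1
  rwa [pow_zero, one_mul] at this

include hx hxbt hxb in
/-- **The genus and the degree are preserved by reduction.** -/
theorem genusFF_eq_and_finrank_eq
    (hint1 : ∀ (f : F) (hf : f ∈ O), IsIntegral (Algebra.adjoin K {x}) f →
      IsIntegral (Algebra.adjoin k {xb}) (R.res ⟨f, hf⟩))
    (hint2 : ∀ (f : F) (hf : f ∈ O), IsIntegral (Algebra.adjoin K {x⁻¹}) f →
      IsIntegral (Algebra.adjoin k {xb⁻¹}) (R.res ⟨f, hf⟩))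
    (hdeg : finrank k⟮xb⟯ κ ≤ finrank K⟮x⟯ F)
    (hgenus : genusFF K F ≤ genusFF k κ)
    (hcart : ∀ V : Submodule K F, FiniteDimensional K V → (R.lat V).FG) :
    genusFF k κ = genusFF K F ∧ finrank k⟮xb⟯ κ = finrank K⟮x⟯ F := by
  obtain ⟨D, -, -, -, hm₀, hg, hdz, hdi, hrr⟩ := exists_countData_one R hx hxO hxb hxbt hint1
    hint2 hdeg hgenus hcart
  have h1 : R.res ⟨(1 : F), O.one_mem⟩ = 1 := map_one R.res
  set a := D.m₀ + 1 with ha
  have e1 := (D.redLat_eq O.one_mem h1 a 0 (Or.inl (Nat.le_succ _))).2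
  have e2 := hrr a 0 (by rw [← hm₀]; omega)
  rw [e2, hg, hdz, hdi] at e1
  have h4 : (finrank k⟮xb⟯ κ : ℤ) ≤ finrank K⟮x⟯ F := by exact_mod_cast hdeg
  have h5 : (genusFF K F : ℤ) ≤ genusFF k κ := by exact_mod_cast hgenus
  have ha1 : (1 : ℤ) ≤ (a : ℤ) := by
    rw [ha]; push_cast; linarith [Int.natCast_nonneg D.m₀]
  push_cast at e1
  have hn : (finrank k⟮xb⟯ κ : ℤ) = finrank K⟮x⟯ F := by nlinarith
  have hgg : (genusFF k κ : ℤ) = genusFF K F := by nlinarith
  exact ⟨by exact_mod_cast hgg, by exact_mod_cast hn⟩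

end main

end Fermat.Agent.Gateway.C0
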