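import Fermat.Agent.Gateway.C0.Instantiate
import Fermat.Agent.Gateway.C0.Exports

/-!
# GATEWAY C0: lifting and genus equality for the modular function field of level `M`

Under `GoodLevelFacts A π M ℓ hπ hℓM` (the inputs (G2), (G3) of (C0)), for `L = AlgebraicClosure ℚ`,
`F = FBar L M`, `κ = Fk k M`:

* `exists_lift_resFk`: every `φ̄ ∈ κ` integral over `k[j̄]` is the reduction of some `φ ∈ OvVal`
  integral over `L[j]`;
* `genusFF_Fk_eq`: `genusFF k κ = genusFF L F`.
-/

set_option autoImplicit false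
set_option linter.unusedSectionVars false
set_option linter.style.haveILetI false

noncomputable section

namespace Fermat.Agent.Gateway.C0

open ModularCurve AlgebraicCurve IntermediateField Module
open Fermat.Agent.Gateway.GoodRed Fermat.Agent.Gateway.GoodRed.ConjFamily Fermat.Agent.Gateway.Red

variable (A : ValuationSubring (AlgebraicClosure ℚ))
  {k : Type} [Field k] (π : A →+* k) [IsAlgClosed k] (M : ℕ) [NeZero M]
  (ℓ : ℕ) [Fact ℓ.Prime] [CharP k ℓ]

/-- **Lifting at level `M`.** -/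
theorem exists_lift_resFk (hπ : Function.Surjective π) (hℓM : ¬ ℓ ∣ M)
    (hA : A.LiesOverPrime ℓ) (H : GoodLevelFacts A π M ℓ hπ hℓM) (φb : Fk k M)
    (hφ : IsIntegral (Algebra.adjoin k {jFk k M}) φb) :
    ∃ (φ : FBar (AlgebraicClosure ℚ) M) (h : φ ∈ OvVal A π M ℓ hπ hℓM),
      IsIntegral (Algebra.adjoin (AlgebraicClosure ℚ) {jF (AlgebraicClosure ℚ) M}) φ ∧
        resFk A π M ℓ hπ hℓM ⟨φ, h⟩ = φb := by
  have hMk : (M : k) ≠ 0 := fun h => hℓM ((CharP.cast_eq_zero_iff k ℓ M).mp h)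
  haveI : Algebra.IsAlgebraic ℚ (AlgebraicClosure ℚ) := AlgebraicClosure.isAlgebraic ℚ
  haveI := LevelFacts.finiteDimensional_jF (AlgebraicClosure ℚ) M
  haveI := LevelFacts.finiteDimensional_jFk hMk
  haveI := LevelFacts.isSeparable_jFk hMk
  refine exists_lift_of_isIntegral (gaussRedSetup A π M ℓ hπ hℓM hA)
    (LevelFacts.transcendental_jF (AlgebraicClosure ℚ) M)
    (LevelFacts.jF_mem_OvVal A π M ℓ hπ hℓM)
    (LevelFacts.resFk_jF A π M ℓ hπ hℓM) (LevelFacts.transcendental_jFk k M)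
    H.integral H.integral_inv (LevelFacts.finrank_jFk_le hMk) H.genus_le ?_ φb hφ
  intro V hV
  exact fg_inf_OvVal A π ℓ hπ hℓM V _ (fun f => Iff.rfl)

/-- **The genus is preserved by reduction at level `M`.** -/
theorem genusFF_Fk_eq (hπ : Function.Surjective π) (hℓM : ¬ ℓ ∣ M)
    (hA : A.LiesOverPrime ℓ) (H : GoodLevelFacts A π M ℓ hπ hℓM) :
    genusFF k (Fk k M) = genusFF (AlgebraicClosure ℚ) (FBar (AlgebraicClosure ℚ) M) := by
  have hMk : (M : k) ≠ 0 := fun h => hℓM ((CharP.cast_eq_zero_iff k ℓ M).mp h)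
  haveI : Algebra.IsAlgebraic ℚ (AlgebraicClosure ℚ) := AlgebraicClosure.isAlgebraic ℚ
  haveI := LevelFacts.finiteDimensional_jF (AlgebraicClosure ℚ) M
  haveI := LevelFacts.finiteDimensional_jFk hMk
  haveI := LevelFacts.isSeparable_jFk hMk
  refine (genusFF_eq_and_finrank_eq (gaussRedSetup A π M ℓ hπ hℓM hA)
    (LevelFacts.transcendental_jF (AlgebraicClosure ℚ) M)
    (LevelFacts.jF_mem_OvVal A π M ℓ hπ hℓM)
    (LevelFacts.resFk_jF A π M ℓ hπ hℓM) (LevelFacts.transcendental_jFk k M)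
    H.integral H.integral_inv (LevelFacts.finrank_jFk_le hMk) H.genus_le ?_).1
  intro V hV
  exact fg_inf_OvVal A π ℓ hπ hℓM V _ (fun f => Iff.rfl)

end Fermat.Agent.Gateway.C0
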