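import Fermat.Agent.Gateway.C0.ValModule

/-!
# GATEWAY C0, abstract layer 1a: one chart

A "chart" is a filtered ring `R = ⋃ N n` with a filtered module `P = ⋃ M n` of `A`-lattices inside
a valuation ring `O` of a field `F`, with `u * x ^ i * y ^ j ∈ N (m n)` for `x y ∈ M n`, `i + j = m`
(`P` is an invertible module of order `m`, trivialised by `u`).  We prove Hensel existence and
uniqueness for the equation `u * a ^ m = 1` modulo any `c' ≠ 0`, for `a ∈ P`.
-/

set_option autoImplicit false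
set_option linter.unusedSectionVars false

namespace Fermat.Agent.Gateway.C0

open IsLocalRing Polynomial

variable {A : Type*} [CommRing A] [IsDomain A] [ValuationRing A]
variable {F : Type*} [Field F] [Algebra A F]

/-- Hypotheses on the base valuation ring `A` and the valuation ring `O` of `F`. -/
structure Base (A : Type*) [CommRing A] [IsDomain A] [ValuationRing A]
    {F : Type*} [Field F] [Algebra A F] (O : ValuationSubring F) : Prop where
  algebraMap_mem : ∀ a : A, algebraMap A F a ∈ O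
  algebraMap_lt : ∀ a ∈ maximalIdeal A, O.valuation (algebraMap A F a) < 1
  /-- the valuation of `A` has rank one -/
  rank_one : ∀ x ∈ maximalIdeal A, ∀ c : A, c ≠ 0 → ∃ j : ℕ, c ∣ x ^ j
  /-- `O` is unramified over `A` -/
  unram : ∀ x : F, O.valuation x < 1 → ∃ ϖ ∈ maximalIdeal A, ∃ y ∈ O, x = ϖ • y
  exists_ne_zero : ∃ ϖ ∈ maximalIdeal A, ϖ ≠ 0

section small

variable (O : ValuationSubring F)

/-- `x` lies in the maximal ideal of `O`. -/
def Small (x : F) : Prop := O.valuation x < 1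

variable {O}

theorem Small.mem {x : F} (h : Small O x) : x ∈ O :=
  (O.valuation_le_one_iff x).mp (le_of_lt h)

theorem small_zero : Small O (0 : F) := by simp [Small]

theorem Small.add {x y : F} (hx : Small O x) (hy : Small O y) : Small O (x + y) :=
  O.valuation.map_add_lt hx hy

theorem Small.sub {x y : F} (hx : Small O x) (hy : Small O y) : Small O (x - y) :=
  O.valuation.map_sub_lt hx hy

theorem Small.neg {x : F} (hx : Small O x) : Small O (-x) := by
  simpa [Small, Valuation.map_neg] using hx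

theorem Small.mul_left {x y : F} (hx : x ∈ O) (hy : Small O y) : Small O (x * y) := by
  have h1 : O.valuation x ≤ 1 := (O.valuation_le_one_iff x).mpr hx
  have : O.valuation (x * y) ≤ O.valuation y := by
    rw [map_mul]; exact mul_le_of_le_one_left' h1
  exact lt_of_le_of_lt this hy

theorem Small.mul_right {x y : F} (hx : Small O x) (hy : y ∈ O) : Small O (x * y) := by
  rw [mul_comm]; exact hx.mul_left hy

theorem Small.sum {ι : Type*} (s : Finset ι) (f : ι → F) (h : ∀ i ∈ s, Small O (f i)) :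
    Small O (∑ i ∈ s, f i) := by
  classical
  induction s using Finset.induction_on with
  | empty => simpa using small_zero
  | insert i s hi ih =>
    rw [Finset.sum_insert hi]
    exact (h i (Finset.mem_insert_self _ _)).add
      (ih fun j hj => h j (Finset.mem_insert_of_mem hj))

/-- congruence modulo the maximal ideal of `O` -/
def Cong (O : ValuationSubring F) (x y : F) : Prop := Small O (x - y)

theorem Cong.refl (x : F) : Cong O x x := by simpa [Cong] using small_zero

theorem Cong.symm {x y : F} (h : Cong O x y) : Cong O y x := by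
  have := h.neg; rwa [neg_sub] at this

theorem Cong.trans {x y z : F} (h : Cong O x y) (h' : Cong O y z) : Cong O x z := by
  have := Small.add h h'; rwa [sub_add_sub_cancel] at this

theorem Cong.add {x y x' y' : F} (h : Cong O x x') (h' : Cong O y y') :
    Cong O (x + y) (x' + y') := by
  have := Small.add h h'
  rwa [show x - x' + (y - y') = x + y - (x' + y') by ring] at this

theorem Cong.mul {x y x' y' : F} (hx : x ∈ O) (hy' : y' ∈ O) (h : Cong O x x')
    (h' : Cong O y y') : Cong O (x * y) (x' * y') := by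
  have := Small.add (Small.mul_left hx h') (Small.mul_right h hy')
  rwa [show x * (y - y') + (x - x') * y' = x * y - x' * y' by ring] at this

theorem Cong.mem_iff {x y : F} (h : Cong O x y) : x ∈ O ↔ y ∈ O := by
  constructor
  · intro hx
    have := sub_mem hx (Small.mem h)
    rwa [sub_sub_cancel] at this
  · intro hy
    have := add_mem (Small.mem h) hy
    rwa [sub_add_cancel] at this

theorem Cong.pow {x x' : F} (hx : x ∈ O) (h : Cong O x x') (n : ℕ) :
    Cong O (x ^ n) (x' ^ n) := by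
  have hx' : x' ∈ O := h.mem_iff.mp hx
  induction n with
  | zero => simpa using Cong.refl (O := O) 1
  | succ n ih =>
    rw [pow_succ, pow_succ]
    exact Cong.mul (pow_mem hx n) hx' ih h

theorem cong_one_mem {x : F} (h : Cong O x 1) : x ∈ O := h.mem_iff.mpr O.one_mem

theorem Cong.sum {ι : Type*} (s : Finset ι) (f g : ι → F) (h : ∀ i ∈ s, Cong O (f i) (g i)) :
    Cong O (∑ i ∈ s, f i) (∑ i ∈ s, g i) := by
  rw [Cong, ← Finset.sum_sub_distrib]
  exact Small.sum s _ h

end small


namespace Base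

variable {O : ValuationSubring F} (hB : Base A O)
include hB

theorem smul_mem_O (a : A) {x : F} (hx : x ∈ O) : a • x ∈ O := by
  rw [Algebra.smul_def]
  exact mul_mem (hB.algebraMap_mem a) hx

theorem small_smul {ϖ : A} (hϖ : ϖ ∈ maximalIdeal A) {x : F} (hx : x ∈ O) :
    Small O (ϖ • x) := by
  rw [Algebra.smul_def]
  exact Small.mul_right (hB.algebraMap_lt ϖ hϖ) hx

theorem small_smul' (a : A) {x : F} (hx : Small O x) : Small O (a • x) := by
  rw [Algebra.smul_def]
  exact Small.mul_left (hB.algebraMap_mem a) hx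

end Base

/-- One chart: a filtered ring `⋃ N n` and a filtered module `⋃ M n` of order `m`, trivialised
by `u`. -/
structure Chart (A : Type*) [CommRing A] [IsDomain A] [ValuationRing A]
    {F : Type*} [Field F] [Algebra A F] (O : ValuationSubring F) (m : ℕ) (u : F) where
  N : ℕ → Submodule A F
  M : ℕ → Submodule A F
  N_le : ∀ n x, x ∈ N n → x ∈ O
  M_le : ∀ n x, x ∈ M n → x ∈ O
  N_mono : Monotone N
  M_mono : Monotone M
  one_mem : (1 : F) ∈ N 0
  N_mul : ∀ {n n' : ℕ} {x y : F}, x ∈ N n → y ∈ N n' → x * y ∈ N (n + n')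
  N_mul_M : ∀ {n n' : ℕ} {x y : F}, x ∈ N n → y ∈ M n' → x * y ∈ M (n + n')
  prod_M : ∀ {n : ℕ} {x y : F} (i j : ℕ), i + j = m → x ∈ M n → y ∈ M n →
    u * (x ^ i * y ^ j) ∈ N (m * n)
  N_sat : ∀ {n : ℕ} {c : A} {x : F}, c ≠ 0 → x ∈ O → c • x ∈ N n → x ∈ N n
  M_sat : ∀ {n : ℕ} {c : A} {x : F}, c ≠ 0 → x ∈ O → c • x ∈ M n → x ∈ M n

namespace Chart

variable {O : ValuationSubring F} {m : ℕ} {u : F} (C : Chart A O m u)

/-- The ring of the chart. -/
def R : Subalgebra A F where
  carrier := {x | ∃ n, x ∈ C.N n}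
  mul_mem' := by
    rintro x y ⟨n, hx⟩ ⟨n', hy⟩
    exact ⟨n + n', C.N_mul hx hy⟩
  add_mem' := by
    rintro x y ⟨n, hx⟩ ⟨n', hy⟩
    exact ⟨max n n', (C.N (max n n')).add_mem (C.N_mono (le_max_left _ _) hx)
      (C.N_mono (le_max_right _ _) hy)⟩
  algebraMap_mem' := by
    intro a
    refine ⟨0, ?_⟩
    rw [Algebra.algebraMap_eq_smul_one]
    exact (C.N 0).smul_mem _ C.one_mem

/-- The module of the chart. -/
def P : Submodule A F where
  carrier := {x | ∃ n, x ∈ C.M n}
  zero_mem' := ⟨0, (C.M 0).zero_mem⟩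
  add_mem' := by
    rintro x y ⟨n, hx⟩ ⟨n', hy⟩
    exact ⟨max n n', (C.M (max n n')).add_mem (C.M_mono (le_max_left _ _) hx)
      (C.M_mono (le_max_right _ _) hy)⟩
  smul_mem' := by
    rintro a x ⟨n, hx⟩
    exact ⟨n, (C.M n).smul_mem _ hx⟩

theorem mem_R {x : F} : x ∈ C.R ↔ ∃ n, x ∈ C.N n := Iff.rfl

theorem mem_P {x : F} : x ∈ C.P ↔ ∃ n, x ∈ C.M n := Iff.rfl

theorem R_le {x : F} (hx : x ∈ C.R) : x ∈ O := by
  obtain ⟨n, hn⟩ := hx; exact C.N_le n x hn

theorem P_le {x : F} (hx : x ∈ C.P) : x ∈ O := by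
  obtain ⟨n, hn⟩ := hx; exact C.M_le n x hn

theorem R_mul_P {x y : F} (hx : x ∈ C.R) (hy : y ∈ C.P) : x * y ∈ C.P := by
  obtain ⟨n, hn⟩ := hx
  obtain ⟨n', hn'⟩ := hy
  exact ⟨n + n', C.N_mul_M hn hn'⟩

theorem prod_P {x y : F} (i j : ℕ) (hij : i + j = m) (hx : x ∈ C.P) (hy : y ∈ C.P) :
    u * (x ^ i * y ^ j) ∈ C.R := by
  obtain ⟨n, hn⟩ := hx
  obtain ⟨n', hn'⟩ := hy
  exact ⟨m * max n n', C.prod_M i j hij (C.M_mono (le_max_left _ _) hn)
    (C.M_mono (le_max_right _ _) hn')⟩

theorem pow_P {x : F} (hx : x ∈ C.P) : u * x ^ m ∈ C.R := by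
  have := C.prod_P m 0 (by simp) hx hx
  simpa using this

variable (hB : Base A O)
include hB

/-- Division of small elements of `R` by an element of the maximal ideal of `A`. -/
theorem exists_smul_of_small_R [Module.IsTorsionFree A F] {x : F} (hx : x ∈ C.R)
    (hs : Small O x) : ∃ ϖ ∈ maximalIdeal A, ∃ y ∈ C.R, x = ϖ • y := by
  obtain ⟨n, hn⟩ := hx
  obtain ⟨ϖ, hϖ, y, hy, rfl⟩ := hB.unram x hs
  by_cases h0 : ϖ = 0
  · exact ⟨0, (maximalIdeal A).zero_mem, 0, C.R.zero_mem, by simp [h0]⟩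
  · exact ⟨ϖ, hϖ, y, ⟨n, C.N_sat h0 hy hn⟩, rfl⟩

theorem exists_smul_of_small_P [Module.IsTorsionFree A F] {x : F} (hx : x ∈ C.P)
    (hs : Small O x) : ∃ ϖ ∈ maximalIdeal A, ∃ y ∈ C.P, x = ϖ • y := by
  obtain ⟨n, hn⟩ := hx
  obtain ⟨ϖ, hϖ, y, hy, rfl⟩ := hB.unram x hs
  by_cases h0 : ϖ = 0
  · exact ⟨0, (maximalIdeal A).zero_mem, 0, C.P.zero_mem, by simp [h0]⟩
  · exact ⟨ϖ, hϖ, y, ⟨n, C.M_sat h0 hy hn⟩, rfl⟩

end Chart

end Fermat.Agent.Gateway.C0
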