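import Fermat.Agent.Gateway.C0.Instantiate
import Fermat.Agent.Gateway.GoodRed.Instantiate.IntegralRed
import Fermat.Agent.Gateway.Kummer.C0Spec
import Fermat.Agent.Gateway.Descent.KummerGlue

/-!
# GATEWAY C0, final layer: (C0) at good levels from the genus inequality (G2)

The only remaining input of (C0) is (G2), the genus inequality at the good levels
(`4 ∣ M` for odd `ℓ`, `9 ∣ M` for `ℓ = 2`):

* `GenusLEAtGoodLevels` : (G2) for all algebraically closed `k : Type` of characteristic `ℓ`;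
* `GenusLEAtGoodLevelsRes` : (G2) only for the residue fields of the valuation subrings of `ℚ̄`
  over `ℓ` (this is all that is used).

From either of them:

* `goodLevelFacts` : `C0.GoodLevelFacts` at good levels ((G3) = `IntegralRed`, helper61);
* `hgood_of_genusLE` : (C0) at good levels, in the shape of the hypothesis `hgood` of
  `Descent.kummerRedInj_all_of_good` (`=` unfolded `Export.C0Good` `=` unfolded
  `Tier1.GoodLevelC0`);
* `c0AtGoodLevels_of_genusLE` : `Kummer.C0AtGoodLevels`;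
* `kummerRedInj_all` : (C0) `= Kummer.KummerRedInj N A m` at every level `N`.
-/

set_option autoImplicit false
set_option linter.unusedSectionVars false
set_option linter.style.haveILetI false
set_option synthInstance.maxHeartbeats 400000

noncomputable section

namespace Fermat.Agent.Gateway.C0.Final

open ModularCurve AlgebraicCurve IntermediateField Module
open Fermat.Agent.Gateway.GoodRed Fermat.Agent.Gateway.GoodRed.ConjFamily Fermat.Agent.Gateway.Red
  Fermat.Agent.Gateway.Kummer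

local notation "Qb" => AlgebraicClosure ℚ

/-- **(G2) at good levels**, for every algebraically closed field of characteristic `ℓ`. -/
def GenusLEAtGoodLevels : Prop :=
  ∀ (M : ℕ) [NeZero M] (ℓ : ℕ) [Fact ℓ.Prime], ¬ ℓ ∣ M →
    ((ℓ ≠ 2 ∧ 4 ∣ M) ∨ (ℓ = 2 ∧ 9 ∣ M)) →
    ∀ (k : Type) [Field k] [IsAlgClosed k] [CharP k ℓ],
      genusFF Qb (FBar Qb M) ≤ genusFF k (Fk k M)

/-- **(G2) at good levels**, only for the residue fields of the valuation subrings of `ℚ̄`. -/
def GenusLEAtGoodLevelsRes : Prop :=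
  ∀ (M : ℕ) [NeZero M] (ℓ : ℕ) [Fact ℓ.Prime], ¬ ℓ ∣ M →
    ((ℓ ≠ 2 ∧ 4 ∣ M) ∨ (ℓ = 2 ∧ 9 ∣ M)) →
    ∀ A : ValuationSubring Qb, A.LiesOverPrime ℓ →
      genusFF Qb (FBar Qb M) ≤
        genusFF (IsLocalRing.ResidueField A) (Fk (IsLocalRing.ResidueField A) M)

theorem GenusLEAtGoodLevels.res (h : GenusLEAtGoodLevels) : GenusLEAtGoodLevelsRes := by
  intro M _ ℓ _ hℓM hg A hA
  have hℓ : ℓ.Prime := Fact.out
  haveI : CharP (IsLocalRing.ResidueField A) ℓ := charP_residueField hℓ A hA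
  haveI : IsAlgClosed (IsLocalRing.ResidueField A) := residueField_isAlgClosed A
  exact h M ℓ hℓM hg (IsLocalRing.ResidueField A)

/-- `C0.GoodLevelFacts` at a good level, from (G2) (and (G3) `= IntegralRed`). -/
theorem goodLevelFacts (h : GenusLEAtGoodLevelsRes) (M : ℕ) [NeZero M] (ℓ : ℕ) [Fact ℓ.Prime]
    (hℓM : ¬ ℓ ∣ M) (hg : (ℓ ≠ 2 ∧ 4 ∣ M) ∨ (ℓ = 2 ∧ 9 ∣ M))
    (A : ValuationSubring Qb) (hA : A.LiesOverPrime ℓ)
    [CharP (IsLocalRing.ResidueField A) ℓ] [IsAlgClosed (IsLocalRing.ResidueField A)] :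
    GoodLevelFacts A (IsLocalRing.residue A) M ℓ IsLocalRing.residue_surjective hℓM where
  genus_le := h M ℓ hℓM hg A hA
  integral := IntegralRed.isIntegral_resFk_of_isIntegral_j A (IsLocalRing.residue A) M ℓ
    IsLocalRing.residue_surjective hℓM
  integral_inv := IntegralRed.isIntegral_resFk_of_isIntegral_jinv A (IsLocalRing.residue A) M ℓ
    IsLocalRing.residue_surjective hℓM

/-- **(C0) at good levels** from (G2), in the shape of the hypothesis `hgood` of
`Descent.kummerRedInj_all_of_good` (which is the unfolded form of `Export.C0Good` and of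
`Tier1.GoodLevelC0`). -/
theorem hgood_of_genusLE (h : GenusLEAtGoodLevelsRes) :
    ∀ (M : ℕ) [NeZero M] (m ℓ : ℕ), ℓ.Prime → ¬ ℓ ∣ m * M →
      ((ℓ ≠ 2 ∧ 4 ∣ M) ∨ (ℓ = 2 ∧ 9 ∣ M)) →
      ∀ A : ValuationSubring Qb, A.LiesOverPrime ℓ → KummerRedInj M A m := by
  intro M _ m ℓ hℓ hdvd hg A hA
  haveI : Fact ℓ.Prime := ⟨hℓ⟩
  have hℓm : ¬ ℓ ∣ m := fun hd => hdvd (Dvd.dvd.mul_right hd M)
  have hℓM : ¬ ℓ ∣ M := fun hd => hdvd (Dvd.dvd.mul_left hd m)
  haveI : CharP (IsLocalRing.ResidueField A) ℓ := charP_residueField hℓ A hA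
  haveI : IsAlgClosed (IsLocalRing.ResidueField A) := residueField_isAlgClosed A
  exact kummerRedInj_of_facts A M ℓ hℓM hA (goodLevelFacts h M ℓ hℓM hg A hA) hℓm

/-- `Kummer.C0AtGoodLevels` (helper47, `Kummer/C0Spec.lean`) from (G2). -/
theorem c0AtGoodLevels_of_genusLE (h : GenusLEAtGoodLevelsRes) : C0AtGoodLevels :=
  fun M _ m ℓ _ hℓ hdvd hg A hA => hgood_of_genusLE h M m ℓ hℓ hdvd hg A hA

/-- **(C0) at every level** from (G2) at good levels. -/
theorem kummerRedInj_all (h : GenusLEAtGoodLevelsRes) (N : ℕ) [NeZero N] :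
    ∀ m ℓ : ℕ, ℓ.Prime → ¬ ℓ ∣ m * N → ∀ A : ValuationSubring Qb, A.LiesOverPrime ℓ →
      KummerRedInj N A m :=
  Descent.kummerRedInj_all_of_good N (hgood_of_genusLE h)

end Fermat.Agent.Gateway.C0.Final
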