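import Fermat.Agent.Gateway.C0.Final
import Fermat.Agent.Gateway.GoodRed.Instantiate.GenusFinal

/-!
# GATEWAY C0: the genus inequality (G2) at good levels, proved

`GoodRed/Instantiate/GenusFinal.lean` supplies the single remaining input `GenusLEAtGoodLevelsRes`
of `C0/Final.lean`; hence (C0) `= Kummer.KummerRedInj N A m` holds unconditionally at every level.
-/

set_option autoImplicit false
set_option linter.unusedSectionVars false
set_option linter.style.haveILetI false
set_option synthInstance.maxHeartbeats 400000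

noncomputable section

namespace Fermat.Agent.Gateway.C0.Final

open ModularCurve AlgebraicCurve IntermediateField Module
open Fermat.Agent.Gateway.GoodRed Fermat.Agent.Gateway.GoodRed.ConjFamily Fermat.Agent.Gateway.Red
  Fermat.Agent.Gateway.Kummer

local notation "Qb" => AlgebraicClosure ℚ

/-- **(G2) at good levels**, for the residue fields of the valuation subrings of `ℚ̄`. -/
theorem genusLEAtGoodLevelsRes : GenusLEAtGoodLevelsRes := by
  intro M _ ℓ _ hℓM hg A hA
  have hℓ : ℓ.Prime := Fact.out
  haveI : CharP (IsLocalRing.ResidueField A) ℓ := charP_residueField hℓ A hA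
  haveI : IsAlgClosed (IsLocalRing.ResidueField A) := residueField_isAlgClosed A
  rcases hg with ⟨-, h4⟩ | ⟨-, h9⟩
  · exact genusFF_le_of_four_dvd ℓ A (IsLocalRing.residue A) IsLocalRing.residue_surjective hℓM h4
  · exact genusFF_le_of_nine_dvd ℓ A (IsLocalRing.residue A) IsLocalRing.residue_surjective hℓM h9

/-- **(C0) at good levels**, unconditionally. -/
theorem hgood :
    ∀ (M : ℕ) [NeZero M] (m ℓ : ℕ), ℓ.Prime → ¬ ℓ ∣ m * M →
      ((ℓ ≠ 2 ∧ 4 ∣ M) ∨ (ℓ = 2 ∧ 9 ∣ M)) →
      ∀ A : ValuationSubring Qb, A.LiesOverPrime ℓ → KummerRedInj M A m :=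
  hgood_of_genusLE genusLEAtGoodLevelsRes

/-- `Kummer.C0AtGoodLevels`, unconditionally. -/
theorem c0AtGoodLevels : C0AtGoodLevels :=
  c0AtGoodLevels_of_genusLE genusLEAtGoodLevelsRes

/-- **(C0) at every level**, unconditionally. -/
theorem kummerRedInj_all_proved (N : ℕ) [NeZero N] :
    ∀ m ℓ : ℕ, ℓ.Prime → ¬ ℓ ∣ m * N → ∀ A : ValuationSubring Qb, A.LiesOverPrime ℓ →
      KummerRedInj N A m :=
  kummerRedInj_all genusLEAtGoodLevelsRes N

end Fermat.Agent.Gateway.C0.Final
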