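import Mathlib
import Fermat.Prelude.Def_FLTPrelim_Ramification

/-!
# Valuation subrings of algebraic extensions of `ℚ` have rank one

`rank_one_of_isAlgebraic`: if `L / ℚ` is algebraic and the valuation subring `A` of `L` lies over
the prime `ℓ`, then for `x` in the maximal ideal of `A` and `c ≠ 0` in `A` some power of `x` is
divisible by `c`.
-/

set_option autoImplicit false
set_option linter.unusedSectionVars false

namespace Fermat.Agent.Gateway.C0

open IsLocalRing Polynomial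

variable {L : Type*} [Field L] [Algebra ℚ L] (A : ValuationSubring L) {ℓ : ℕ}

theorem valuation_intCast_le_one (n : ℤ) : A.valuation (n : L) ≤ 1 :=
  (A.valuation_le_one_iff _).mpr (intCast_mem A n)

/-- integers prime to `ℓ` are units of `A` -/
theorem valuation_intCast_eq_one (hℓ : ℓ.Prime) (hA : A.LiesOverPrime ℓ) {r : ℤ}
    (hr : ¬ (ℓ : ℤ) ∣ r) : A.valuation (r : L) = 1 := by
  have hcop : IsCoprime r (ℓ : ℤ) := by
    have := (Int.prime_iff_natAbs_prime.mpr (by simpa using hℓ) : Prime (ℓ : ℤ))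
    exact (this.coprime_iff_not_dvd.mpr hr).symm
  obtain ⟨a, b, hab⟩ := hcop
  have hL : (a : L) * (r : L) = 1 - (b : L) * (ℓ : L) := by
    have := congrArg (Int.cast : ℤ → L) hab
    push_cast at this
    linear_combination this
  have hℓv : A.valuation (ℓ : L) < 1 := (A.mem_nonunits_iff).mp hA
  have hbℓ : A.valuation ((b : L) * (ℓ : L)) < 1 := by
    rw [map_mul]
    exact lt_of_le_of_lt (mul_le_of_le_one_left' (valuation_intCast_le_one A b)) hℓv
  have h1 : A.valuation ((a : L) * (r : L)) = 1 := by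
    rw [hL]; exact Valuation.map_one_sub_of_lt _ hbℓ
  rw [map_mul] at h1
  apply le_antisymm (valuation_intCast_le_one A r)
  by_contra hlt
  rw [not_le] at hlt
  have : A.valuation (a : L) * A.valuation (r : L) < 1 := by
    calc A.valuation (a : L) * A.valuation (r : L) ≤ 1 * A.valuation (r : L) :=
          mul_le_mul_left (valuation_intCast_le_one A a) _
      _ = A.valuation (r : L) := one_mul _
      _ < 1 := hlt
  exact absurd h1 (ne_of_lt this)

/-- the valuation of a nonzero natural number is a power of the valuation of `ℓ` -/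
theorem valuation_natCast_eq_pow (hℓ : ℓ.Prime) (hA : A.LiesOverPrime ℓ) {n : ℕ} (hn : n ≠ 0) :
    ∃ a : ℕ, A.valuation (n : L) = A.valuation (ℓ : L) ^ a := by
  obtain ⟨a, n', hn', rfl⟩ := Nat.exists_eq_pow_mul_and_not_dvd hn ℓ hℓ.ne_one
  refine ⟨a, ?_⟩
  have h1 : A.valuation ((n' : ℤ) : L) = 1 :=
    valuation_intCast_eq_one A hℓ hA (by exact_mod_cast hn')
  push_cast at h1 ⊢
  rw [map_mul, map_pow, h1, mul_one]

/-- the valuation of a nonzero rational number is an integral power of the valuation of `ℓ` -/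
theorem valuation_ratCast_eq_zpow (hℓ : ℓ.Prime) (hA : A.LiesOverPrime ℓ) {q : ℚ} (hq : q ≠ 0) :
    ∃ e : ℤ, A.valuation (algebraMap ℚ L q) = A.valuation (ℓ : L) ^ e := by
  have hnum : q.num.natAbs ≠ 0 := by
    rw [Ne, Int.natAbs_eq_zero, Rat.num_eq_zero]; exact hq
  obtain ⟨a, ha⟩ := valuation_natCast_eq_pow A hℓ hA hnum
  obtain ⟨b, hb⟩ := valuation_natCast_eq_pow A hℓ hA q.den_ne_zero
  refine ⟨a - b, ?_⟩
  have : CharZero L := algebraRat.charZero L
  have hℓ0 : A.valuation (ℓ : L) ≠ 0 := by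
    rw [Valuation.ne_zero_iff]; exact Nat.cast_ne_zero.mpr hℓ.ne_zero
  have hq' : algebraMap ℚ L q = (q.num : L) / (q.den : L) := by
    conv_lhs => rw [← Rat.num_div_den q]
    rw [map_div₀]
    simp
  have hnum' : A.valuation (q.num : L) = A.valuation ((q.num.natAbs : ℕ) : L) := by
    rcases Int.natAbs_eq q.num with h | h
    · conv_lhs => rw [h]
      simp
    · conv_lhs => rw [h]
      simp [Valuation.map_neg]
  rw [hq', map_div₀, hnum', ha, hb, zpow_sub₀ hℓ0, zpow_natCast, zpow_natCast]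

variable [Algebra.IsAlgebraic ℚ L]

/-- a power of the valuation of a nonzero element is an integral power of the valuation of `ℓ` -/
theorem exists_pow_valuation_eq_zpow (hℓ : ℓ.Prime) (hA : A.LiesOverPrime ℓ) {y : L}
    (hy : y ≠ 0) :
    ∃ (t : ℕ) (e : ℤ), 0 < t ∧ A.valuation y ^ t = A.valuation (ℓ : L) ^ e := by
  classical
  have : CharZero L := algebraRat.charZero L
  have hint : IsIntegral ℚ y := (Algebra.IsAlgebraic.isAlgebraic y).isIntegral
  set p := minpoly ℚ y with hp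
  have hp0 : p.coeff 0 ≠ 0 := minpoly.coeff_zero_ne_zero hint hy
  set f : ℕ → L := fun i => algebraMap ℚ L (p.coeff i) * y ^ i with hf
  set S : Finset ℕ := (Finset.range (p.natDegree + 1)).filter fun i => p.coeff i ≠ 0 with hS
  have hsum : ∑ i ∈ S, f i = 0 := by
    have h1 : aeval y p = 0 := minpoly.aeval ℚ y
    rw [aeval_eq_sum_range] at h1
    have h2 : ∑ i ∈ S, f i = ∑ i ∈ Finset.range (p.natDegree + 1), p.coeff i • y ^ i := by
      rw [hS, Finset.sum_filter]
      refine Finset.sum_congr rfl fun i _ => ?_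
      by_cases hi : p.coeff i ≠ 0
      · rw [if_pos hi, hf, Algebra.smul_def]
      · rw [if_neg hi]
        rw [not_not] at hi
        rw [hi, zero_smul]
    rw [h2, h1]
  have hSne : S.Nonempty := ⟨0, by rw [hS, Finset.mem_filter]; exact ⟨by simp, hp0⟩⟩
  have hvy0 : A.valuation y ≠ 0 := (Valuation.ne_zero_iff _).mpr hy
  have hfne : ∀ i ∈ S, A.valuation (f i) ≠ 0 := by
    intro i hi
    rw [hS, Finset.mem_filter] at hi
    rw [Valuation.ne_zero_iff]
    exact mul_ne_zero (by simpa using hi.2) (pow_ne_zero _ hy)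
  obtain ⟨i₁, hi₁, hmax⟩ := Finset.exists_max_image S (fun i => A.valuation (f i)) hSne
  -- the maximum is attained twice
  have htwice : ∃ i₂ ∈ S, i₂ ≠ i₁ ∧ A.valuation (f i₂) = A.valuation (f i₁) := by
    by_contra hcon
    push Not at hcon
    have hlt : ∀ i ∈ S \ {i₁}, A.valuation (f i) < A.valuation (f i₁) := by
      intro i hi
      rw [Finset.mem_sdiff, Finset.mem_singleton] at hi
      exact lt_of_le_of_ne (hmax i hi.1) (hcon i hi.1 hi.2)
    have := Valuation.map_sum_eq_of_lt A.valuation hi₁ hlt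
    rw [hsum, map_zero] at this
    exact hfne i₁ hi₁ this.symm
  obtain ⟨i₂, hi₂, hne, heq⟩ := htwice
  have hc₁ : p.coeff i₁ ≠ 0 := by rw [hS, Finset.mem_filter] at hi₁; exact hi₁.2
  have hc₂ : p.coeff i₂ ≠ 0 := by rw [hS, Finset.mem_filter] at hi₂; exact hi₂.2
  obtain ⟨e₁, he₁⟩ := valuation_ratCast_eq_zpow A hℓ hA hc₁
  obtain ⟨e₂, he₂⟩ := valuation_ratCast_eq_zpow A hℓ hA hc₂
  have hℓ0 : A.valuation (ℓ : L) ≠ 0 := by
    rw [Valuation.ne_zero_iff]; exact Nat.cast_ne_zero.mpr hℓ.ne_zero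
  simp only [hf, map_mul, map_pow, he₁, he₂] at heq
  -- heq : v ℓ ^ e₂ * v y ^ i₂ = v ℓ ^ e₁ * v y ^ i₁
  rcases lt_or_gt_of_ne hne with hlt | hgt
  · -- i₂ < i₁
    refine ⟨i₁ - i₂, e₂ - e₁, by omega, ?_⟩
    have h3 : A.valuation y ^ i₁ = A.valuation y ^ (i₁ - i₂) * A.valuation y ^ i₂ := by
      rw [← pow_add, Nat.sub_add_cancel hlt.le]
    rw [h3] at heq
    have hy2 : A.valuation y ^ i₂ ≠ 0 := pow_ne_zero _ hvy0
    have h4 : A.valuation (ℓ : L) ^ e₂ = A.valuation (ℓ : L) ^ e₁ * A.valuation y ^ (i₁ - i₂) := by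
      have := mul_right_cancel₀ hy2 (by rw [heq, mul_assoc] :
        A.valuation (ℓ : L) ^ e₂ * A.valuation y ^ i₂
          = (A.valuation (ℓ : L) ^ e₁ * A.valuation y ^ (i₁ - i₂)) * A.valuation y ^ i₂)
      exact this
    rw [zpow_sub₀ hℓ0, h4, mul_div_cancel_left₀ _ (zpow_ne_zero _ hℓ0)]
  · -- i₁ < i₂
    refine ⟨i₂ - i₁, e₁ - e₂, by omega, ?_⟩
    have h3 : A.valuation y ^ i₂ = A.valuation y ^ (i₂ - i₁) * A.valuation y ^ i₁ := by
      rw [← pow_add, Nat.sub_add_cancel hgt.le]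
    rw [h3] at heq
    have hy1 : A.valuation y ^ i₁ ≠ 0 := pow_ne_zero _ hvy0
    have h4 : A.valuation (ℓ : L) ^ e₁ = A.valuation (ℓ : L) ^ e₂ * A.valuation y ^ (i₂ - i₁) := by
      have := mul_right_cancel₀ hy1 (by rw [← heq, mul_assoc] :
        A.valuation (ℓ : L) ^ e₁ * A.valuation y ^ i₁
          = (A.valuation (ℓ : L) ^ e₂ * A.valuation y ^ (i₂ - i₁)) * A.valuation y ^ i₁)
      exact this
    rw [zpow_sub₀ hℓ0, h4, mul_div_cancel_left₀ _ (zpow_ne_zero _ hℓ0)]

/-- **Rank one.**  For `L / ℚ` algebraic and `A` over `ℓ`: some power of any element of the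
maximal ideal is divisible by any given nonzero element. -/
theorem rank_one_of_isAlgebraic (hℓ : ℓ.Prime) (hA : A.LiesOverPrime ℓ) :
    ∀ x ∈ maximalIdeal A, ∀ c : A, c ≠ 0 → ∃ j : ℕ, c ∣ x ^ j := by
  intro x hx c hc
  have : CharZero L := algebraRat.charZero L
  by_cases hx0 : x = 0
  · exact ⟨1, by rw [hx0, pow_one]; exact dvd_zero c⟩
  have hxL : (x : L) ≠ 0 := fun h => hx0 (Subtype.ext h)
  have hcL : (c : L) ≠ 0 := fun h => hc (Subtype.ext h)
  have hvx : A.valuation (x : L) < 1 := (A.valuation_lt_one_iff x).mp hx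
  have hvc : A.valuation (c : L) ≤ 1 := (A.valuation_le_one_iff _).mpr c.2
  have hℓv : A.valuation (ℓ : L) < 1 := (A.mem_nonunits_iff).mp hA
  have hℓ0 : A.valuation (ℓ : L) ≠ 0 := by
    rw [Valuation.ne_zero_iff]; exact Nat.cast_ne_zero.mpr hℓ.ne_zero
  have hpow_le : ∀ n : ℕ, A.valuation (ℓ : L) ^ n ≤ 1 := fun n => pow_le_one' hℓv.le n
  -- nonpositive exponents give values ≥ 1
  have hge : ∀ e : ℤ, e ≤ 0 → 1 ≤ A.valuation (ℓ : L) ^ e := by
    intro e he
    obtain ⟨n, rfl⟩ : ∃ n : ℕ, e = -(n : ℤ) := ⟨(-e).toNat, by omega⟩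
    rw [zpow_neg, zpow_natCast]
    exact (one_le_inv₀ (zero_lt_iff.mpr (pow_ne_zero _ hℓ0))).mpr (hpow_le n)
  obtain ⟨t, e, ht, hte⟩ := exists_pow_valuation_eq_zpow A hℓ hA hxL
  obtain ⟨t', e', ht', hte'⟩ := exists_pow_valuation_eq_zpow A hℓ hA hcL
  -- `e ≥ 1`
  have he : 1 ≤ e := by
    by_contra hcon
    have h1 := hge e (by omega)
    rw [← hte] at h1
    have h2 : A.valuation (x : L) ^ t < 1 := pow_lt_one' hvx (by omega)
    exact absurd h1 (not_le.mpr h2)
  have hxt : A.valuation (x : L) ^ t ≤ A.valuation (ℓ : L) := by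
    rw [hte]
    obtain ⟨n, rfl⟩ : ∃ n : ℕ, e = (n : ℤ) + 1 := ⟨(e - 1).toNat, by omega⟩
    rw [zpow_add_one₀ hℓ0, zpow_natCast]
    exact mul_le_of_le_one_left' (hpow_le n)
  -- lower bound for `v c`
  set E : ℕ := e'.toNat with hE
  have hcE : A.valuation (ℓ : L) ^ E ≤ A.valuation (c : L) := by
    have h1 : A.valuation (c : L) ^ t' ≤ A.valuation (c : L) := by
      obtain ⟨n, rfl⟩ : ∃ n, t' = n + 1 := ⟨t' - 1, by omega⟩
      rw [pow_succ]
      exact mul_le_of_le_one_left' (pow_le_one' hvc n)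
    refine le_trans ?_ h1
    rw [hte']
    by_cases he' : 0 ≤ e'
    · have : e' = (E : ℤ) := by rw [hE]; omega
      rw [this, zpow_natCast]
    · have hE0 : E = 0 := by rw [hE]; omega
      rw [hE0, pow_zero]
      exact hge e' (by omega)
  refine ⟨t * E, ?_⟩
  have hval : A.valuation ((x : L) ^ (t * E) / (c : L)) ≤ 1 := by
    rw [map_div₀, map_pow, pow_mul]
    have hcv0 : 0 < A.valuation (c : L) := zero_lt_iff.mpr ((Valuation.ne_zero_iff _).mpr hcL)
    rw [div_le_one₀ hcv0]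
    exact le_trans (pow_le_pow_left' hxt E) hcE
  refine ⟨⟨(x : L) ^ (t * E) / (c : L), (A.valuation_le_one_iff _).mp hval⟩, ?_⟩
  apply Subtype.ext
  push_cast
  field_simp

end Fermat.Agent.Gateway.C0
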