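import Fermat.Agent.Gateway.C0.Count
import Fermat.Agent.Gateway.C0.RankOne
import Fermat.Agent.Gateway.GoodRed.GaussBar

/-!
# GATEWAY C0, layer 2b: the `RedSetup` of the Gauss valuation on the modular function field

`gaussRedSetup`: for `L / ℚ` algebraic, `A` a valuation subring of `L` over `ℓ`, `π : A → k`
surjective onto an algebraically closed field of characteristic `ℓ ∤ N`, the Gauss valuation ring
`OvVal` of `FBar L N` (helper82, `GoodRed/GaussBar`) with its residue map `resFk` onto
`modularFunctionFieldFullC k N` is a `RedSetup`.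
-/

set_option autoImplicit false
set_option linter.unusedSectionVars false

noncomputable section

namespace Fermat.Agent.Gateway.C0

open ModularCurve Fermat.Agent.Gateway.GoodRed Fermat.Agent.Gateway.Red IsLocalRing

variable {L : Type*} [Field L] [Algebra ℚ L] [Algebra.IsAlgebraic ℚ L] (A : ValuationSubring L)
  {k : Type} [Field k] (π : A →+* k) [IsAlgClosed k] (N : ℕ) [NeZero N]
  (ℓ : ℕ) [Fact ℓ.Prime] [CharP k ℓ]

/-- The `RedSetup` of the Gauss valuation. -/
def gaussRedSetup (hπ : Function.Surjective π) (hℓN : ¬ ℓ ∣ N) (hA : A.LiesOverPrime ℓ) :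
    RedSetup A (OvVal A π N ℓ hπ hℓN) k (modularFunctionFieldFullC k N) where
  π := π
  π_surj := hπ
  res := resFk A π N ℓ hπ hℓN
  res_ker x := by
    rw [resFk_eq_zero_iff, ValuationSubring.valuation_eq_one_iff]
    have hle : (OvVal A π N ℓ hπ hℓN).valuation (x : FBar L N) ≤ 1 :=
      (ValuationSubring.valuation_le_one_iff _ _).mpr x.2
    exact ⟨fun h => lt_of_le_of_ne hle h, fun h => ne_of_lt h⟩
  algebraMap_mem a := (algebraMap_mem_Ov_iff A π N hπ (a : L)).mpr a.2
  res_algebraMap a := by
    apply Subtype.ext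
    rw [coe_resFk]
    have h := redV_algebraMap A π N a ((algebraMap_mem_Ov_iff A π N hπ (a : L)).mpr a.2)
    rw [h]
    have : ((algebraMap k (modularFunctionFieldFullC k N) (π a) : modularFunctionFieldFullC k N) :
        LaurentSeries k) = algebraMap k (LaurentSeries k) (π a) := rfl
    rw [this, algebraMap_laurentSeries_eq_single]
    rfl
  scal f hf := by
    obtain ⟨c, u, hc, hu0, -, hfu⟩ := exists_const_mul_unit_F A π N ℓ hℓN f hf
    refine ⟨c⁻¹, inv_ne_zero hc, ?_⟩
    have hfu' : c⁻¹ • f = (u : FBar L N) := by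
      rw [hfu, Algebra.smul_def, ← mul_assoc, ← map_mul, inv_mul_cancel₀ hc, map_one, one_mul]
    rw [hfu']
    have huinv := inv_mem_Ov A π (FBar L N) u.2 hu0
    have hunit : IsUnit (⟨(u : FBar L N), u.2⟩ : OvVal A π N ℓ hπ hℓN) := by
      have hu0' : (u : FBar L N) ≠ 0 := by
        intro h
        apply hu0
        have : u = 0 := Subtype.ext h
        rw [this, map_zero]
      exact IsUnit.of_mul_eq_one (⟨(u : FBar L N)⁻¹, huinv⟩ : OvVal A π N ℓ hπ hℓN)
        (Subtype.ext (mul_inv_cancel₀ hu0'))
    exact (ValuationSubring.valuation_eq_one_iff _ _).mp hunit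
  rank_one := rank_one_of_isAlgebraic A (Fact.out : ℓ.Prime) hA
  exists_ne_zero := by
    have : CharZero L := algebraRat.charZero L
    refine ⟨⟨(ℓ : L), ?_⟩, ?_, ?_⟩
    · exact (A.valuation_le_one_iff _).mp (le_of_lt ((A.mem_nonunits_iff).mp hA))
    · rw [A.valuation_lt_one_iff]
      exact (A.mem_nonunits_iff).mp hA
    · intro h
      have := congrArg Subtype.val h
      simp only [ZeroMemClass.coe_zero, Nat.cast_eq_zero] at this
      exact (Fact.out : ℓ.Prime).ne_zero this

end Fermat.Agent.Gateway.C0
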