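import Fermat.Agent.S20
import Fermat.Agent.Lib.RiemannRoch.Modular
import Fermat.Agent.Gateway.GoodRed.GaussBar

/-!
# GATEWAY C0: the genus of `X₀(M)` over `Qbar` is the number of weight-2 cusp forms

`genusFF Qbar (FBar Qbar M) = dim S₂(Γ₀(M))`, from `S20.result` (dimension formula) and
`Lib/RiemannRoch/Modular.genusFF_modular` (`S24.result` in terms of the adelic genus).  This turns
the output `dim S₂(Γ₀(M)) ≤ genusFF k (Fk k M)` of the cuspidal upper bound into the input (G2)
`genusFF Qbar F ≤ genusFF k κ` of `C0/Instantiate.lean`.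
-/

set_option autoImplicit false

namespace Fermat.Agent.Gateway.C0

open AlgebraicCurve ModularCurve Fermat.Agent.Gateway.GoodRed

theorem genusFF_eq_finrank_cuspForm (M : ℕ) [NeZero M] :
    genusFF (AlgebraicClosure ℚ) (FBar (AlgebraicClosure ℚ) M) =
      Module.finrank ℂ (CuspForm (CongruenceSubgroup.Gamma0 M) 2) := by
  have h1 := Fermat.Agent.Lib.RiemannRoch.Modular.genusFF_modular M
  have h2 := Fermat.Agent.S20.result M
  have h3 : ((genusFF (AlgebraicClosure ℚ) (FBar (AlgebraicClosure ℚ) M) : ℕ) : ℚ) =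
      (Module.finrank ℂ (CuspForm (CongruenceSubgroup.Gamma0 M) 2) : ℚ) := by
    rw [h2]
    exact h1
  exact_mod_cast h3

end Fermat.Agent.Gateway.C0
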