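import Fermat.Agent.Gateway.C0.LevelFacts
import Fermat.Agent.Gateway.GoodRed.ConjFamily.Degree

/-!
# P-GATEWAY (c), C0: level facts on the special fibre, inputs (G0) `k`-side and (G1) of `C0/Main.lean`

For `k` algebraically closed with `(M : k) ≠ 0`, `κ = modularFunctionFieldFullC k M = Fk k M`,
`jk = ConjFamily.jFk k M = ⟨jqModC k, _⟩`:
* `transcendental_jFk`, `finiteDimensional_jFk`, `isSeparable_jFk`, `finrank_jFk` (`= ψ(M)`);
* `finrank_jFk_le` : (G1) `[κ : k(jk)] ≤ [F : Qbar(jF)]` (an equality, both are `ψ(M)`).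
(The `k`-side statements are re-exports of helper83's `ConjFamily/Degree.lean`.)
-/

set_option autoImplicit false
set_option linter.unusedSectionVars false

noncomputable section

open ModularCurve IntermediateField

namespace Fermat.Agent.Gateway.C0.LevelFacts

open Fermat.Agent.Gateway.GoodRed Fermat.Agent.Gateway.GoodRed.ConjFamily Fermat.Agent.S24
  Fermat.Agent.S28

variable (k : Type) [Field k] (M : ℕ) [NeZero M]

theorem transcendental_jFk : Transcendental k (jFk k M) := by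
  apply (transcendental_algebraMap_iff
    (algebraMap (Fk k M) (LaurentSeries k)).injective).mp
  show Transcendental k (jqModC k)
  refine TransJ.transcendental_of_coeff_ne_zero _ (n := -1) (by norm_num) ?_
  rw [jqModC_coeff_neg_one]
  exact one_ne_zero

variable {k M} [IsAlgClosed k]

theorem finiteDimensional_jFk (hMk : (M : k) ≠ 0) : FiniteDimensional k⟮jFk k M⟯ (Fk k M) :=
  finiteDimensional_Fk hMk

theorem isSeparable_jFk (hMk : (M : k) ≠ 0) : Algebra.IsSeparable k⟮jFk k M⟯ (Fk k M) :=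
  isSeparable_Fk hMk

theorem finrank_jFk (hMk : (M : k) ≠ 0) :
    Module.finrank k⟮jFk k M⟯ (Fk k M) = dedekindPsi M :=
  finrank_Fk_eq_dedekindPsi hMk

/-- **(G1)** `[κ : k(jk)] ≤ [F : Qbar(jF)]`. -/
theorem finrank_jFk_le (hMk : (M : k) ≠ 0) :
    Module.finrank k⟮jFk k M⟯ (Fk k M) ≤
      Module.finrank (AlgebraicClosure ℚ)⟮GoodRed.jF (AlgebraicClosure ℚ) M⟯
        (FBar (AlgebraicClosure ℚ) M) := by
  rw [finrank_jFk hMk, finrank_jF]

section Residue

open Fermat.Agent.Gateway.Red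

variable {L : Type*} [Field L] [Algebra ℚ L] (A : ValuationSubring L)
  {k : Type} [Field k] (π : A →+* k) (N : ℕ)
  [IsAlgClosed k] (ℓ : ℕ) [Fact ℓ.Prime] [CharP k ℓ] [NeZero N]

/-- `j` lies in the Gauss valuation ring `OvVal`. -/
theorem jF_mem_OvVal (hπ : Function.Surjective π) (hℓN : ¬ ℓ ∣ N) :
    GoodRed.jF L N ∈ OvVal A π N ℓ hπ hℓN := by
  rw [mem_OvVal_iff, mem_Ov_iff]
  show jqModC L ∈ gaussRing A π
  rw [← embA_jqModC A]
  exact embA_mem_gaussRing A π _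

/-- `j` reduces to `j`: `resFk jF = jFk`. -/
theorem resFk_jF (hπ : Function.Surjective π) (hℓN : ¬ ℓ ∣ N) :
    resFk A π N ℓ hπ hℓN ⟨GoodRed.jF L N, jF_mem_OvVal A π N ℓ hπ hℓN⟩ = jFk k N := by
  apply Subtype.ext
  rw [coe_resFk, redV_of_eq_embA A π (FBar L N) _ (a := jqModC A) (embA_jqModC A).symm,
    redA_jqModC]
  rfl

/-- `1 / j` lies in `OvVal` and reduces to `1 / j`. -/
theorem inv_jF_mem_OvVal (hπ : Function.Surjective π) (hℓN : ¬ ℓ ∣ N) :
    (GoodRed.jF L N)⁻¹ ∈ OvVal A π N ℓ hπ hℓN := by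
  have hu : IsUnit (⟨GoodRed.jF L N, jF_mem_OvVal A π N ℓ hπ hℓN⟩ : OvVal A π N ℓ hπ hℓN) := by
    by_contra h
    have h0 := (resFk_eq_zero_iff A π N ℓ hπ hℓN _).mpr h
    rw [resFk_jF] at h0
    have h1 : (jqModC k).coeff (-1) = 0 := by
      have : ((jFk k N : Fk k N) : LaurentSeries k) = 0 := by rw [h0]; rfl
      have h2 : ((jFk k N : Fk k N) : LaurentSeries k) = jqModC k := rfl
      rw [h2] at this
      rw [this]; rfl
    rw [jqModC_coeff_neg_one] at h1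
    exact one_ne_zero h1
  obtain ⟨u, hu'⟩ := hu
  have h1 : ((u⁻¹ : (OvVal A π N ℓ hπ hℓN)ˣ) : OvVal A π N ℓ hπ hℓN) *
      ⟨GoodRed.jF L N, jF_mem_OvVal A π N ℓ hπ hℓN⟩ = 1 := by
    rw [← hu']; exact u.inv_mul
  have h2 : (((u⁻¹ : (OvVal A π N ℓ hπ hℓN)ˣ) : OvVal A π N ℓ hπ hℓN) : FBar L N) *
      GoodRed.jF L N = 1 := congrArg Subtype.val h1
  have h3 : (GoodRed.jF L N)⁻¹ =
      (((u⁻¹ : (OvVal A π N ℓ hπ hℓN)ˣ) : OvVal A π N ℓ hπ hℓN) : FBar L N) :=
    (eq_inv_of_mul_eq_one_left h2).symm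
  rw [h3]
  exact Subtype.property _

theorem resFk_inv_jF (hπ : Function.Surjective π) (hℓN : ¬ ℓ ∣ N) :
    resFk A π N ℓ hπ hℓN ⟨(GoodRed.jF L N)⁻¹, inv_jF_mem_OvVal A π N ℓ hπ hℓN⟩ = (jFk k N)⁻¹ := by
  have h1 : (⟨(GoodRed.jF L N)⁻¹, inv_jF_mem_OvVal A π N ℓ hπ hℓN⟩ : OvVal A π N ℓ hπ hℓN) *
      ⟨GoodRed.jF L N, jF_mem_OvVal A π N ℓ hπ hℓN⟩ = 1 := by
    apply Subtype.ext
    show (GoodRed.jF L N)⁻¹ * GoodRed.jF L N = 1
    refine inv_mul_cancel₀ ?_
    intro h0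
    have h1 : (jqModC L).coeff (-1) = 0 := by
      have : ((GoodRed.jF L N : FBar L N) : LaurentSeries L) = 0 := by rw [h0]; rfl
      rw [GoodRed.coe_jF] at this
      rw [this]; rfl
    rw [jqModC_coeff_neg_one] at h1
    exact one_ne_zero h1
  have h2 := congrArg (resFk A π N ℓ hπ hℓN) h1
  rw [map_mul, map_one, resFk_jF] at h2
  exact eq_inv_of_mul_eq_one_left h2

end Residue

end Fermat.Agent.Gateway.C0.LevelFacts
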