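import Fermat.Agent.Gateway.C0.Main
import Fermat.Agent.Gateway.C0.GaussSetup
import Fermat.Agent.Gateway.C0.LevelFactsK
import Fermat.Agent.Gateway.GoodRed.Orthonormal
import Fermat.Agent.Gateway.GoodRed.GaussNorm
import Fermat.Agent.Gateway.Kummer.RedBridge

/-!
# GATEWAY C0, layer 4: (C0) for the modular function field of level `M`

`kummerRedInj_of_facts`: `Kummer.KummerRedInj M A m` (helper47's (C0)) for a valuation subring `A`
of `L = AlgebraicClosure ℚ` over `ℓ ∤ m M`, from the level facts `GoodLevelFacts` = the two deep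
inputs (G2), (G3) of `C0/Main.lean`:

* `genusFF L F ≤ genusFF k κ`, `κ = modularFunctionFieldFullC k M`;
* reduction preserves integrality over `L[j]` and over `L[1/j]`.
-/

set_option autoImplicit false
set_option linter.unusedSectionVars false
set_option linter.style.haveILetI false

noncomputable section

namespace Fermat.Agent.Gateway.C0

open ModularCurve AlgebraicCurve IntermediateField Module
open Fermat.Agent.Gateway.GoodRed Fermat.Agent.Gateway.GoodRed.ConjFamily Fermat.Agent.Gateway.Red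
  Fermat.Agent.Gateway.Kummer

section general

variable (A : ValuationSubring (AlgebraicClosure ℚ))
  {k : Type} [Field k] (π : A →+* k) [IsAlgClosed k] (M : ℕ) [NeZero M]
  (ℓ : ℕ) [Fact ℓ.Prime] [CharP k ℓ]

/-- The two deep inputs (G2), (G3) of (C0) at level `M` (the inputs (G0), (G1), (G4) are
`C0/LevelFacts.lean`, `C0/LevelFactsK.lean` (helper38) and `GoodRed/Orthonormal.lean`
(helper61)):
* `genus_le`: the genus does not drop under reduction;
* `integral`, `integral_inv`: reduction preserves integrality over `L[j]` and over `L[1/j]`. -/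
structure GoodLevelFacts (hπ : Function.Surjective π) (hℓM : ¬ ℓ ∣ M) : Prop where
  genus_le : genusFF (AlgebraicClosure ℚ) (FBar (AlgebraicClosure ℚ) M) ≤ genusFF k (Fk k M)
  integral : ∀ (f : FBar (AlgebraicClosure ℚ) M) (hf : f ∈ OvVal A π M ℓ hπ hℓM),
    IsIntegral (Algebra.adjoin (AlgebraicClosure ℚ) {jF (AlgebraicClosure ℚ) M}) f →
      IsIntegral (Algebra.adjoin k {jFk k M}) (resFk A π M ℓ hπ hℓM ⟨f, hf⟩)
  integral_inv : ∀ (f : FBar (AlgebraicClosure ℚ) M) (hf : f ∈ OvVal A π M ℓ hπ hℓM),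
    IsIntegral (Algebra.adjoin (AlgebraicClosure ℚ) {(jF (AlgebraicClosure ℚ) M)⁻¹}) f →
      IsIntegral (Algebra.adjoin k {(jFk k M)⁻¹}) (resFk A π M ℓ hπ hℓM ⟨f, hf⟩)

/-- **(C0) at level `M`**, in terms of the Gauss valuation ring `OvVal` and its residue map. -/
theorem exists_const_mul_pow_of_resFk_eq_one (hπ : Function.Surjective π) (hℓM : ¬ ℓ ∣ M)
    (hA : A.LiesOverPrime ℓ) (H : GoodLevelFacts A π M ℓ hπ hℓM) {m : ℕ} (hm : ¬ ℓ ∣ m)
    {z : FBar (AlgebraicClosure ℚ) M} (hz : z ≠ 0)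
    (hdiv : ∀ P : Place (AlgebraicClosure ℚ) (FBar (AlgebraicClosure ℚ) M), (m : ℤ) ∣ P.ord z)
    (hzO : z ∈ OvVal A π M ℓ hπ hℓM) (hz1 : resFk A π M ℓ hπ hℓM ⟨z, hzO⟩ = 1) :
    ∃ (c : AlgebraicClosure ℚ) (w : FBar (AlgebraicClosure ℚ) M),
      z = algebraMap (AlgebraicClosure ℚ) (FBar (AlgebraicClosure ℚ) M) c * w ^ m := by
  have hℓ : ℓ.Prime := Fact.out
  have hMk : (M : k) ≠ 0 := fun h => hℓM ((CharP.cast_eq_zero_iff k ℓ M).mp h)
  haveI : Algebra.IsAlgebraic ℚ (AlgebraicClosure ℚ) := AlgebraicClosure.isAlgebraic ℚ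
  haveI := LevelFacts.finiteDimensional_jF (AlgebraicClosure ℚ) M
  haveI := LevelFacts.finiteDimensional_jFk hMk
  haveI := LevelFacts.isSeparable_jFk hMk
  -- `m` is a unit of `A`
  have hmunit : IsUnit ((m : ℕ) : A) := by
    have hv : A.valuation ((m : ℤ) : AlgebraicClosure ℚ) = 1 :=
      valuation_intCast_eq_one A hℓ hA (by exact_mod_cast hm)
    have hv' : A.valuation (((m : ℕ) : A) : AlgebraicClosure ℚ) = 1 := by
      simpa using hv
    exact (A.valuation_eq_one_iff _).mpr hv'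
  refine exists_const_mul_pow_of_res_eq_one (gaussRedSetup A π M ℓ hπ hℓM hA)
    (LevelFacts.transcendental_jF (AlgebraicClosure ℚ) M)
    (LevelFacts.jF_mem_OvVal A π M ℓ hπ hℓM)
    (LevelFacts.resFk_jF A π M ℓ hπ hℓM) (LevelFacts.transcendental_jFk k M)
    H.integral H.integral_inv (LevelFacts.finrank_jFk_le hMk) H.genus_le ?_
    hmunit hz hdiv hzO hz1
  intro V hV
  exact fg_inf_OvVal A π ℓ hπ hℓM V _ (fun f => Iff.rfl)

end general

section kummer

variable (A : ValuationSubring (AlgebraicClosure ℚ)) (M : ℕ) [NeZero M] (ℓ : ℕ) [Fact ℓ.Prime]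

/-- **(C0) at level `M`** in helper47's form `Kummer.KummerRedInj`, from the level facts. -/
theorem kummerRedInj_of_facts (hℓM : ¬ ℓ ∣ M) (hA : A.LiesOverPrime ℓ)
    [CharP (IsLocalRing.ResidueField A) ℓ] [IsAlgClosed (IsLocalRing.ResidueField A)]
    (H : GoodLevelFacts A (IsLocalRing.residue A) M ℓ IsLocalRing.residue_surjective hℓM)
    {m : ℕ} (hm : ¬ ℓ ∣ m) : KummerRedInj M A m := by
  apply kummerRedInj_of_Ov
  intro z hz hdiv hzO hz1
  refine exists_const_mul_pow_of_resFk_eq_one A (IsLocalRing.residue A) M ℓ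
    IsLocalRing.residue_surjective hℓM hA H hm hz hdiv hzO ?_
  apply Subtype.ext
  rw [coe_resFk]
  exact hz1

end kummer

end Fermat.Agent.Gateway.C0
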