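import Fermat.Agent.Gateway.GoodRed.Orthonormal
import Fermat.Agent.Gateway.HK1.Modular
import Fermat.Agent.Gateway.Descent.Cusp

/-!
# P-GATEWAY (c), C0: level facts on the characteristic-zero side, input (G0) of `C0/Main.lean`

For `L` algebraically closed of characteristic zero, `F = FBar L M`, `jF = GoodRed.jF L M`:
* `transcendental_jF` : `jF` is transcendental over `L`;
* `finiteDimensional_jF` : `F` is finite over `L(jF)`;
and for `L = AlgebraicClosure ℚ`:
* `finrank_jF` : `[F : L(jF)] = ψ(M)` (P-S24).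
-/

set_option autoImplicit false

noncomputable section

open ModularCurve IntermediateField

namespace Fermat.Agent.Gateway.C0.LevelFacts

open Fermat.Agent.Gateway.GoodRed Fermat.Agent.Gateway

variable (L : Type) [Field L] [Algebra ℚ L] (M : ℕ) [NeZero M]

theorem jF_eq_jL : GoodRed.jF L M = HK1.jL L M := rfl

theorem transcendental_jF : Transcendental L (GoodRed.jF L M) :=
  HK1.transcendental_jL L M

variable [IsAlgClosed L] [CharZero L]

theorem finiteDimensional_jF : FiniteDimensional L⟮GoodRed.jF L M⟯ (FBar L M) :=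
  HK1.finiteDimensional_FL L M

end Fermat.Agent.Gateway.C0.LevelFacts

namespace Fermat.Agent.Gateway.C0.LevelFacts

open Fermat.Agent.Gateway.GoodRed Fermat.Agent.Gateway Fermat.Agent.S24 Fermat.Agent.S24.Setup

variable (M : ℕ) [NeZero M]

theorem jF_eq_setup_jF :
    GoodRed.jF (AlgebraicClosure ℚ) M = Fermat.Agent.S24.Setup.jF M := by
  apply Subtype.ext
  show jqModC (AlgebraicClosure ℚ) = jK 1
  rw [jK, qExpand_one_apply, ← GoodRed.coeffEmb_jq]

/-- `[F_M : Qbar(j)] = ψ(M)`. -/
theorem finrank_jF :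
    Module.finrank (AlgebraicClosure ℚ)⟮GoodRed.jF (AlgebraicClosure ℚ) M⟯
      (FBar (AlgebraicClosure ℚ) M) = dedekindPsi M := by
  rw [jF_eq_setup_jF]
  exact Descent.Cusp.finrank_FF M

end Fermat.Agent.Gateway.C0.LevelFacts
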