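import Fermat.Agent.Gateway.C0.Count
import Fermat.Agent.Gateway.C0.DivSide
import Fermat.Agent.Gateway.GoodRed.PlacesIntegral
import Fermat.Agent.Lib.RiemannRoch.FunctionFieldRR

/-!
# GATEWAY C0, layer 3: the abstract form of (C0)

`F / K` a function field over an algebraically closed field of characteristic `0`, `x : F`
transcendental; `R : RedSetup A O k κ` a residue setup (`O` a valuation subring of `F` over the
valuation subring `A` of `K`, same value group, residue field `κ` a function field over the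
algebraically closed field `k`, `κ / k(x̄)` finite separable, `x̄ = res x`).  Assume

* `hint1`, `hint2`: integrality over `K[x]` (resp. `K[1/x]`) of elements of `O` is preserved by
  reduction;
* `hdeg`: `[κ : k(x̄)] ≤ [F : K(x)]`;
* `hgenus`: `genusFF K F ≤ genusFF k κ` (the genus does not drop);
* `hcart`: `V ∩ O` is finitely generated over `A` for every finite dimensional `V ⊆ F`.

Then (`exists_const_mul_pow_of_res_eq_one`) a function `z ∈ O` with `res z = 1` whose divisor is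
divisible by `m` (`m` invertible in `A`) is a constant times an `m`-th power.

The two charts are `x ≠ ∞` and `x ≠ 0`: `C₀ = (x)_0`, `C∞ = (x)_∞`, and
`L(a C₀ + b C∞) = {f | x^a f integral over K[x], x^{-b} f integral over K[1/x]}` on both sides.
-/

set_option autoImplicit false
set_option linter.unusedSectionVars false
set_option linter.style.haveILetI false

noncomputable section

namespace Fermat.Agent.Gateway.C0

open AlgebraicCurve WithZero Module IntermediateField

section generic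

variable {K F : Type*} [Field K] [Field F] [Algebra K F]

theorem adjoin_simple_inv_eq (x : F) : K⟮x⁻¹⟯ = K⟮x⟯ := by
  apply le_antisymm
  · rw [adjoin_simple_le_iff]
    exact inv_mem (mem_adjoin_simple_self K x)
  · rw [adjoin_simple_le_iff]
    have := inv_mem (mem_adjoin_simple_self K x⁻¹)
    rwa [inv_inv] at this

namespace TwoCharts

variable (T : TwoCharts K F)

theorem LM_zero_eq (a b : ℕ) : T.LM 0 a b = T.LN a b := by
  rw [LM, LN, zero_add]

theorem LN_inf {a b a' b' : ℕ} {x : F} (hx : x ∈ T.LN a b) (hx' : x ∈ T.LN a' b') :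
    x ∈ T.LN (min a a') (min b b') := by
  rw [← LM_zero_eq] at hx hx' ⊢
  exact T.LM_inf 0 hx hx'

theorem LN_radical {m : ℕ} (hm : 0 < m) (a b : ℕ) (x : F)
    (hx : x ^ m ∈ T.LN (m * a) (m * b)) : x ∈ T.LN a b := by
  rw [LN, mem_riemannRochSpace_iff] at hx ⊢
  intro v
  by_cases hx0 : x = 0
  · left; exact hx0
  right
  have h := (hx v).resolve_left (pow_ne_zero _ hx0)
  rw [← nsmul_dv, ← zpow_natCast, v.ord_zpow] at h
  simp only [Finsupp.smul_apply, nsmul_eq_mul] at h
  have hm' : (0 : ℤ) < m := by exact_mod_cast hm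
  nlinarith

theorem mem_LN_ofDivisor_iff {Dx : Divisor K F} {x : F} (hDx : ∀ v, Dx v = v.ord x) (a b : ℕ)
    (f : F) :
    f ∈ (TwoCharts.ofDivisor Dx).LN a b ↔
      ∀ v : Place K F, f = 0 ∨ ((0 ≤ v.ord x → -((a : ℤ) * v.ord x) ≤ v.ord f) ∧
        (v.ord x ≤ 0 → (b : ℤ) * v.ord x ≤ v.ord f)) := by
  rw [LN, mem_riemannRochSpace_iff]
  refine forall_congr' fun v => or_congr_right ?_
  rw [dv_apply, ofDivisor_Czero_apply, ofDivisor_Cinf_apply, hDx]
  constructor
  · intro h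
    constructor
    · intro h0
      rw [max_eq_left h0, max_eq_right (by linarith)] at h
      linarith
    · intro h0
      rw [max_eq_right h0, max_eq_left (by linarith)] at h
      linarith
  · rintro ⟨h1, h2⟩
    rcases le_total 0 (v.ord x) with h0 | h0
    · rw [max_eq_left h0, max_eq_right (by linarith)]
      linarith [h1 h0]
    · rw [max_eq_right h0, max_eq_left (by linarith)]
      linarith [h2 h0]

end TwoCharts

section integral

open Fermat.Agent.Gateway.GoodRed.PlacesIntegral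

variable {x : F} (hx : Transcendental K x) [FiniteDimensional K⟮x⟯ F]
  [Algebra.IsSeparable K⟮x⟯ F]

include hx in
theorem transcendental_inv' : Transcendental K x⁻¹ :=
  Fermat.Agent.S24.PD.transcendental_inv hx

include hx in
/-- `L(a (x)_0 + b (x)_∞)` in terms of integrality over `K[x]` and `K[1/x]`. -/
theorem mem_LN_iff_isIntegral {Dx : Divisor K F} (hDx : ∀ v, Dx v = v.ord x) (a b : ℕ) (f : F) :
    f ∈ (TwoCharts.ofDivisor Dx).LN a b ↔
      IsIntegral (Algebra.adjoin K {x}) (x ^ a * f) ∧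
        IsIntegral (Algebra.adjoin K {x⁻¹}) (x⁻¹ ^ b * f) := by
  have hx0 : x ≠ 0 := by
    rintro rfl
    exact hx isAlgebraic_zero
  have hxi : Transcendental K x⁻¹ := transcendental_inv' hx
  haveI : FiniteDimensional K⟮x⁻¹⟯ F := by rw [adjoin_simple_inv_eq]; infer_instance
  haveI : Algebra.IsSeparable K⟮x⁻¹⟯ F := by rw [adjoin_simple_inv_eq]; infer_instance
  rw [TwoCharts.mem_LN_ofDivisor_iff hDx, isIntegral_iff_forall_ord_nonneg x hx,
    isIntegral_iff_forall_ord_nonneg x⁻¹ hxi]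
  by_cases hf0 : f = 0
  · subst hf0
    simp
  have e1 : ∀ v : Place K F, v.ord (x ^ a * f) = (a : ℤ) * v.ord x + v.ord f := by
    intro v
    rw [v.ord_mul (pow_ne_zero _ hx0) hf0, ← zpow_natCast, v.ord_zpow]
  have e2 : ∀ v : Place K F, v.ord (x⁻¹ ^ b * f) = -((b : ℤ) * v.ord x) + v.ord f := by
    intro v
    rw [v.ord_mul (pow_ne_zero _ (inv_ne_zero hx0)) hf0, ← zpow_natCast, v.ord_zpow, v.ord_inv]
    ring
  constructor
  · intro h
    refine ⟨fun v hv => ?_, fun v hv => ?_⟩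
    · have := ((h v).resolve_left hf0).1 hv
      rw [e1]; linarith
    · rw [v.ord_inv] at hv
      have := ((h v).resolve_left hf0).2 (by linarith)
      rw [e2]; linarith
  · rintro ⟨h1, h2⟩ v
    right
    refine ⟨fun hv => ?_, fun hv => ?_⟩
    · have := h1 v hv
      rw [e1] at this; linarith
    · have := h2 v (by rw [v.ord_inv]; linarith)
      rw [e2] at this; linarith

end integral

end generic

/-! ### The abstract (C0) -/

section main

open Fermat.Agent.Lib.RiemannRoch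

variable {K : Type*} [Field K] [IsAlgClosed K] [CharZero K] {A : ValuationSubring K}
  {F : Type*} [Field F] [Algebra K F] {O : ValuationSubring F}
  {k κ : Type*} [Field k] [IsAlgClosed k] [Field κ] [Algebra k κ]
  (R : RedSetup A O k κ)
  {x : F} (hx : Transcendental K x) [FiniteDimensional K⟮x⟯ F]
  (hxO : x ∈ O) {xb : κ} (hxb : R.res ⟨x, hxO⟩ = xb) (hxbt : Transcendental k xb)
  [FiniteDimensional k⟮xb⟯ κ] [Algebra.IsSeparable k⟮xb⟯ κ]

include hx hxbt hxb in
/-- The counting data of the two charts `x ≠ ∞`, `x ≠ 0`, with its description. -/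
theorem exists_countData_spec
    (hint1 : ∀ (f : F) (hf : f ∈ O), IsIntegral (Algebra.adjoin K {x}) f →
      IsIntegral (Algebra.adjoin k {xb}) (R.res ⟨f, hf⟩))
    (hint2 : ∀ (f : F) (hf : f ∈ O), IsIntegral (Algebra.adjoin K {x⁻¹}) f →
      IsIntegral (Algebra.adjoin k {xb⁻¹}) (R.res ⟨f, hf⟩))
    (hdeg : finrank k⟮xb⟯ κ ≤ finrank K⟮x⟯ F)
    (hgenus : genusFF K F ≤ genusFF k κ)
    (hcart : ∀ V : Submodule K F, FiniteDimensional K V → (R.lat V).FG)
    {m : ℕ} (hm : 0 < m) {z : F} (hz : z ≠ 0) {D₀ : Divisor K F}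
    (hD₀ : ∀ v : Place K F, (m : ℤ) * D₀ v = v.ord z) (hdeg0 : Divisor.degree D₀ = 0) :
    ∃ D : CountData R m z, D.LM 0 0 = riemannRochSpace D₀ ∧
      (∀ (a b : ℕ) (f : F), f ∈ D.LN a b ↔ IsIntegral (Algebra.adjoin K {x}) (x ^ a * f) ∧
        IsIntegral (Algebra.adjoin K {x⁻¹}) (x⁻¹ ^ b * f)) ∧
      (∀ (a b : ℕ) (y : κ), y ∈ D.Lbar a b ↔ IsIntegral (Algebra.adjoin k {xb}) (xb ^ a * y) ∧
        IsIntegral (Algebra.adjoin k {xb⁻¹}) (xb⁻¹ ^ b * y)) ∧
      (D₀ = 0 → ∀ a b : ℕ, D.LM a b = D.LN a b) ∧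
      D.m₀ = 2 * genusFF k κ ∧ D.g = genusFF K F ∧ D.dzero = finrank K⟮x⟯ F ∧
      D.dinf = finrank K⟮x⟯ F ∧
      (∀ a b : ℕ, 2 * genusFF k κ ≤ a + b → (finrank k (D.Lbar a b) : ℤ) =
        ((a : ℤ) + b) * finrank k⟮xb⟯ κ + 1 - genusFF k κ) := by
  classical
  have hx0 : x ≠ 0 := by
    rintro rfl
    exact hx isAlgebraic_zero
  have hxb0 : xb ≠ 0 := by
    rintro rfl
    exact hxbt isAlgebraic_zero
  -- the function field packages
  haveI hPK := hasPrincipalDivisors_cz hx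
  haveI hFK : ∀ v : Place K F, v.FiniteResidue := finiteResidue_cz hx
  haveI hNK := nonempty_place_cz hx
  haveI hPk := FunctionFieldRR.hasPrincipalDivisors hxbt
  haveI hFk : ∀ v : Place k κ, v.FiniteResidue := FunctionFieldRR.finiteResidue (K := k) xb
  haveI hNk := FunctionFieldRR.nonempty_place hxbt
  haveI : Algebra.IsSeparable K⟮x⟯ F := inferInstance
  -- the two charts on both sides
  set T : TwoCharts K F := TwoCharts.ofDivisor (divOf (K := K) x) with hT
  set Tk : TwoCharts k κ := TwoCharts.ofDivisor (divOf (K := k) xb) with hTk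
  have hDx : ∀ v : Place K F, divOf (K := K) x v = v.ord x := divOf_apply hx0
  have hDxb : ∀ v : Place k κ, divOf (K := k) xb v = v.ord xb := divOf_apply hxb0
  -- degrees on the `K`-side
  obtain ⟨B, hB, hBdeg⟩ := exists_poleDivisor_cz hx
  have hCinf : T.Cinf = B := by
    ext v
    rw [hT, TwoCharts.ofDivisor_Cinf_apply, hB v, hDx v, max_comm]
  have hdinf : Divisor.degree T.Cinf = finrank K⟮x⟯ F := by rw [hCinf, hBdeg]
  have hdzero : Divisor.degree T.Czero = finrank K⟮x⟯ F := by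
    have h1 := congrArg Divisor.degree (TwoCharts.ofDivisor_sub (divOf (K := K) x))
    rw [map_sub, degree_divOf] at h1
    rw [← hdinf]
    linarith
  -- degrees on the `k`-side
  have h0k : Module.Finite k (riemannRochSpace (0 : Divisor k κ)) :=
    ((FunctionFieldRR.riemannRoch_sep_algClosed hxbt).choose_spec.2.2 0).1
  have hdivk : ∀ g : κ, g ≠ 0 → ∃ D : Divisor k κ, ∀ v, D v = v.ord g := fun g hg =>
    ⟨divOf (K := k) g, divOf_apply hg⟩
  have hdinfk : Divisor.degree Tk.Cinf = finrank k⟮xb⟯ κ := by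
    refine FunctionFieldDeg.degree_poles_eq_finrank xb hxbt h0k hdivk (fun v => ?_)
    rw [hTk, TwoCharts.ofDivisor_Cinf_apply, hDxb v, max_comm]
  have hdzerok : Divisor.degree Tk.Czero = finrank k⟮xb⟯ κ := by
    have h1 := congrArg Divisor.degree (TwoCharts.ofDivisor_sub (divOf (K := k) xb))
    rw [map_sub, degree_divOf] at h1
    rw [← hdinfk]
    linarith
  -- `x` is a unit of `O`
  have hxunit : O.valuation x = 1 := by
    have hle : O.valuation x ≤ 1 := (O.valuation_le_one_iff _).mpr hxO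
    refine le_antisymm hle (not_lt.mp fun hlt => ?_)
    have := (R.res_ker ⟨x, hxO⟩).mpr hlt
    rw [hxb] at this
    exact hxb0 this
  have hxiO : x⁻¹ ∈ O := by
    rw [← O.valuation_le_one_iff, map_inv₀, hxunit, inv_one]
  have hxib : R.res ⟨x⁻¹, hxiO⟩ = xb⁻¹ := by
    have h1 : (⟨x⁻¹, hxiO⟩ : O) * ⟨x, hxO⟩ = 1 := Subtype.ext (inv_mul_cancel₀ hx0)
    have h2 := congrArg R.res h1
    rw [map_mul, map_one, hxb] at h2
    exact eq_inv_of_mul_eq_one_left h2
  -- Riemann-Roch on the `k`-side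
  have hnk : 0 < finrank k⟮xb⟯ κ := Module.finrank_pos
  have hdegD : ∀ a b : ℕ,
      Divisor.degree (Tk.dv a b) = ((a : ℤ) + b) * finrank k⟮xb⟯ κ := by
    intro a b
    rw [TwoCharts.dv, map_add, map_nsmul, map_nsmul, nsmul_eq_mul, nsmul_eq_mul, hdzerok,
      hdinfk]
    ring
  have hrr : ∀ a b : ℕ, 2 * genusFF k κ ≤ a + b → (finrank k (Tk.LN a b) : ℤ) =
      ((a : ℤ) + b) * finrank k⟮xb⟯ κ + 1 - genusFF k κ := by
    intro a b hab
    have hbig : 2 * (genusFF k κ : ℤ) - 2 < Divisor.degree (Tk.dv a b) := by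
      rw [hdegD]
      have h1 : (2 * genusFF k κ : ℤ) ≤ (a : ℤ) + b := by exact_mod_cast hab
      have h2 : (1 : ℤ) ≤ finrank k⟮xb⟯ κ := by exact_mod_cast hnk
      have h3 : (0 : ℤ) ≤ (a : ℤ) + b := by positivity
      nlinarith
    have heq := (FunctionFieldRR.riemann_ineq_algClosed hxbt (Tk.dv a b)).2 hbig
    rw [TwoCharts.LN, heq, hdegD]
  refine ⟨{
    LN := T.LN
    LM := T.LM D₀
    Lbar := Tk.LN
    dzero := Divisor.degree T.Czero
    dinf := Divisor.degree T.Cinf
    g := genusFF K F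
    m₀ := 2 * genusFF k κ
    LN_mono := fun ha hb => T.LN_mono ha hb
    LM_mono := fun ha hb => T.LM_mono D₀ ha hb
    Lbar_mono := fun ha hb => Tk.LN_mono ha hb
    one_mem := T.one_mem_LN
    LN_mul := fun hx hy => T.LN_mul hx hy
    LN_mul_LM := fun hx hy => T.LN_mul_LM D₀ hx hy
    prod_LM := fun i j hij hx hy => T.prod_LM hz hD₀ i j hij hx hy
    LM_inf := fun hx hx' => T.LM_inf D₀ hx hx'
    Lbar_inf := fun hx hx' => Tk.LN_inf hx hx'
    Lbar_one := Tk.one_mem_LN
    Lbar_radical := fun a b y hy => Tk.LN_radical hm a b y hy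
    LM_finite := fun a b => T.LM_finite hx D₀ a b
    Lbar_finite := fun a b =>
      ((FunctionFieldRR.riemannRoch_sep_algClosed hxbt).choose_spec.2.2 (Tk.dv a b)).1
    cartesian := fun a b => hcart _ (T.LM_finite hx D₀ a b)
    SC := ?_
    UB := ?_
    LB := fun a b => T.LM_lb hx hdeg0 a b }, ?_⟩
  · -- SC
    intro a b f hf hfL
    rw [hT, mem_LN_iff_isIntegral hx hDx] at hfL
    rw [hTk, mem_LN_iff_isIntegral hxbt hDxb]
    obtain ⟨h1, h2⟩ := hfL
    constructor
    · have hO1 : x ^ a * f ∈ O := mul_mem (pow_mem hxO a) hf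
      have := hint1 _ hO1 h1
      have e : (⟨x ^ a * f, hO1⟩ : O) = ⟨x, hxO⟩ ^ a * ⟨f, hf⟩ := rfl
      rwa [e, map_mul, map_pow, hxb] at this
    · have hO2 : x⁻¹ ^ b * f ∈ O := mul_mem (pow_mem hxiO b) hf
      have := hint2 _ hO2 h2
      have e : (⟨x⁻¹ ^ b * f, hO2⟩ : O) = ⟨x⁻¹, hxiO⟩ ^ b * ⟨f, hf⟩ := rfl
      rwa [e, map_mul, map_pow, hxib] at this
  · -- UB
    intro a b hab
    have hab' : 2 * genusFF k κ ≤ a + b := by
      rcases hab with h | h
      · exact h.trans (Nat.le_add_right a b)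
      · exact h.trans (Nat.le_add_left b a)
    show (finrank k (Tk.LN a b) : ℤ) ≤ _
    rw [hrr a b hab', hdzero, hdinf]
    have h4 : (finrank k⟮xb⟯ κ : ℤ) ≤ finrank K⟮x⟯ F := by exact_mod_cast hdeg
    have h5 : (genusFF K F : ℤ) ≤ genusFF k κ := by exact_mod_cast hgenus
    have h3 : (0 : ℤ) ≤ (a : ℤ) + b := by positivity
    nlinarith
  · refine ⟨?_, ?_, ?_, ?_, rfl, rfl, hdzero, hdinf, hrr⟩
    · show T.LM D₀ 0 0 = riemannRochSpace D₀
      rw [TwoCharts.LM, TwoCharts.dv_zero, add_zero]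
    · intro a b f
      show f ∈ T.LN a b ↔ _
      rw [hT, mem_LN_iff_isIntegral hx hDx]
    · intro a b y
      show y ∈ Tk.LN a b ↔ _
      rw [hTk, mem_LN_iff_isIntegral hxbt hDxb]
    · rintro rfl a b
      exact T.LM_zero_eq a b

include hx hxbt hxb in
/-- The counting data of the two charts `x ≠ ∞`, `x ≠ 0`. -/
theorem exists_countData
    (hint1 : ∀ (f : F) (hf : f ∈ O), IsIntegral (Algebra.adjoin K {x}) f →
      IsIntegral (Algebra.adjoin k {xb}) (R.res ⟨f, hf⟩))
    (hint2 : ∀ (f : F) (hf : f ∈ O), IsIntegral (Algebra.adjoin K {x⁻¹}) f →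
      IsIntegral (Algebra.adjoin k {xb⁻¹}) (R.res ⟨f, hf⟩))
    (hdeg : finrank k⟮xb⟯ κ ≤ finrank K⟮x⟯ F)
    (hgenus : genusFF K F ≤ genusFF k κ)
    (hcart : ∀ V : Submodule K F, FiniteDimensional K V → (R.lat V).FG)
    {m : ℕ} (hm : 0 < m) {z : F} (hz : z ≠ 0) {D₀ : Divisor K F}
    (hD₀ : ∀ v : Place K F, (m : ℤ) * D₀ v = v.ord z) (hdeg0 : Divisor.degree D₀ = 0) :
    ∃ D : CountData R m z, D.LM 0 0 = riemannRochSpace D₀ := by
  obtain ⟨D, hD, -⟩ := exists_countData_spec R hx hxO hxb hxbt hint1 hint2 hdeg hgenus hcart hm hz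
    hD₀ hdeg0
  exact ⟨D, hD⟩

include hx hxbt hxb in
/-- **(C0), abstract form.** -/
theorem exists_const_mul_pow_of_res_eq_one
    (hint1 : ∀ (f : F) (hf : f ∈ O), IsIntegral (Algebra.adjoin K {x}) f →
      IsIntegral (Algebra.adjoin k {xb}) (R.res ⟨f, hf⟩))
    (hint2 : ∀ (f : F) (hf : f ∈ O), IsIntegral (Algebra.adjoin K {x⁻¹}) f →
      IsIntegral (Algebra.adjoin k {xb⁻¹}) (R.res ⟨f, hf⟩))
    (hdeg : finrank k⟮xb⟯ κ ≤ finrank K⟮x⟯ F)
    (hgenus : genusFF K F ≤ genusFF k κ)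
    (hcart : ∀ V : Submodule K F, FiniteDimensional K V → (R.lat V).FG)
    {m : ℕ} (hm : IsUnit ((m : ℕ) : A)) {z : F} (hz : z ≠ 0)
    (hdiv : ∀ v : Place K F, (m : ℤ) ∣ v.ord z) (hzO : z ∈ O) (hz1 : R.res ⟨z, hzO⟩ = 1) :
    ∃ (c : K) (w : F), z = algebraMap K F c * w ^ m := by
  have hm0 : 0 < m := by
    rcases Nat.eq_zero_or_pos m with h | h
    · exfalso
      subst h
      rw [Nat.cast_zero] at hm
      exact not_isUnit_zero hm
    · exact h
  obtain ⟨D₀, hD₀, hdeg0⟩ := exists_root_divisor hx hm0 hz hdiv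
  obtain ⟨D, hD⟩ := exists_countData R hx hxO hxb hxbt hint1 hint2 hdeg hgenus hcart hm0 hz
    hD₀ hdeg0
  obtain ⟨h, hO, hh, -, hh0⟩ := D.exists_global hm hzO hz1
  rw [hD] at hh
  obtain ⟨c, hc⟩ := exists_const_mul_pow hx hz hD₀ hdeg0 hh hh0
  exact ⟨c, h⁻¹, hc⟩

end main

end Fermat.Agent.Gateway.C0
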