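import Fermat.Agent.Gateway.C0.Filt

/-!
# GATEWAY C0, abstract layer 1b: Hensel existence and uniqueness on one chart
-/

set_option autoImplicit false
set_option linter.unusedSectionVars false

namespace Fermat.Agent.Gateway.C0

open IsLocalRing Polynomial

variable {A : Type*} [CommRing A] [IsDomain A] [ValuationRing A]
variable {F : Type*} [Field F] [Algebra A F]

/-- `(1 + y) ^ m = 1 + m y + y² s`. -/
theorem exists_one_add_pow {S : Type*} [CommRing S] (y : S) (m : ℕ) :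
    ∃ s : S, (1 + y) ^ m = 1 + m * y + y ^ 2 * s := by
  induction m with
  | zero => exact ⟨0, by simp⟩
  | succ m ih =>
    obtain ⟨s, hs⟩ := ih
    exact ⟨m + s + s * y, by rw [pow_succ, hs]; push_cast; ring⟩

/-- The Newton polynomial identity: `(1 + X) (1 - μ X) ^ m - 1 = X² t` when `m μ = 1`. -/
theorem newton_poly (μ : A) (m : ℕ) (h : (m : A) * μ = 1) :
    ∃ t : A[X], (1 + X) * (1 - C μ * X) ^ m - 1 = X ^ 2 * t := by
  obtain ⟨s, hs⟩ := exists_one_add_pow (-(C μ * X) : A[X]) m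
  refine ⟨-1 + C μ ^ 2 * s + C μ ^ 2 * X * s, ?_⟩
  have hm : (m : A[X]) * C μ = 1 := by
    rw [← C_eq_natCast, ← C_mul, h, C_1]
  rw [sub_eq_add_neg (1 : A[X]), hs]
  linear_combination (-(X : A[X]) - X ^ 2) * hm

theorem newton_eval {S : Type*} [CommRing S] [Algebra A S] (μ : A) (m : ℕ)
    (h : (m : A) * μ = 1) (δ : S) :
    ∃ t ∈ Algebra.adjoin A {δ}, (1 + δ) * (1 - μ • δ) ^ m - 1 = δ ^ 2 * t := by
  obtain ⟨t, ht⟩ := newton_poly μ m h
  refine ⟨aeval δ t, aeval_mem_adjoin_singleton A δ, ?_⟩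
  have := congrArg (aeval δ) ht
  simpa [Algebra.smul_def] using this


namespace Chart

variable {O : ValuationSubring F} {m : ℕ} {u : F} (C : Chart A O m u) (hB : Base A O)
variable [Module.IsTorsionFree A F]
include hB

/-- One Newton step for `u * a ^ m = 1`. -/
theorem newton_step {μ : A} (hμ : (m : A) * μ = 1) {a : F} (ha : a ∈ C.P) {ϖ : A}
    (hϖ : ϖ ∈ maximalIdeal A) {r : F} (hr : r ∈ C.R) (h : u * a ^ m - 1 = ϖ • r) :
    ∃ a₁ ∈ C.P, Cong O a₁ a ∧ ∃ r₁ ∈ C.R, u * a₁ ^ m - 1 = (ϖ ^ 2) • r₁ := by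
  set δ : F := ϖ • r with hδ
  have hδR : δ ∈ C.R := C.R.smul_mem hr ϖ
  have hδs : Small O δ := hB.small_smul hϖ (C.R_le hr)
  have h1 : (1 - μ • δ) ∈ C.R := C.R.sub_mem C.R.one_mem (C.R.smul_mem hδR μ)
  obtain ⟨t, ht, hid⟩ := newton_eval μ m hμ δ
  have htR : t ∈ C.R := Algebra.adjoin_le (by simpa using hδR) ht
  refine ⟨(1 - μ • δ) * a, C.R_mul_P h1 ha, ?_, r ^ 2 * t,
    C.R.mul_mem (C.R.pow_mem hr 2) htR, ?_⟩
  · have : (1 - μ • δ) * a - a = -((μ • δ) * a) := by ring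
    rw [Cong, this]
    refine Small.neg (Small.mul_right ?_ (C.P_le ha))
    exact hB.small_smul' μ hδs
  · have hu : u * a ^ m = 1 + δ := by rw [← h]; ring
    calc u * ((1 - μ • δ) * a) ^ m - 1
        = (u * a ^ m) * (1 - μ • δ) ^ m - 1 := by rw [mul_pow]; ring
      _ = (1 + δ) * (1 - μ • δ) ^ m - 1 := by rw [hu]
      _ = δ ^ 2 * t := hid
      _ = (ϖ ^ 2) • (r ^ 2 * t) := by
          rw [hδ, Algebra.smul_def, Algebra.smul_def, map_pow]; ring

/-- Iterated Newton steps. -/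
theorem newton_iter {μ : A} (hμ : (m : A) * μ = 1) {a : F} (ha : a ∈ C.P) {ϖ : A}
    (hϖ : ϖ ∈ maximalIdeal A) {r : F} (hr : r ∈ C.R) (h : u * a ^ m - 1 = ϖ • r) (j : ℕ) :
    ∃ a₁ ∈ C.P, Cong O a₁ a ∧ ∃ r₁ ∈ C.R, u * a₁ ^ m - 1 = (ϖ ^ (2 ^ j)) • r₁ := by
  induction j with
  | zero => exact ⟨a, ha, Cong.refl a, r, hr, by simpa using h⟩
  | succ j ih =>
    obtain ⟨a₁, ha₁, hc₁, r₁, hr₁, h₁⟩ := ih
    obtain ⟨a₂, ha₂, hc₂, r₂, hr₂, h₂⟩ :=
      C.newton_step hB hμ ha₁ (Ideal.pow_mem_of_mem _ hϖ _ (Nat.two_pow_pos j)) hr₁ h₁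
    refine ⟨a₂, ha₂, hc₂.trans hc₁, r₂, hr₂, ?_⟩
    rw [h₂, ← pow_mul, pow_succ]

/-- **Hensel existence** on a chart: starting from `g ∈ P` with `g ≡ 1`, solve
`u a ^ m ≡ 1` modulo any `c' ≠ 0`. -/
theorem exists_root {μ : A} (hμ : (m : A) * μ = 1) (hu : Cong O u 1) {g : F} (hg : g ∈ C.P)
    (hg1 : Cong O g 1) {c' : A} (hc' : c' ≠ 0) :
    ∃ a ∈ C.P, Cong O a 1 ∧ ∃ r ∈ C.R, u * a ^ m - 1 = c' • r := by
  have hgO : g ∈ O := C.P_le hg
  have huO : u ∈ O := cong_one_mem hu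
  have hδ0 : u * g ^ m - 1 ∈ C.R := C.R.sub_mem (C.pow_P hg) C.R.one_mem
  have hδ0s : Small O (u * g ^ m - 1) := by
    have hp : Cong O (g ^ m) 1 := by simpa using Cong.pow hgO hg1 m
    have := Cong.mul huO O.one_mem hu hp
    rw [one_mul] at this
    exact this
  obtain ⟨ϖ, hϖ, r, hr, hδ⟩ := C.exists_smul_of_small_R hB hδ0 hδ0s
  obtain ⟨J, e, he⟩ := hB.rank_one ϖ hϖ c' hc'
  obtain ⟨a, ha, hca, r₁, hr₁, h₁⟩ := C.newton_iter hB hμ hg hϖ hr hδ J
  refine ⟨a, ha, hca.trans hg1, (e * ϖ ^ (2 ^ J - J)) • r₁, C.R.smul_mem hr₁ _, ?_⟩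
  rw [h₁, smul_smul, ← mul_assoc, ← he, ← pow_add,
    Nat.add_sub_cancel' (Nat.lt_two_pow_self).le]

/-- **Hensel uniqueness** on a chart: two approximate roots congruent to `1` agree modulo `c'`. -/
theorem root_unique {μ : A} (hμ : (m : A) * μ = 1) (hu : Cong O u 1) {a a' : F} (ha : a ∈ C.P)
    (ha' : a' ∈ C.P) (h1 : Cong O a 1) (h1' : Cong O a' 1) {c' : A} (hc' : c' ≠ 0) {r r' : F}
    (hr : r ∈ C.R) (hr' : r' ∈ C.R) (h : u * a ^ m - 1 = c' • r) (h' : u * a' ^ m - 1 = c' • r') :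
    ∃ γ ∈ C.P, a - a' = c' • γ := by
  classical
  have haO : a ∈ O := C.P_le ha
  have ha'O : a' ∈ O := C.P_le ha'
  have huO : u ∈ O := cong_one_mem hu
  have hμF : (m : F) * algebraMap A F μ = 1 := by
    have := congrArg (algebraMap A F) hμ
    simpa using this
  -- the "derivative"
  set G : F := ∑ i ∈ Finset.range m, a ^ i * a' ^ (m - 1 - i) with hG
  set ξ : F := ∑ i ∈ Finset.range m, u * (a ^ (i + 1) * a' ^ (m - 1 - i)) with hξ
  have hξG : ξ = a * (u * G) := by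
    rw [hξ, hG, Finset.mul_sum, Finset.mul_sum]
    refine Finset.sum_congr rfl fun i _ => ?_
    rw [pow_succ]; ring
  have hξR : ξ ∈ C.R := by
    refine C.R.sum_mem fun i hi => ?_
    have him : i < m := Finset.mem_range.mp hi
    exact C.prod_P (i + 1) (m - 1 - i) (by omega) ha ha'
  have hξm : Cong O ξ (m : F) := by
    have : Cong O ξ (∑ _i ∈ Finset.range m, (1 : F)) := by
      refine Cong.sum _ _ _ fun i _ => ?_
      have hp : Cong O (a ^ (i + 1)) 1 := by simpa using Cong.pow haO h1 (i + 1)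
      have hp' : Cong O (a' ^ (m - 1 - i)) 1 := by simpa using Cong.pow ha'O h1' (m - 1 - i)
      have h2 : Cong O (a ^ (i + 1) * a' ^ (m - 1 - i)) (1 * 1) :=
        Cong.mul (pow_mem haO _) O.one_mem hp hp'
      have h3 := Cong.mul huO (by simpa using O.one_mem) hu h2
      simpa using h3
    simpa using this
  -- ν = ξ - m is small and lies in R
  have hνR : ξ - (m : F) ∈ C.R := C.R.sub_mem hξR (natCast_mem _ m)
  obtain ⟨ϖ, hϖ, r₂, hr₂, hν⟩ := C.exists_smul_of_small_R hB hνR hξm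
  obtain ⟨J, e, he⟩ := hB.rank_one ϖ hϖ c' hc'
  set z : F := -(μ • (ξ - (m : F))) with hz
  have hzR : z ∈ C.R := C.R.neg_mem (C.R.smul_mem hνR μ)
  have hξz : ξ = (m : F) * (1 - z) := by
    rw [hz, Algebra.smul_def]
    linear_combination (-(ξ - (m : F))) * hμF
  set ξ' : F := μ • ∑ j ∈ Finset.range J, z ^ j with hξ'
  have hξ'R : ξ' ∈ C.R := C.R.smul_mem (C.R.sum_mem fun j _ => C.R.pow_mem hzR j) μ
  have hξξ' : ξ * ξ' = 1 - z ^ J := by
    rw [hξz, hξ', Algebra.smul_def, ← mul_neg_geom_sum z J]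
    linear_combination ((1 - z) * ∑ j ∈ Finset.range J, z ^ j) * hμF
  -- z ^ J is divisible by c'
  set w : F := ((-μ) ^ J * e) • r₂ ^ J with hw
  have hwR : w ∈ C.R := C.R.smul_mem (C.R.pow_mem hr₂ J) _
  have hzJ : z ^ J = c' • w := by
    rw [hz, hν, hw, smul_smul, ← neg_smul, _root_.smul_pow, smul_smul]
    congr 1
    rw [← neg_mul, mul_pow, he]; ring
  -- the main identity
  have hmain : (a - a') * ξ = c' • (a * (r - r')) := by
    have hG' : G * (a - a') = a ^ m - a' ^ m := geom_sum₂_mul a a' m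
    have : u * (a ^ m - a' ^ m) = c' • (r - r') := by
      rw [smul_sub, ← h, ← h']; ring
    rw [hξG, Algebra.smul_def]
    rw [Algebra.smul_def] at this
    linear_combination (a * u) * hG' + a * this
  refine ⟨(r - r') * ξ' * a + w * (a - a'),
    C.P.add_mem (C.R_mul_P (C.R.mul_mem (C.R.sub_mem hr hr') hξ'R) ha)
      (C.R_mul_P hwR (C.P.sub_mem ha ha')), ?_⟩
  have : a - a' = (a - a') * ξ * ξ' + (a - a') * z ^ J := by
    rw [mul_assoc, hξξ']; ring
  have e1 : (a - a') * ξ * ξ' = c' • ((r - r') * ξ' * a) := by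
    rw [hmain, Algebra.smul_def, Algebra.smul_def]; ring
  have e2 : (a - a') * z ^ J = c' • (w * (a - a')) := by
    rw [hzJ, Algebra.smul_def, Algebra.smul_def]; ring
  rw [smul_add, ← e1, ← e2]
  exact this

end Chart

end Fermat.Agent.Gateway.C0
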