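import Fermat.Agent.S24
import Fermat.Agent.Gateway.C0.LevelFacts

/-!
# GATEWAY C0 / GoodRed backup route: the number of places of `X₀(M)` over `j = ∞` (char 0)

`card_poles_jF M`: the function field `FBar Qbar M` of `X₀(M)` over `Qbar` has exactly
`cuspCount M` places at which `j` has a pole (P-S24: place counting theorem at `∞` + the
combinatorial count of the `T`-orbits on `SL(2,ℤ) ⧸ Γ₀(M)`).
-/

set_option autoImplicit false
set_option linter.unusedSectionVars false
set_option linter.style.haveILetI false

noncomputable section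

namespace Fermat.Agent.Gateway.C0

open AlgebraicCurve IntermediateField ModularCurve CongruenceSubgroup
open scoped MatrixGroups
open Fermat.Agent.S24 Fermat.Agent.S24.Setup Fermat.Agent.Gateway.GoodRed

/-- The zeros of `1 / j` in the function field of `X₀(M)` over `Qbar` are counted by
`cuspCount M`. -/
theorem card_zeros_inv_jF (M : ℕ) [NeZero M] :
    Nat.card (RH.Zeros Kbar (Setup.jF M)⁻¹) = cuspCount M := by
  classical
  have hdeg := EmbedTheta.hdeg_of M
    (fun θ hfix hgr hper a hq => HDeg.exists_poly M θ hfix hgr hper a hq)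
  have halg : ∀ g ∈ genSetF M, IsAlgebraic Kbar⟮Setup.jF M⟯ g := by
    intro g hg
    obtain ⟨p, hp0, -, hpa⟩ := hdeg g (Algebra.subset_adjoin hg)
    exact ⟨p, hp0, hpa⟩
  have hgen := GenRing.exists_div M halg
  obtain ⟨D, hD⟩ := Embed.exists_embData' M
  obtain ⟨hfd, hfr, hnorm⟩ := Conj.finrank_and_norm D hgen hdeg
  haveI := hfd
  have hinf := AssembleInf.pcInput_inf D (fun x g => hD.isCuspMer_smul x g) hnorm
  have hx : Transcendental Kbar (Setup.jF M) := TransJ.transcendental_jF M
  have hj0 : Setup.jF M ≠ 0 := by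
    rintro h
    rw [h] at hx
    exact hx isAlgebraic_zero
  have hxy : Kbar⟮(Setup.jF M)⁻¹⟯ = Kbar⟮Setup.jF M⟯ := by
    apply le_antisymm
    · rw [adjoin_simple_le_iff]
      exact inv_mem (mem_adjoin_simple_self Kbar _)
    · rw [adjoin_simple_le_iff]
      have := inv_mem (mem_adjoin_simple_self Kbar (Setup.jF M)⁻¹)
      rwa [inv_inv] at this
  have hxi : Transcendental Kbar (Setup.jF M)⁻¹ := Fermat.Agent.S24.PD.transcendental_inv hx
  rw [Final.card_zeros_eq_orbCount (K := Kbar) (Setup.jF M) (Setup.jF M)⁻¹ (inv_ne_zero hj0)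
    hxy (fun {_} => ZP.zeroPlacesData _ hxi) _ hinf, Final.orbCount_toPerm, PartV.orbCount_T]

/-- **The number of cusps**: the places of `FBar Qbar M` at which `j` has a pole are counted by
`cuspCount M`. -/
theorem card_poles_jF (M : ℕ) [NeZero M] :
    Nat.card {v : Place (AlgebraicClosure ℚ) (FBar (AlgebraicClosure ℚ) M) //
      v.ord (GoodRed.jF (AlgebraicClosure ℚ) M) < 0} = cuspCount M := by
  rw [← card_zeros_inv_jF M, LevelFacts.jF_eq_setup_jF]
  refine Nat.card_congr (Equiv.subtypeEquivRight fun v => ?_)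
  rw [v.ord_inv]
  constructor <;> intro h <;> linarith

end Fermat.Agent.Gateway.C0
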