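import Fermat.Agent.Gateway.C0.Newton

/-!
# GATEWAY C0, abstract layer 1c: gluing the two charts (Zariski connectedness by hand)

`TwistSystem.exists_global`: in a twisted bifiltered lattice system the constant section `1` of the
special fibre of the `m`-torsion line bundle lifts to a GLOBAL section `h ∈ M 0 0`, `h ≡ 1`.
-/

set_option autoImplicit false
set_option linter.unusedSectionVars false

namespace Fermat.Agent.Gateway.C0

open IsLocalRing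

variable {A : Type*} [CommRing A] [IsDomain A] [ValuationRing A]
variable {F : Type*} [Field F] [Algebra A F]

/-- Twisted bifiltered lattice system: `N a b = L(a C₀ + b C∞) ∩ O`,
`M a b = L(D₀ + a C₀ + b C∞) ∩ O`, `div u = m D₀`. -/
structure TwistSystem (A : Type*) [CommRing A] [IsDomain A] [ValuationRing A]
    {F : Type*} [Field F] [Algebra A F] (O : ValuationSubring F) (m : ℕ) (u : F) where
  N : ℕ → ℕ → Submodule A F
  M : ℕ → ℕ → Submodule A F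
  n₁ : ℕ
  N_le : ∀ a b x, x ∈ N a b → x ∈ O
  M_le : ∀ a b x, x ∈ M a b → x ∈ O
  N_mono : ∀ {a b a' b' : ℕ}, a ≤ a' → b ≤ b' → N a b ≤ N a' b'
  M_mono : ∀ {a b a' b' : ℕ}, a ≤ a' → b ≤ b' → M a b ≤ M a' b'
  one_mem : (1 : F) ∈ N 0 0
  N_mul : ∀ {a b a' b' : ℕ} {x y : F}, x ∈ N a b → y ∈ N a' b' → x * y ∈ N (a + a') (b + b')
  N_mul_M : ∀ {a b a' b' : ℕ} {x y : F}, x ∈ N a b → y ∈ M a' b' → x * y ∈ M (a + a') (b + b')
  prod_M : ∀ {a b : ℕ} {x y : F} (i j : ℕ), i + j = m → x ∈ M a b → y ∈ M a b →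
    u * (x ^ i * y ^ j) ∈ N (m * a) (m * b)
  M_inf : ∀ {a b a' b' : ℕ} {x : F}, x ∈ M a b → x ∈ M a' b' → x ∈ M (min a a') (min b b')
  N_sat : ∀ {a b : ℕ} {c : A} {x : F}, c ≠ 0 → x ∈ O → c • x ∈ N a b → x ∈ N a b
  M_sat : ∀ {a b : ℕ} {c : A} {x : F}, c ≠ 0 → x ∈ O → c • x ∈ M a b → x ∈ M a b
  M_fg : ∀ a b, (M a b).FG
  exists_one : ∃ g ∈ M 0 n₁, Cong O g 1
  exists_one' : ∃ g ∈ M n₁ 0, Cong O g 1
  jump_right : ∀ a b, n₁ ≤ b → ∀ x ∈ M a (b + 1), ∃ y ∈ M a b, ∃ z ∈ M 0 (b + 1),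
    Small O (x - y - z)
  jump_left : ∀ a b, n₁ ≤ a → ∀ x ∈ M (a + 1) b, ∃ y ∈ M a b, ∃ z ∈ M (a + 1) 0,
    Small O (x - y - z)

namespace TwistSystem

variable {O : ValuationSubring F} {m : ℕ} {u : F} (T : TwistSystem A O m u)

/-- the chart `t ≠ ∞` -/
def chartU : Chart A O m u where
  N n := T.N 0 n
  M n := T.M 0 n
  N_le n := T.N_le 0 n
  M_le n := T.M_le 0 n
  N_mono _ _ h := T.N_mono le_rfl h
  M_mono _ _ h := T.M_mono le_rfl h
  one_mem := T.one_mem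
  N_mul hx hy := T.N_mul hx hy
  N_mul_M hx hy := T.N_mul_M hx hy
  prod_M i j hij hx hy := T.prod_M i j hij hx hy
  N_sat := T.N_sat
  M_sat := T.M_sat

/-- the chart `t ≠ 0` -/
def chartU' : Chart A O m u where
  N n := T.N n 0
  M n := T.M n 0
  N_le n := T.N_le n 0
  M_le n := T.M_le n 0
  N_mono _ _ h := T.N_mono h le_rfl
  M_mono _ _ h := T.M_mono h le_rfl
  one_mem := T.one_mem
  N_mul hx hy := T.N_mul hx hy
  N_mul_M hx hy := T.N_mul_M hx hy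
  prod_M i j hij hx hy := T.prod_M i j hij hx hy
  N_sat := T.N_sat
  M_sat := T.M_sat

/-- the overlap -/
def chartX : Chart A O m u where
  N n := T.N n n
  M n := T.M n n
  N_le n := T.N_le n n
  M_le n := T.M_le n n
  N_mono _ _ h := T.N_mono h h
  M_mono _ _ h := T.M_mono h h
  one_mem := T.one_mem
  N_mul hx hy := T.N_mul hx hy
  N_mul_M hx hy := T.N_mul_M hx hy
  prod_M i j hij hx hy := T.prod_M i j hij hx hy
  N_sat := T.N_sat
  M_sat := T.M_sat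

section glue

variable (hB : Base A O) [Module.IsTorsionFree A F]
include hB

/-- Nakayama step: a jump in the `∞`-direction is realised by sections regular at `0`. -/
theorem le_sup_jump_right (a b : ℕ) (hb : T.n₁ ≤ b) :
    T.M a (b + 1) ≤ (T.M a b ⊔ T.M 0 (b + 1)) := by
  refine Submodule.le_of_le_smul_of_le_jacobson_bot (T.M_fg a (b + 1))
    (maximalIdeal_le_jacobson ⊥) fun x hx => ?_
  obtain ⟨y, hy, z, hz, hs⟩ := T.jump_right a b hb x hx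
  have hyX : y ∈ T.M a (b + 1) := T.M_mono le_rfl (Nat.le_succ b) hy
  have hzX : z ∈ T.M a (b + 1) := T.M_mono (Nat.zero_le a) le_rfl hz
  have hwX : x - y - z ∈ T.M a (b + 1) := sub_mem (sub_mem hx hyX) hzX
  obtain ⟨ϖ, hϖ, w, hw, hxw⟩ := hB.unram _ hs
  have hx' : x = (y + z) + (x - y - z) := by ring
  rw [hx']
  refine Submodule.add_mem_sup (Submodule.add_mem_sup hy hz) ?_
  by_cases h0 : ϖ = 0
  · rw [hxw, h0, zero_smul]; exact Submodule.zero_mem _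
  · rw [hxw]
    refine Submodule.smul_mem_smul hϖ (T.M_sat h0 hw ?_)
    rw [← hxw]; exact hwX

theorem le_sup_jump_left (a b : ℕ) (ha : T.n₁ ≤ a) :
    T.M (a + 1) b ≤ (T.M a b ⊔ T.M (a + 1) 0) := by
  refine Submodule.le_of_le_smul_of_le_jacobson_bot (T.M_fg (a + 1) b)
    (maximalIdeal_le_jacobson ⊥) fun x hx => ?_
  obtain ⟨y, hy, z, hz, hs⟩ := T.jump_left a b ha x hx
  have hyX : y ∈ T.M (a + 1) b := T.M_mono (Nat.le_succ a) le_rfl hy
  have hzX : z ∈ T.M (a + 1) b := T.M_mono le_rfl (Nat.zero_le b) hz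
  have hwX : x - y - z ∈ T.M (a + 1) b := sub_mem (sub_mem hx hyX) hzX
  obtain ⟨ϖ, hϖ, w, hw, hxw⟩ := hB.unram _ hs
  have hx' : x = (y + z) + (x - y - z) := by ring
  rw [hx']
  refine Submodule.add_mem_sup (Submodule.add_mem_sup hy hz) ?_
  by_cases h0 : ϖ = 0
  · rw [hxw, h0, zero_smul]; exact Submodule.zero_mem _
  · rw [hxw]
    refine Submodule.smul_mem_smul hϖ (T.M_sat h0 hw ?_)
    rw [← hxw]; exact hwX

theorem M_le_sup_right (a : ℕ) {b : ℕ} (hb : T.n₁ ≤ b) :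
    T.M a b ≤ T.M a T.n₁ ⊔ T.M 0 b := by
  induction b, hb using Nat.le_induction with
  | base => exact le_sup_left
  | succ b hb ih =>
    refine (T.le_sup_jump_right hB a b hb).trans (sup_le (ih.trans (sup_le le_sup_left ?_))
      le_sup_right)
    exact le_sup_of_le_right (T.M_mono le_rfl (Nat.le_succ b))

theorem M_le_sup_left (b : ℕ) {a : ℕ} (ha : T.n₁ ≤ a) :
    T.M a b ≤ T.M T.n₁ b ⊔ T.M a 0 := by
  induction a, ha using Nat.le_induction with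
  | base => exact le_sup_left
  | succ a ha ih =>
    refine (T.le_sup_jump_left hB a b ha).trans (sup_le (ih.trans (sup_le le_sup_left ?_))
      le_sup_right)
    exact le_sup_of_le_right (T.M_mono (Nat.le_succ a) le_rfl)

/-- The truncated Čech `H¹` stabilises: everything is generated by `M n₁ n₁` modulo the two
charts. -/
theorem le_sup_three {a b : ℕ} (ha : T.n₁ ≤ a) (hb : T.n₁ ≤ b) :
    T.M a b ≤ T.M T.n₁ T.n₁ ⊔ T.M 0 b ⊔ T.M a 0 := by
  refine (T.M_le_sup_right hB a hb).trans (sup_le ?_ ?_)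
  · refine (T.M_le_sup_left hB T.n₁ ha).trans (sup_le ?_ ?_)
    · exact le_sup_of_le_left le_sup_left
    · exact le_sup_right
  · exact le_sup_of_le_left le_sup_right

end glue

/-- **Abstract C0.** The constant `1` on the special fibre lifts to a global section of the twisted
lattice `M 0 0`. -/
theorem exists_global (hB : Base A O) [Module.IsTorsionFree A F] (hm : IsUnit (m : A))
    (hu : Cong O u 1) : ∃ h ∈ T.M 0 0, Cong O h 1 := by
  obtain ⟨μ, hμ⟩ := hm.exists_right_inv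
  obtain ⟨g, hg, hg1⟩ := T.exists_one
  obtain ⟨g', hg', hg1'⟩ := T.exists_one'
  -- bounded torsion of the truncated H¹
  obtain ⟨c, hc0, hc⟩ := exists_ne_zero_smul_mem_of_saturation
    (S := T.M 0 T.n₁ ⊔ T.M T.n₁ 0) (T := T.M T.n₁ T.n₁) (T.M_fg _ _)
  obtain ⟨ϖ, hϖ, hϖ0⟩ := hB.exists_ne_zero
  have hc' : c * ϖ ≠ 0 := mul_ne_zero hc0 hϖ0
  -- approximate roots on the two charts
  obtain ⟨a, ha, ha1, r, hr, har⟩ :=
    T.chartU.exists_root hB hμ hu (g := g) ⟨T.n₁, hg⟩ hg1 hc'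
  obtain ⟨a', ha', ha1', r', hr', har'⟩ :=
    T.chartU'.exists_root hB hμ hu (g := g') ⟨T.n₁, hg'⟩ hg1' hc'
  -- uniqueness on the overlap
  have haX : a ∈ T.chartX.P := by
    obtain ⟨n, hn⟩ := ha; exact ⟨n, T.M_mono (Nat.zero_le n) le_rfl hn⟩
  have ha'X : a' ∈ T.chartX.P := by
    obtain ⟨n, hn⟩ := ha'; exact ⟨n, T.M_mono le_rfl (Nat.zero_le n) hn⟩
  have hrX : r ∈ T.chartX.R := by
    obtain ⟨n, hn⟩ := hr; exact ⟨n, T.N_mono (Nat.zero_le n) le_rfl hn⟩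
  have hr'X : r' ∈ T.chartX.R := by
    obtain ⟨n, hn⟩ := hr'; exact ⟨n, T.N_mono le_rfl (Nat.zero_le n) hn⟩
  obtain ⟨γ, hγ, hγeq⟩ := T.chartX.root_unique hB hμ hu haX ha'X ha1 ha1' hc' hrX hr'X har har'
  -- a common index
  obtain ⟨na, hna⟩ := ha
  obtain ⟨na', hna'⟩ := ha'
  obtain ⟨nγ, hnγ⟩ := hγ
  obtain ⟨n₂, h₂a, h₂a', h₂γ, h₂1⟩ : ∃ n₂, na ≤ n₂ ∧ na' ≤ n₂ ∧ nγ ≤ n₂ ∧ T.n₁ ≤ n₂ :=
    ⟨max (max na na') (max nγ T.n₁), by omega, by omega, by omega, by omega⟩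
  have haM : a ∈ T.M 0 n₂ := T.M_mono le_rfl h₂a hna
  have ha'M : a' ∈ T.M n₂ 0 := T.M_mono h₂a' le_rfl hna'
  have hγM : γ ∈ T.M n₂ n₂ := T.M_mono h₂γ h₂γ hnγ
  -- decompose γ
  obtain ⟨γy, hγy, z, hz, hsum⟩ := Submodule.mem_sup.mp (T.le_sup_three hB h₂1 h₂1 hγM)
  obtain ⟨γ₁, hγ₁, y, hy, hsum'⟩ := Submodule.mem_sup.mp hγy
  have hγdec : γ = γ₁ + y + z := by rw [hsum', hsum]
  -- c' • γ₁ lies in the sum of the two charts at level n₁
  have hy'1 : a - (c * ϖ) • y ∈ T.M 0 n₂ := sub_mem haM (Submodule.smul_mem _ _ hy)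
  have hz'1 : a' + (c * ϖ) • z ∈ T.M n₂ 0 := add_mem ha'M (Submodule.smul_mem _ _ hz)
  have hrel : (c * ϖ) • γ₁ = (a - (c * ϖ) • y) - (a' + (c * ϖ) • z) := by
    have : (c * ϖ) • γ = (c * ϖ) • γ₁ + (c * ϖ) • y + (c * ϖ) • z := by
      rw [hγdec, smul_add, smul_add]
    rw [← hγeq] at this
    rw [eq_sub_iff_add_eq, eq_sub_iff_add_eq]
    rw [sub_eq_iff_eq_add] at this
    rw [this]; ring
  have hy'2 : a - (c * ϖ) • y ∈ T.M n₂ T.n₁ := by
    have : a - (c * ϖ) • y = (c * ϖ) • γ₁ + (a' + (c * ϖ) • z) := by rw [hrel]; ring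
    rw [this]
    exact add_mem (Submodule.smul_mem _ _ (T.M_mono h₂1 le_rfl hγ₁))
      (T.M_mono le_rfl (Nat.zero_le _) hz'1)
  have hy'3 : a - (c * ϖ) • y ∈ T.M 0 T.n₁ := by
    have := T.M_inf hy'1 hy'2
    rwa [Nat.zero_min, min_eq_right h₂1] at this
  have hz'2 : a' + (c * ϖ) • z ∈ T.M T.n₁ n₂ := by
    have : a' + (c * ϖ) • z = (a - (c * ϖ) • y) - (c * ϖ) • γ₁ := by rw [hrel]; ring
    rw [this]
    exact sub_mem (T.M_mono (Nat.zero_le _) le_rfl hy'1)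
      (Submodule.smul_mem _ _ (T.M_mono le_rfl h₂1 hγ₁))
  have hz'3 : a' + (c * ϖ) • z ∈ T.M T.n₁ 0 := by
    have := T.M_inf hz'1 hz'2
    rwa [min_eq_right h₂1, Nat.zero_min] at this
  have hS : (c * ϖ) • γ₁ ∈ T.M 0 T.n₁ ⊔ T.M T.n₁ 0 := by
    rw [hrel, sub_eq_add_neg]
    exact Submodule.add_mem_sup hy'3 (neg_mem hz'3)
  obtain ⟨β₁, hβ₁, β₁', hβ₁', hβsum⟩ := Submodule.mem_sup.mp (hc γ₁ hγ₁ ⟨c * ϖ, hc', hS⟩)
  -- the global section
  have hβ : β₁ + c • y ∈ T.M 0 n₂ :=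
    add_mem (T.M_mono le_rfl h₂1 hβ₁) (Submodule.smul_mem _ _ hy)
  have hβ' : β₁' + c • z ∈ T.M n₂ 0 :=
    add_mem (T.M_mono h₂1 le_rfl hβ₁') (Submodule.smul_mem _ _ hz)
  have hcγ : c • γ = (β₁ + c • y) + (β₁' + c • z) := by
    rw [hγdec, smul_add, smul_add, ← hβsum]; ring
  have hglue : a - ϖ • (β₁ + c • y) = a' + ϖ • (β₁' + c • z) := by
    have : a - a' = ϖ • (c • γ) := by rw [hγeq, mul_comm, mul_smul]
    rw [hcγ, smul_add] at this
    rw [sub_eq_iff_eq_add] at this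
    rw [this]; ring
  refine ⟨a - ϖ • (β₁ + c • y), ?_, ?_⟩
  · have e1 : a - ϖ • (β₁ + c • y) ∈ T.M 0 n₂ := sub_mem haM (Submodule.smul_mem _ _ hβ)
    have e3 : a - ϖ • (β₁ + c • y) ∈ T.M n₂ 0 := by
      rw [hglue]; exact add_mem ha'M (Submodule.smul_mem _ _ hβ')
    have := T.M_inf e1 e3
    rwa [Nat.zero_min, Nat.min_zero] at this
  · have : a - ϖ • (β₁ + c • y) - 1 = (a - 1) - ϖ • (β₁ + c • y) := by ring
    rw [Cong, this]
    exact Small.sub ha1 (hB.small_smul hϖ (T.M_le _ _ _ hβ))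

end TwistSystem

end Fermat.Agent.Gateway.C0
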