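import Mathlib

/-!
# Modules over valuation rings: bounded torsion of finitely presented cokernels

`exists_ne_zero_smul_mem_of_saturation`: if `S ≤ T` are submodules of a torsion-free module over a
valuation ring and `T` is finitely generated, there is a single `c ≠ 0` with
`c • x ∈ S` for every `x ∈ T` some nonzero multiple of which lies in `S`.
-/

set_option autoImplicit false
set_option linter.unusedSectionVars false

namespace Fermat.Agent.Gateway.C0

open Module

variable {A : Type*} [CommRing A] [IsDomain A] [ValuationRing A]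
variable {V : Type*} [AddCommGroup V] [Module A V] [Module.IsTorsionFree A V]

/-- The saturation of `S` inside `T`. -/
def saturationIn (S T : Submodule A V) : Submodule A V where
  carrier := {x | x ∈ T ∧ ∃ c : A, c ≠ 0 ∧ c • x ∈ S}
  zero_mem' := ⟨T.zero_mem, 1, one_ne_zero, by simp⟩
  add_mem' := by
    rintro x y ⟨hx, c, hc, hcx⟩ ⟨hy, d, hd, hdy⟩
    refine ⟨T.add_mem hx hy, c * d, mul_ne_zero hc hd, ?_⟩
    rw [smul_add]
    refine S.add_mem ?_ ?_
    · rw [mul_comm, mul_smul]; exact S.smul_mem _ hcx
    · rw [mul_smul]; exact S.smul_mem _ hdy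
  smul_mem' := by
    rintro a x ⟨hx, c, hc, hcx⟩
    refine ⟨T.smul_mem _ hx, c, hc, ?_⟩
    rw [smul_comm]; exact S.smul_mem _ hcx

theorem mem_saturationIn {S T : Submodule A V} {x : V} :
    x ∈ saturationIn S T ↔ x ∈ T ∧ ∃ c : A, c ≠ 0 ∧ c • x ∈ S := Iff.rfl

theorem saturationIn_le (S T : Submodule A V) : saturationIn S T ≤ T := fun _ h => h.1


theorem saturationIn_fg {S T : Submodule A V} (hT : T.FG) : (saturationIn S T).FG := by
  classical
  -- the submodule of `T` corresponding to the saturation
  set Sat' : Submodule A T := (saturationIn S T).comap T.subtype with hSat'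
  have : Module.Finite A T := Module.Finite.iff_fg.mpr hT
  -- the quotient is torsion-free
  have htf : Module.IsTorsionFree A (T ⧸ Sat') := by
    refine ⟨fun r hr => ?_⟩
    have hr0 : r ≠ 0 := hr.ne_zero
    intro x y hxy
    induction x using Submodule.Quotient.induction_on with | _ x => ?_
    induction y using Submodule.Quotient.induction_on with | _ y => ?_
    simp only at hxy
    rw [← Submodule.Quotient.mk_smul, ← Submodule.Quotient.mk_smul, Submodule.Quotient.eq,
      ← smul_sub] at hxy
    rw [Submodule.Quotient.eq]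
    obtain ⟨-, c, hc, hcx⟩ := hxy
    refine ⟨(x - y).2, c * r, mul_ne_zero hc hr0, ?_⟩
    rw [mul_smul]
    simpa using hcx
  have : Module.Flat A (T ⧸ Sat') :=
    Module.Flat.flat_iff_torsion_eq_bot_of_isBezout.mpr
      (Submodule.isTorsionFree_iff_torsion_eq_bot.mp htf)
  have : Module.Free A (T ⧸ Sat') := Module.free_of_flat_of_isLocalRing
  have : Module.FinitePresentation A (T ⧸ Sat') := Module.finitePresentation_of_projective _ _
  have hker : (LinearMap.ker Sat'.mkQ).FG :=
    Module.FinitePresentation.fg_ker Sat'.mkQ (Submodule.mkQ_surjective _)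
  rw [Submodule.ker_mkQ] at hker
  have := hker.map T.subtype
  rwa [hSat', Submodule.map_comap_eq, Submodule.range_subtype,
    inf_eq_right.mpr (saturationIn_le S T)] at this

/-- Bounded torsion: a single `c ≠ 0` works for the whole saturation. -/
theorem exists_ne_zero_smul_mem_of_saturation {S T : Submodule A V} (hT : T.FG) :
    ∃ c : A, c ≠ 0 ∧ ∀ x ∈ T, (∃ d : A, d ≠ 0 ∧ d • x ∈ S) → c • x ∈ S := by
  classical
  obtain ⟨s, hs⟩ := saturationIn_fg (S := S) hT
  have hmem : ∀ y ∈ s, ∃ c : A, c ≠ 0 ∧ c • y ∈ S := by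
    intro y hy
    have : y ∈ saturationIn S T := hs ▸ Submodule.subset_span hy
    exact this.2
  choose! c hc hcy using hmem
  refine ⟨∏ y ∈ s, c y, Finset.prod_ne_zero_iff.mpr hc, fun x hx hx' => ?_⟩
  have hxs : x ∈ Submodule.span A (s : Set V) := hs ▸ (⟨hx, hx'⟩ : x ∈ saturationIn S T)
  clear hx hx'
  induction hxs using Submodule.span_induction with
  | mem y hy =>
    rw [← Finset.mul_prod_erase s c hy, mul_comm, mul_smul]
    exact S.smul_mem _ (hcy y hy)
  | zero => simp
  | add y z _ _ ihy ihz => rw [smul_add]; exact S.add_mem ihy ihz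
  | smul a y _ ih => rw [smul_comm]; exact S.smul_mem _ ih


end Fermat.Agent.Gateway.C0
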